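import Fermat.Agent.S34.Mod.Defs

set_option autoImplicit false

/-!
# MOD / task ALPERM : arithmetic of the Atkin-Lehner permutation (pure `ℕ`)

`Q ∣ N`, `gcd (Q, N / Q) = 1`.  Every `d ∣ N` is `e * f` with `e = gcd d Q ∣ Q`, `f = d / e ∣ N / Q`,
and `alPerm Q d = (Q / e) * f`.
-/

namespace Fermat.Agent.Mod

theorem alPerm_mul {Q e f : ℕ} (hQ : 0 < Q) (he : e ∣ Q) (hf : Nat.Coprime f Q) :
    alPerm Q (e * f) = (Q / e) * f := by
  have he0 : 0 < e := Nat.pos_of_dvd_of_pos he hQ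
  have hg : Nat.gcd (e * f) Q = e := by
    rw [Nat.Coprime.gcd_mul_right_cancel e hf, Nat.gcd_eq_left he]
  rw [alPerm, hg, Nat.mul_div_cancel_left f he0]

theorem exists_factor {N Q d : ℕ} (hN : 0 < N) (hQ : Q ∣ N) (hc : Nat.Coprime Q (N / Q)) (hd : d ∣ N) :
    ∃ e f : ℕ, e ∣ Q ∧ f ∣ N / Q ∧ d = e * f := by
  have hd' : d ∣ Q * (N / Q) := by rwa [Nat.mul_div_cancel' hQ]
  obtain ⟨e, f, he, hf, h⟩ := (Nat.dvd_mul).1 hd'
  exact ⟨e, f, he, hf, h.symm⟩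

theorem alPerm_dvd {N Q d : ℕ} (hN : 0 < N) (hQ : Q ∣ N) (hc : Nat.Coprime Q (N / Q)) (hd : d ∣ N) :
    alPerm Q d ∣ N := by
  have hQ0 : 0 < Q := Nat.pos_of_dvd_of_pos hQ hN
  obtain ⟨e, f, he, hf, rfl⟩ := exists_factor hN hQ hc hd
  have hfc : Nat.Coprime f Q := (Nat.Coprime.coprime_dvd_right hf hc).symm
  rw [alPerm_mul hQ0 he hfc]
  calc Q / e * f ∣ Q * (N / Q) := Nat.mul_dvd_mul (Nat.div_dvd_of_dvd he) hf
    _ = N := Nat.mul_div_cancel' hQ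

theorem alPerm_alPerm {N Q d : ℕ} (hN : 0 < N) (hQ : Q ∣ N) (hc : Nat.Coprime Q (N / Q))
    (hd : d ∣ N) : alPerm Q (alPerm Q d) = d := by
  have hQ0 : 0 < Q := Nat.pos_of_dvd_of_pos hQ hN
  obtain ⟨e, f, he, hf, rfl⟩ := exists_factor hN hQ hc hd
  have hfc : Nat.Coprime f Q := (Nat.Coprime.coprime_dvd_right hf hc).symm
  rw [alPerm_mul hQ0 he hfc, alPerm_mul hQ0 (Nat.div_dvd_of_dvd he) hfc,
    Nat.div_div_self he hQ0.ne']

/-- on divisors of `N / Q` it is multiplication by `Q`. -/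
theorem alPerm_of_dvd {N Q d : ℕ} (hN : 0 < N) (hQ : Q ∣ N) (hc : Nat.Coprime Q (N / Q))
    (hd : d ∣ N / Q) : alPerm Q d = Q * d := by
  have hQ0 : 0 < Q := Nat.pos_of_dvd_of_pos hQ hN
  have hfc : Nat.Coprime d Q := (Nat.Coprime.coprime_dvd_right hd hc).symm
  have := alPerm_mul hQ0 (one_dvd Q) hfc
  rwa [one_mul, Nat.div_one] at this

end Fermat.Agent.Mod
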