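import Fermat.Agent.S34.Mod.WMat
import Fermat.Agent.S34.Mod.AlPerm
import Fermat.Agent.S24.Phi

set_option autoImplicit false

/-!
# MOD / task WAN : over `ℚ̄`, the Atkin-Lehner permutation of the `j(q^d)` preserves all polynomial relations

`S24.PhiB N : A0 N →+* Btil N` is injective, `PhiB (const a) = constK a`, `PhiB (Jser d) = jd d`.

PROOF of `relLE_Kb`.  Let `Ψ u : MvPolynomial (Dv N) Kb →+* (ℍ → ℂ) := eval₂Hom constK u`.
(1) for `P`, `aeval (jFam Kb N) P ∈ A0 N` and `PhiB ⟨aeval (jFam Kb N) P, _⟩ = Ψ (fun d => jd d) P`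
    (`MvPolynomial.induction_on`, or compare ring homs with `MvPolynomial.ringHom_ext`); the same for the permuted family.
(2) `(Ψ (fun d => jd d) P) (A.W z) = (Ψ (fun d => jd (alPerm Q d)) P) z` for all `z`
    (evaluation at a point is a ring hom `(ℍ → ℂ) →+* ℂ`; `ALMat.jd_W`, `exists_factor`, `alPerm_mul`;
    note `f ∣ N / Q` is coprime to `Q`).
(3) `aeval (jFam) P = 0 ⟹ Ψ(jd) P = 0 ⟹ Ψ(jd ∘ alPerm) P = 0 ⟹ aeval (permuted) P = 0` (`PhiB_injective`).
-/

noncomputable section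

namespace Fermat.Agent.Mod

open UpperHalfPlane ModularCurve Fermat.Agent.S24

theorem jS_Kb (d : ℕ) : jS Kb d = Jser d := rfl

theorem FK_Kb (N : ℕ) [NeZero N] : FK Kb N = modularFunctionFieldBar N := by
  rw [modularFunctionFieldBar_eq, FK_eq_adjoin]
  congr 1
  ext y
  constructor
  · rintro ⟨⟨d, hd⟩, rfl⟩
    exact ⟨d, hd, rfl⟩
  · rintro ⟨d, hd, rfl⟩
    exact ⟨⟨d, hd⟩, rfl⟩

/-- `P ↦ P(j(q^{δ d}))` with values in `A0 N`. -/
def wanTheta (N : ℕ) (δ : Dv N → Dv N) : MvPolynomial (Dv N) Kb →ₐ[Kb] A0 N :=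
  MvPolynomial.aeval (fun d => (⟨Jser (δ d).1, Jser_mem_A0 (δ d).2⟩ : A0 N))

theorem wanTheta_coe (N : ℕ) (δ : Dv N → Dv N) (P : MvPolynomial (Dv N) Kb) :
    ((wanTheta N δ P : A0 N) : LaurentSeries Kb) = MvPolynomial.aeval (fun d => jS Kb (δ d).1) P := by
  have := MvPolynomial.comp_aeval_apply
    (f := fun d => (⟨Jser (δ d).1, Jser_mem_A0 (δ d).2⟩ : A0 N)) (A0 N).val P
  exact this

/-- `P ↦ P(u)` with values in functions. -/
def wanPsi (N : ℕ) (u : Dv N → (ℍ → ℂ)) : MvPolynomial (Dv N) Kb →+* (ℍ → ℂ) :=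
  MvPolynomial.eval₂Hom constK u

theorem wan_PhiB (N : ℕ) [NeZero N] (δ : Dv N → Dv N) (P : MvPolynomial (Dv N) Kb) :
    ((PhiB N (wanTheta N δ P) : Btil N) : ℍ → ℂ) = wanPsi N (fun d => jd (δ d).1) P := by
  have h : ((Btil N).subtype.comp ((PhiB N).comp (wanTheta N δ : MvPolynomial (Dv N) Kb →+* A0 N)))
      = wanPsi N (fun d => jd (δ d).1) := by
    apply MvPolynomial.ringHom_ext
    · intro a
      simp only [RingHom.comp_apply, Subring.subtype_apply, wanPsi, MvPolynomial.coe_eval₂Hom,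
        MvPolynomial.eval₂_C]
      have e : (wanTheta N δ : MvPolynomial (Dv N) Kb →+* A0 N) (MvPolynomial.C a)
          = algebraMap Kb (A0 N) a := (wanTheta N δ).commutes a
      rw [e, PhiB_const]
    · intro d
      simp only [RingHom.comp_apply, Subring.subtype_apply, wanPsi, MvPolynomial.coe_eval₂Hom,
        MvPolynomial.eval₂_X]
      have e : (wanTheta N δ : MvPolynomial (Dv N) Kb →+* A0 N) (MvPolynomial.X d)
          = ⟨Jser (δ d).1, Jser_mem_A0 (δ d).2⟩ := MvPolynomial.aeval_X _ d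
      rw [e, PhiB_Jser N (δ d).2]
  exact congrArg (fun F : MvPolynomial (Dv N) Kb →+* (ℍ → ℂ) => F P) h

theorem wan_eval (N : ℕ) (u v : Dv N → (ℍ → ℂ)) (z w : ℍ) (h : ∀ d, u d w = v d z)
    (P : MvPolynomial (Dv N) Kb) : wanPsi N u P w = wanPsi N v P z := by
  have h' : (Pi.evalRingHom (fun _ : ℍ => ℂ) w).comp (wanPsi N u)
      = (Pi.evalRingHom (fun _ : ℍ => ℂ) z).comp (wanPsi N v) := by
    apply MvPolynomial.ringHom_ext
    · intro a
      simp [wanPsi]
    · intro d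
      simpa [wanPsi] using h d
  exact congrArg (fun F : MvPolynomial (Dv N) Kb →+* ℂ => F P) h'

theorem relLE_Kb (N Q : ℕ) [NeZero N] (hQ : Q ∣ N) (hc : Nat.Coprime Q (N / Q)) :
    RelLE Kb (jFam Kb N) (fun d => jS Kb (alPerm Q d.1)) := by
  have hN : 0 < N := Nat.pos_of_ne_zero (NeZero.ne N)
  have hQ0 : 0 < Q := Nat.pos_of_dvd_of_pos hQ hN
  obtain ⟨A⟩ := exists_alMat hc
  intro P hP
  set δ : Dv N → Dv N := fun d => ⟨alPerm Q d.1, alPerm_dvd hN hQ hc d.2⟩ with hδ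
  have h1 : wanTheta N id P = 0 := by
    apply Subtype.ext
    rw [wanTheta_coe]
    exact hP
  have h2 : wanPsi N (fun d => jd d.1) P = 0 := by
    have := wan_PhiB N id P
    rw [h1, map_zero] at this
    exact this.symm
  have h3 : wanPsi N (fun d => jd (δ d).1) P = 0 := by
    funext z
    rw [← wan_eval N (fun d => jd d.1) (fun d => jd (δ d).1) z (A.W z) _ P, h2]
    · rfl
    · rintro ⟨d, hd⟩
      obtain ⟨e, f, he, hf, rfl⟩ := exists_factor hN hQ hc hd
      have hfQ : Nat.Coprime f Q := (Nat.Coprime.coprime_dvd_right hf hc).symm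
      show jd (e * f) (A.W z) = jd (alPerm Q (e * f)) z
      rw [alPerm_mul hQ0 he hfQ]
      exact A.jd_W e f he hf hN hQ z
  have h4 : wanTheta N δ P = 0 := by
    apply PhiB_injective N
    apply Subtype.ext
    rw [wan_PhiB, h3, map_zero]
    rfl
  have h5 := wanTheta_coe N δ P
  rw [h4] at h5
  exact h5.symm

end Fermat.Agent.Mod
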