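import Fermat.Agent.S34.Mod.BCDeg
import Fermat.Agent.S34.Mod.WAn
import Fermat.Agent.GES.Fin

set_option autoImplicit false

/-!
# MOD / task DEG : `[F_{Mq,K} : F_{M,K}] ≤ q + 1` for `q ∤ M` and `K ↪ ℚ̄` (output (DEG))

* `degLE_Kb`: `GES.finrank_algA hq hqM : finrank (FN M) (FN (M * q)) = q + 1` for the algebra structure `GES.algA M q` given by the inclusion
  `heckeAlphaBar Kb M q` (`coe_heckeAlphaBar`).  `q + 2` vectors in a space of dimension `q + 1` are linearly dependent
  (`Module.exists_nontrivial_relation_of_finrank_lt_card` / `exists_nontrivial_relation_of_finrank_lt_card`), `GES.finiteDimensional_algA`.  Translate with `FK_Kb`.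
* `degLE`: `DegLE.down ι`.
* `finrank_le`: `DegLE.finrank_le`.
-/

noncomputable section

namespace Fermat.Agent.Mod

open ModularCurve Fermat.Agent.S24

theorem degLE_Kb (M q : ℕ) [NeZero M] [NeZero q] (hq : q.Prime) (hqM : ¬ q ∣ M) :
    DegLE (FK Kb M : Set (LaurentSeries Kb)) (FK Kb (M * q)) (q + 1) := by
  classical
  rw [FK_Kb, FK_Kb]
  intro v hv
  let _ := GES.algA M q
  have hfd : FiniteDimensional (FN M) (FN (M * q)) := GES.finiteDimensional_algA M q
  have hfr : Module.finrank (FN M) (FN (M * q)) = q + 1 := GES.finrank_algA M q hq hqM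
  let w : Fin (q + 1 + 1) → FN (M * q) := fun a => ⟨v a, hv a⟩
  have hnli : ¬ LinearIndependent (FN M) w := by
    intro hli
    have h1 := hli.fintype_card_le_finrank
    rw [hfr, Fintype.card_fin] at h1
    omega
  rw [Fintype.linearIndependent_iff] at hnli
  push Not at hnli
  obtain ⟨g, hg, a₀, ha₀⟩ := hnli
  refine ⟨fun a => (g a : LaurentSeries Kb), fun a => (g a).2, ?_, ?_⟩
  · intro h0
    exact ha₀ (Subtype.ext (congrFun h0 a₀))
  · have h1 := congrArg (fun x : FN (M * q) => (x : LaurentSeries Kb)) hg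
    have h2 : ((∑ a, g a • w a : FN (M * q)) : LaurentSeries Kb) =
        ∑ a, (g a : LaurentSeries Kb) * v a := by
      rw [AddSubmonoidClass.coe_finsetSum]
      rfl
    rw [← h2]
    exact h1

theorem degLE {K : Type} [Field K] (ι : K →+* Kb) (M q : ℕ) [NeZero M] [NeZero q] (hq : q.Prime)
    (hqM : ¬ q ∣ M) : DegLE (FK K M : Set (LaurentSeries K)) (FK K (M * q)) (q + 1) :=
  DegLE.down ι M (M * q) (q + 1) (degLE_Kb M q hq hqM)

theorem FK_le {K : Type} [Field K] (M q : ℕ) [NeZero M] [NeZero q] : FK K M ≤ FK K (M * q) :=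
  full_degeneracyC_le K (dvd_mul_right M q)

theorem finrank_le {K : Type} [Field K] (ι : K →+* Kb) (M q : ℕ) [NeZero M] [NeZero q]
    (hq : q.Prime) (hqM : ¬ q ∣ M) :
    FiniteDimensional (FK K M) (IntermediateField.extendScalars (FK_le (K := K) M q)) ∧
      Module.finrank (FK K M) (IntermediateField.extendScalars (FK_le (K := K) M q)) ≤ q + 1 :=
  DegLE.finrank_le _ _ _ _ (degLE ι M q hq hqM)

end Fermat.Agent.Mod
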