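import Fermat.Agent.S34.Mod.IntOver

set_option autoImplicit false

/-!
# MOD / task NP : the Newton polygon of `Φ_q` (pure valuation theory)

`v = V.valuation` (multiplicative, `v z ≤ 1 ↔ z ∈ V`, `ValuationSubring.valuation_le_one_iff`), trivial on `K`
(`v (algebraMap a) = 1` for `a ≠ 0`, since `a, a⁻¹ ∈ V`).  For `P : K[X]` and `1 < v Y`:
`v (aeval Y P) ≤ v Y ^ P.natDegree`, with equality ... (only `≤` and the exact value for the top term are used).

ADDITIVE SKETCH (α = -log v X, β = -log v Y).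
(1) `Y ∈ V → X ∈ V`: `X` is integral over `K[Y]` (`IntOver.of_rel`, `IntOver.mem_valuationSubring`).
    By `h2` also `X ∈ V → Y ∈ V`.
(2) Let `Y ∉ V`, so `X ∉ V`: α, β < 0.  In `h1 : X^(q+1) + ∑ c_k(Y) X^k = 0` the terms have valuations
    `A = (q+1) α`, `B = q α + q β` (EXACTLY: the top term `- Y^q X^q` of `c_q(Y) X^q`), all the other terms of
    `c_k(Y) X^k`, `1 ≤ k ≤ q`, are `> B`, and `C = v (c_0(Y)) ≥ (q+1) β`.
    The minimum is attained twice, so one of: `A = B` (i.e. `α = q β`: DONE);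
    `A = C < B` (impossible: `α ≥ β` and `α < q β ≤ β`); `B = C ≤ A`, which gives `q α ≥ β` [and `q β ≤ α`].
    The same for `h2` (X ↔ Y): `β = q α` (DONE) or `q β ≥ α` and `q α ≤ β`.
    In the remaining case `q α ≥ β` and `q α ≤ β`, so `β = q α`: DONE.
-/

noncomputable section

namespace Fermat.Agent.Mod

open Polynomial

variable {K L : Type*} [Field K] [Field L] [Algebra K L]

theorem PhiShape.intOver {q : ℕ} {X Y : L} (h : PhiShape K q X Y) : IntOver K Y X := by
  obtain ⟨c, h, -⟩ := h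
  exact IntOver.of_rel (q + 1) c h

section val

variable {Γ : Type*} [LinearOrderedCommGroupWithZero Γ] (v : Valuation L Γ)

theorem val_aeval_le (hK : ∀ a : K, v (algebraMap K L a) ≤ 1) {Y : L} (hY : 1 ≤ v Y) (P : K[X])
    {n : ℕ} (hn : P.natDegree ≤ n) : v (aeval Y P) ≤ v Y ^ n := by
  rw [aeval_eq_sum_range' (Nat.lt_succ_of_le hn)]
  apply v.map_sum_le
  intro i hi
  rw [Algebra.smul_def, map_mul, map_pow]
  calc v (algebraMap K L (P.coeff i)) * v Y ^ i ≤ 1 * v Y ^ i := by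
        gcongr
        exact hK _
    _ ≤ v Y ^ n := by
        rw [one_mul]
        exact pow_le_pow_right₀ hY (Nat.lt_succ_iff.mp (Finset.mem_range.mp hi))

theorem val_aeval_eq (hK : ∀ a : K, v (algebraMap K L a) ≤ 1)
    (hK1 : ∀ a : K, a ≠ 0 → v (algebraMap K L a) = 1) {Y : L} (hY : 1 < v Y) (P : K[X])
    {n : ℕ} (hn : P.natDegree ≤ n) (hc : P.coeff n ≠ 0) : v (aeval Y P) = v Y ^ n := by
  rw [aeval_eq_sum_range' (Nat.lt_succ_of_le hn), Finset.sum_range_succ]
  have h0 : v Y ^ n ≠ 0 := pow_ne_zero _ (ne_of_gt (lt_trans zero_lt_one hY))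
  have h2 : v (P.coeff n • Y ^ n) = v Y ^ n := by
    rw [Algebra.smul_def, map_mul, map_pow, hK1 _ hc, one_mul]
  have h1 : v (∑ i ∈ Finset.range n, P.coeff i • Y ^ i) < v (P.coeff n • Y ^ n) := by
    rw [h2]
    apply v.map_sum_lt h0
    intro i hi
    rw [Algebra.smul_def, map_mul, map_pow]
    calc v (algebraMap K L (P.coeff i)) * v Y ^ i ≤ 1 * v Y ^ i := by
          gcongr
          exact hK _
      _ < v Y ^ n := by
          rw [one_mul]
          exact pow_lt_pow_right₀ hY (Finset.mem_range.mp hi)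
  rw [v.map_add_eq_of_lt_right h1, h2]

/-- one half of the Newton polygon argument. -/
theorem np_half (hK : ∀ a : K, v (algebraMap K L a) ≤ 1)
    (hK1 : ∀ a : K, a ≠ 0 → v (algebraMap K L a) = 1) {q : ℕ} {X Y : L}
    (h1 : PhiShape K q X Y) (hX : 1 < v X) (hY : 1 < v Y) :
    v X = v Y ^ q ∨ v X ^ q ≤ v Y := by
  obtain ⟨c, hrel, hc1, hc2, hc3⟩ := h1
  by_contra hcon
  push Not at hcon
  obtain ⟨hne, hlt⟩ := hcon
  have ha0 : v X ≠ 0 := ne_of_gt (lt_trans zero_lt_one hX)
  have hb0 : v Y ≠ 0 := ne_of_gt (lt_trans zero_lt_one hY)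
  rcases Nat.eq_zero_or_pos q with rfl | hq0
  · -- `q = 0`
    simp at hlt
    exact absurd hY (not_lt.mpr hlt.le)
  -- the term `c_q(Y) X^q`
  have hTq : v (aeval Y (c q) * X ^ q) = v Y ^ q * v X ^ q := by
    rw [map_mul, map_pow, val_aeval_eq v hK hK1 hY (c q) (hc1 q hq0 le_rfl)
      (by rw [hc2]; exact neg_ne_zero.mpr one_ne_zero)]
  have hB0 : v Y ^ q * v X ^ q ≠ 0 := mul_ne_zero (pow_ne_zero _ hb0) (pow_ne_zero _ ha0)
  -- split the sum
  rw [Finset.sum_range_succ, Finset.range_eq_Ico, Finset.sum_eq_sum_Ico_succ_bot hq0] at hrel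
  have hmid : v (∑ k ∈ Finset.Ico (0 + 1) q, aeval Y (c k) * X ^ k) < v Y ^ q * v X ^ q := by
    apply v.map_sum_lt hB0
    intro k hk
    obtain ⟨hk1, hk2⟩ := Finset.mem_Ico.mp hk
    rw [map_mul, map_pow]
    calc v (aeval Y (c k)) * v X ^ k ≤ v Y ^ q * v X ^ k := by
          gcongr
          exact val_aeval_le v hK hY.le (c k) (hc1 k hk1 hk2.le)
      _ < v Y ^ q * v X ^ q := by
          apply mul_lt_mul_of_pos_left (pow_lt_pow_right₀ hX hk2)
          exact zero_lt_iff.mpr (pow_ne_zero _ hb0)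
  have hT0 : v (aeval Y (c 0) * X ^ 0) ≤ v Y ^ (q + 1) := by
    rw [pow_zero, mul_one]
    exact val_aeval_le v hK hY.le (c 0) hc3
  have hAB : v (X ^ (q + 1)) ≠ v (aeval Y (c q) * X ^ q) := by
    rw [hTq, map_pow, pow_succ, mul_comm]
    intro h
    exact hne (mul_right_cancel₀ (pow_ne_zero _ ha0) h)
  have hsum : v Y ^ q * v X ^ q ≤ v (X ^ (q + 1) + aeval Y (c q) * X ^ q) := by
    rw [v.map_add_of_distinct_val hAB, hTq]
    exact le_max_right _ _
  have hsum2 : v (X ^ (q + 1) + aeval Y (c q) * X ^ q +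
      ∑ k ∈ Finset.Ico (0 + 1) q, aeval Y (c k) * X ^ k) =
      v (X ^ (q + 1) + aeval Y (c q) * X ^ q) :=
    v.map_add_eq_of_lt_left (lt_of_lt_of_le hmid hsum)
  have heq : X ^ (q + 1) + aeval Y (c q) * X ^ q +
      ∑ k ∈ Finset.Ico (0 + 1) q, aeval Y (c k) * X ^ k = -(aeval Y (c 0) * X ^ 0) := by
    rw [eq_neg_iff_add_eq_zero, ← hrel]
    ring
  rw [heq, Valuation.map_neg] at hsum2
  have hfin : v Y ^ q * v X ^ q ≤ v Y ^ q * v Y := by
    rw [← pow_succ]
    exact (hsum.trans hsum2.symm.le).trans hT0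
  have := le_of_mul_le_mul_left hfin (zero_lt_iff.mpr (pow_ne_zero _ hb0))
  exact absurd this (not_le.mpr hlt)

end val

theorem valuation_algebraMap_le (V : ValuationSubring L) (hK : ∀ a : K, algebraMap K L a ∈ V)
    (a : K) : V.valuation (algebraMap K L a) ≤ 1 :=
  (V.valuation_le_one_iff _).mpr (hK a)

theorem valuation_algebraMap_eq (V : ValuationSubring L) (hK : ∀ a : K, algebraMap K L a ∈ V)
    (a : K) (ha : a ≠ 0) : V.valuation (algebraMap K L a) = 1 := by
  refine le_antisymm (valuation_algebraMap_le V hK a) ?_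
  have h1 := valuation_algebraMap_le V hK a⁻¹
  rw [map_inv₀, map_inv₀] at h1
  have h0 : V.valuation (algebraMap K L a) ≠ 0 := by
    rw [Valuation.ne_zero_iff]
    exact (_root_.map_ne_zero _).mpr ha
  exact (inv_le_one₀ (zero_lt_iff.mpr h0)).mp h1

theorem np {q : ℕ} (hq : 2 ≤ q) {X Y : L} (h1 : PhiShape K q X Y) (h2 : PhiShape K q Y X)
    (V : ValuationSubring L) (hK : ∀ a : K, algebraMap K L a ∈ V) (hY : Y ∉ V) :
    X ∉ V ∧ (V.valuation X = V.valuation Y ^ q ∨ V.valuation X ^ q = V.valuation Y) := by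
  have hX : X ∉ V := fun hX => hY (h2.intOver.mem_valuationSubring V hK hX)
  refine ⟨hX, ?_⟩
  have ha : 1 < V.valuation X := not_le.mp (fun h => hX ((V.valuation_le_one_iff _).mp h))
  have hb : 1 < V.valuation Y := not_le.mp (fun h => hY ((V.valuation_le_one_iff _).mp h))
  rcases np_half V.valuation (valuation_algebraMap_le V hK) (valuation_algebraMap_eq V hK) h1 ha hb
    with h | h
  · exact Or.inl h
  rcases np_half V.valuation (valuation_algebraMap_le V hK) (valuation_algebraMap_eq V hK) h2 hb ha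
    with h' | h'
  · exact Or.inr h'.symm
  exfalso
  have e1 : V.valuation X < V.valuation X ^ q := by
    calc V.valuation X = V.valuation X ^ 1 := (pow_one _).symm
      _ < V.valuation X ^ q := pow_lt_pow_right₀ ha (by omega)
  have e2 : V.valuation Y < V.valuation Y ^ q := by
    calc V.valuation Y = V.valuation Y ^ 1 := (pow_one _).symm
      _ < V.valuation Y ^ q := pow_lt_pow_right₀ hb (by omega)
  exact lt_irrefl _ (((e1.trans_le h).trans e2).trans_le h')

end Fermat.Agent.Mod
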