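import Fermat.Agent.S34.Mod.Phi
import Fermat.Agent.S34.Mod.NP

set_option autoImplicit false

/-!
# MOD / task G : `j(q^q) / j^q` is integral over `K[1/j]` (output (G): separation of the branches at the cusps)

`g_abs`: divide `X^(q+1) + ∑_{k ≤ q} c_k(Y) X^k = 0` by `Y^(q(q+1))`: with `g = X / Y^q`,
`g^(q+1) + ∑ (c_k(Y) / Y^(q(q+1-k))) g^k = 0`, and `c_k(Y) / Y^m = aeval Y⁻¹ (reverse-like polynomial)` as soon as `natDegree (c k) ≤ m`
(`m = q (q+1-k) ≥ q` for `1 ≤ k ≤ q`, `m = q(q+1) ≥ q+1` for `k = 0`): for `P` with `natDegree P ≤ m`,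
`aeval Y P = Y^m * aeval Y⁻¹ (P.reflect m)` (`Polynomial.reflect`, `Polynomial.eval₂_reflect_mul_pow` / `Polynomial.reverse`…, or a direct sum manipulation).
Then `IntOver.of_rel`.
-/

noncomputable section

namespace Fermat.Agent.Mod

open ModularCurve Polynomial

theorem g_abs {K L : Type*} [Field K] [Field L] [Algebra K L] {q : ℕ} (hq : 1 ≤ q) {X Y : L}
    (hY : Y ≠ 0) (h : PhiShape K q X Y) : IntOver K Y⁻¹ (X / Y ^ q) := by
  obtain ⟨c, hrel, hdeg, -, hdeg0⟩ := h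
  have key : ∀ (P : K[X]) (m : ℕ), P.natDegree ≤ m →
      Polynomial.aeval Y⁻¹ (P.reflect m) * Y ^ m = Polynomial.aeval Y P := by
    intro P m hm
    let _ : Invertible Y := invertibleOfNonzero hY
    have := Polynomial.eval₂_reflect_mul_pow (algebraMap K L) Y m P hm
    rw [invOf_eq_inv] at this
    exact this
  have hdegk : ∀ k ∈ Finset.range (q + 1), (c k).natDegree ≤ q * (q + 1 - k) := by
    intro k hk
    have hk' : k ≤ q := Nat.lt_succ_iff.1 (Finset.mem_range.1 hk)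
    rcases Nat.eq_zero_or_pos k with rfl | hk0
    · refine hdeg0.trans ?_
      rw [Nat.sub_zero]
      exact Nat.le_mul_of_pos_left _ hq
    · refine (hdeg k hk0 hk').trans ?_
      exact Nat.le_mul_of_pos_right _ (by omega)
  refine IntOver.of_rel (q + 1) (fun k => (c k).reflect (q * (q + 1 - k))) ?_
  have hYq : Y ^ (q * (q + 1)) ≠ 0 := pow_ne_zero _ hY
  apply mul_right_cancel₀ hYq
  rw [zero_mul, ← hrel, add_mul, Finset.sum_mul]
  congr 1
  · rw [div_pow, ← pow_mul, div_mul_cancel₀ _ hYq]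
  · refine Finset.sum_congr rfl fun k hk => ?_
    have hk' : k ≤ q := Nat.lt_succ_iff.1 (Finset.mem_range.1 hk)
    rw [← key (c k) _ (hdegk k hk)]
    have h1 : Y ^ (q * (q + 1)) = Y ^ (q * (q + 1 - k)) * (Y ^ q) ^ k := by
      rw [← pow_mul, ← pow_add, ← Nat.mul_add]
      congr 2
      omega
    rw [h1, div_pow]
    have h2 : (Y ^ q) ^ k ≠ 0 := pow_ne_zero _ (pow_ne_zero _ hY)
    field_simp

theorem G.jS_ne_zero (K : Type) [Field K] (d : ℕ) (hd : d ≠ 0) : jS K d ≠ 0 := by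
  have : NeZero d := ⟨hd⟩
  rw [jS_of_ne]
  exact (_root_.map_ne_zero (qExpand K d)).2 (jqModC_ne_zero_of_nontrivial K)

variable (K : Type) [Field K] [CharZero K]

theorem g_intOver (q : ℕ) (hq : q.Prime) (d : ℕ) (hd : d ≠ 0) :
    IntOver K (jS K d)⁻¹ (jS K (q * d) / jS K d ^ q) :=
  g_abs hq.one_le (G.jS_ne_zero K d hd) (phiShape K q hq d hd)

theorem g_intOver_swap (q : ℕ) (hq : q.Prime) (d : ℕ) (hd : d ≠ 0) :
    IntOver K (jS K (q * d))⁻¹ (jS K d / jS K (q * d) ^ q) :=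
  g_abs hq.one_le (G.jS_ne_zero K (q * d) (Nat.mul_ne_zero hq.ne_zero hd)) (phiShape_swap K q hq d hd)

end Fermat.Agent.Mod
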