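import Fermat.Agent.S34.Mod.NP

set_option autoImplicit false

/-!
# MOD / task M8ABS : `x` and `x' = x(q^q)` have the same zeros and the same poles (pure valuation theory)

Setting: `j = B(x)/x^r`, `jr = C(x)/x` with `B, C` monic of degree `r + 1`, `B(0), C(0) ≠ 0`; the same for
`x', j', jr'`; `(j', j)` and `(jr', jr)` satisfy `Φ_q`-shaped relations in both directions; `r ≠ q`, `r, q ≥ 2`.

Let `v = V.valuation`, trivial on `K`.  FACTS (ultrametric: the monic top term resp. the constant term dominates):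
 * `1 < v x`  ⟹ `v j = v x`,        `v jr = v x ^ r`;
 * `v x < 1`  ⟹ `v j = (v x)⁻¹ ^ r`, `v jr = (v x)⁻¹`;
 * `v x = 1`  ⟹ `v j ≤ 1`, `v jr ≤ 1`.
CLAIM: `x ∈ V ↔ x' ∈ V` and `x⁻¹ ∈ V ↔ x'⁻¹ ∈ V`, i.e. `v x, v x'` are both `< 1`, both `= 1` or both `> 1`.
Suppose e.g. `v x < 1` (put `a = (v x)⁻¹ > 1`: `v j = a^r`, `v jr = a`).  By `np`, `j' ∉ V`, so `v x' ≠ 1`.
If `v x' = b > 1`: `v j' = b`, `v jr' = b^r`, and `np` gives (`b = a^(rq)` or `b^q = a^r`) and
(`b^r = a^q` or `b^(rq) = a`).  Each of the four combinations is contradictory in a linearly ordered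
group (torsion free): `a^(r²q) = a^q`; `a^(r²q²) = a`; `a^(r²) = a^(q²)` [from `b^(qr)`]; `a^(r²) = a`.
(`pow_left_injective`, `pow_right_injective₀`/`pow_lt_pow_right₀` for `1 < a`.)  All other cases are symmetric
(swap the roles of `(x, j, jr)` and `(x', j', jr')`, the hypotheses are symmetric).
It is convenient to prove first a lemma `sign` : `v x < 1 → v x' < 1` and `1 < v x → 1 < v x'` for a
symmetric package of hypotheses and then to apply it twice.
-/

noncomputable section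

namespace Fermat.Agent.Mod

open Polynomial

variable {K L : Type*} [Field K] [Field L] [Algebra K L]

section val

variable {Γ : Type*} [LinearOrderedCommGroupWithZero Γ] (v : Valuation L Γ)

theorem val_aeval_le_one (hK : ∀ a : K, v (algebraMap K L a) ≤ 1) {x : L} (hx : v x ≤ 1)
    (P : K[X]) : v (aeval x P) ≤ 1 := by
  rw [aeval_eq_sum_range]
  apply v.map_sum_le
  intro i _
  rw [Algebra.smul_def, map_mul, map_pow]
  exact mul_le_one' (hK _) (pow_le_one₀ zero_le hx)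

theorem val_aeval_eq_one (hK : ∀ a : K, v (algebraMap K L a) ≤ 1)
    (hK1 : ∀ a : K, a ≠ 0 → v (algebraMap K L a) = 1) {x : L} (hx : v x < 1) (P : K[X])
    (hP : P.coeff 0 ≠ 0) : v (aeval x P) = 1 := by
  conv_lhs => rw [← divX_mul_X_add P]
  rw [map_add, map_mul, aeval_X, aeval_C]
  have h1 : v (aeval x P.divX * x) < v (algebraMap K L (P.coeff 0)) := by
    rw [hK1 _ hP, map_mul]
    calc v (aeval x P.divX) * v x ≤ 1 * v x := by
          gcongr
          exact val_aeval_le_one v hK hx.le _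
      _ < 1 := by rwa [one_mul]
  rw [v.map_add_eq_of_lt_right h1, hK1 _ hP]

/-- the arithmetic contradiction. -/
theorem m8_combo {a b : Γ} (ha : 1 < a) {r q : ℕ} (hr : 2 ≤ r) (hq : 2 ≤ q) (hrq : r ≠ q)
    (h1 : b = a ^ (r * q) ∨ b ^ q = a ^ r) (h2 : b ^ r = a ^ q ∨ b ^ (r * q) = a) : False := by
  have hinj : Function.Injective (fun n : ℕ => a ^ n) :=
    pow_right_injective₀ (lt_trans zero_lt_one ha) ha.ne'
  rcases h1 with h1 | h1 <;> rcases h2 with h2 | h2
  · rw [h1, ← pow_mul] at h2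
    have h3 : r * q * r = q := hinj h2
    have h4 : 2 * q * 2 ≤ r * q * r := by gcongr
    omega
  · rw [h1, ← pow_mul] at h2
    have h3 : r * q * (r * q) = 1 := hinj (by simpa using h2)
    have h4 : 2 * 2 * (2 * 2) ≤ r * q * (r * q) := by gcongr
    omega
  · have h3 : a ^ (r * r) = a ^ (q * q) := by
      rw [pow_mul, ← h1, pow_mul, ← h2, ← pow_mul, ← pow_mul, mul_comm]
    have h4 : r * r = q * q := hinj h3
    exact hrq (Nat.mul_self_inj.mp h4)
  · have h3 : a ^ (r * r) = a ^ 1 := by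
      rw [pow_mul, ← h1, ← pow_mul, mul_comm q r, h2, pow_one]
    have h4 : r * r = 1 := hinj h3
    nlinarith

/-- values of `j`, `jr` at a pole of `x`. -/
theorem m8_pole (hK : ∀ a : K, v (algebraMap K L a) ≤ 1)
    (hK1 : ∀ a : K, a ≠ 0 → v (algebraMap K L a) = 1) {r : ℕ} (B C : K[X])
    (hB : B.Monic) (hBd : B.natDegree = r + 1) (hC : C.Monic) (hCd : C.natDegree = r + 1)
    {x j jr : L} (h1 : j * x ^ r = aeval x B) (h2 : jr * x = aeval x C) (hx : 1 < v x) :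
    v j = v x ∧ v jr = v x ^ r := by
  have h0 : v x ≠ 0 := ne_of_gt (lt_trans zero_lt_one hx)
  have e1 := congrArg v h1
  have e2 := congrArg v h2
  rw [map_mul, map_pow, val_aeval_eq v hK hK1 hx B hBd.le
    (by rw [← hBd, hB.coeff_natDegree]; exact one_ne_zero), pow_succ, mul_comm] at e1
  rw [map_mul, val_aeval_eq v hK hK1 hx C hCd.le
    (by rw [← hCd, hC.coeff_natDegree]; exact one_ne_zero), pow_succ] at e2
  exact ⟨mul_left_cancel₀ (pow_ne_zero _ h0) e1, mul_right_cancel₀ h0 e2⟩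

/-- values of `j`, `jr` at a zero of `x`. -/
theorem m8_zero (hK : ∀ a : K, v (algebraMap K L a) ≤ 1)
    (hK1 : ∀ a : K, a ≠ 0 → v (algebraMap K L a) = 1) {r : ℕ} (B C : K[X])
    (hB0 : B.coeff 0 ≠ 0) (hC0 : C.coeff 0 ≠ 0)
    {x j jr : L} (hx0 : x ≠ 0) (h1 : j * x ^ r = aeval x B) (h2 : jr * x = aeval x C)
    (hx : v x < 1) : v j = (v x)⁻¹ ^ r ∧ v jr = (v x)⁻¹ := by
  have h0 : v x ≠ 0 := (Valuation.ne_zero_iff v).mpr hx0
  have e1 := congrArg v h1
  have e2 := congrArg v h2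
  rw [map_mul, map_pow, val_aeval_eq_one v hK hK1 hx B hB0] at e1
  rw [map_mul, val_aeval_eq_one v hK hK1 hx C hC0] at e2
  exact ⟨by rw [inv_pow]; exact eq_inv_of_mul_eq_one_left e1, eq_inv_of_mul_eq_one_left e2⟩

/-- `j` is integral where `x` is a unit. -/
theorem m8_unit (hK : ∀ a : K, v (algebraMap K L a) ≤ 1) {r : ℕ} (B : K[X])
    {x j : L} (h1 : j * x ^ r = aeval x B) (hx : v x = 1) : v j ≤ 1 := by
  have e1 := congrArg v h1
  rw [map_mul, map_pow, hx, one_pow, mul_one] at e1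
  rw [e1]
  exact val_aeval_le_one v hK hx.le B

end val

/-- `x'` has a zero (pole) wherever `x` has one. -/
theorem m8_sign {r q : ℕ} (hr : 2 ≤ r) (hq : 2 ≤ q) (hrq : r ≠ q) (B C : K[X])
    (hB : B.Monic) (hBd : B.natDegree = r + 1) (hB0 : B.coeff 0 ≠ 0)
    (hC : C.Monic) (hCd : C.natDegree = r + 1) (hC0 : C.coeff 0 ≠ 0)
    {x x' j j' jr jr' : L} (hx : x ≠ 0) (hx' : x' ≠ 0)
    (h1 : j * x ^ r = aeval x B) (h2 : jr * x = aeval x C)
    (h1' : j' * x' ^ r = aeval x' B) (h2' : jr' * x' = aeval x' C)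
    (P1 : PhiShape K q j' j) (P1s : PhiShape K q j j')
    (P2 : PhiShape K q jr' jr) (P2s : PhiShape K q jr jr')
    (V : ValuationSubring L) (hK : ∀ a : K, algebraMap K L a ∈ V) :
    (V.valuation x < 1 → V.valuation x' < 1) ∧ (1 < V.valuation x → 1 < V.valuation x') := by
  have hK0 := valuation_algebraMap_le V hK
  have hK1 := valuation_algebraMap_eq V hK
  have hnot : ∀ z : L, 1 < V.valuation z → z ∉ V := fun z hz hmem =>
    absurd ((V.valuation_le_one_iff z).mpr hmem) (not_le.mpr hz)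
  constructor
  · intro hlt
    obtain ⟨e1, e2⟩ := m8_zero V.valuation hK0 hK1 B C hB0 hC0 hx h1 h2 hlt
    have h0 : V.valuation x ≠ 0 := (Valuation.ne_zero_iff _).mpr hx
    have ha : 1 < (V.valuation x)⁻¹ := (one_lt_inv₀ (zero_lt_iff.mpr h0)).mpr hlt
    have hj : j ∉ V := hnot j (by rw [e1]; exact one_lt_pow₀ ha (by omega))
    have hjr : jr ∉ V := hnot jr (by rw [e2]; exact ha)
    obtain ⟨n1, n2⟩ := np hq P1 P1s V hK hj
    obtain ⟨-, n4⟩ := np hq P2 P2s V hK hjr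
    rcases lt_trichotomy (V.valuation x') 1 with h | h | h
    · exact h
    · exact absurd ((V.valuation_le_one_iff j').mp (m8_unit V.valuation hK0 B h1' h)) n1
    · exfalso
      obtain ⟨f1, f2⟩ := m8_pole V.valuation hK0 hK1 B C hB hBd hC hCd h1' h2' h
      rw [f1, e1, ← pow_mul] at n2
      rw [f2, e2, ← pow_mul] at n4
      exact m8_combo ha hr hq hrq n2 n4
  · intro hgt
    obtain ⟨e1, e2⟩ := m8_pole V.valuation hK0 hK1 B C hB hBd hC hCd h1 h2 hgt
    have hj : j ∉ V := hnot j (by rw [e1]; exact hgt)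
    have hjr : jr ∉ V := hnot jr (by rw [e2]; exact one_lt_pow₀ hgt (by omega))
    obtain ⟨n1, n2⟩ := np hq P1 P1s V hK hj
    obtain ⟨-, n4⟩ := np hq P2 P2s V hK hjr
    rcases lt_trichotomy (V.valuation x') 1 with h | h | h
    · exfalso
      obtain ⟨f1, f2⟩ := m8_zero V.valuation hK0 hK1 B C hB0 hC0 hx' h1' h2' h
      rw [f1, e1, ← pow_mul] at n2
      rw [f2, e2, ← pow_mul] at n4
      exact m8_combo hgt hr hq hrq n4 n2
    · exact absurd ((V.valuation_le_one_iff j').mp (m8_unit V.valuation hK0 B h1' h)) n1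
    · exact h

theorem m8_abs {r q : ℕ} (hr : 2 ≤ r) (hq : 2 ≤ q) (hrq : r ≠ q) (B C : K[X])
    (hB : B.Monic) (hBd : B.natDegree = r + 1) (hB0 : B.coeff 0 ≠ 0)
    (hC : C.Monic) (hCd : C.natDegree = r + 1) (hC0 : C.coeff 0 ≠ 0)
    {x x' j j' jr jr' : L} (hx : x ≠ 0) (hx' : x' ≠ 0)
    (h1 : j * x ^ r = aeval x B) (h2 : jr * x = aeval x C)
    (h1' : j' * x' ^ r = aeval x' B) (h2' : jr' * x' = aeval x' C)
    (P1 : PhiShape K q j' j) (P1s : PhiShape K q j j')
    (P2 : PhiShape K q jr' jr) (P2s : PhiShape K q jr jr')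
    (V : ValuationSubring L) (hK : ∀ a : K, algebraMap K L a ∈ V) :
    (x ∈ V ↔ x' ∈ V) ∧ (x⁻¹ ∈ V ↔ x'⁻¹ ∈ V) := by
  obtain ⟨s1, s2⟩ := m8_sign hr hq hrq B C hB hBd hB0 hC hCd hC0 hx hx' h1 h2 h1' h2'
    P1 P1s P2 P2s V hK
  obtain ⟨t1, t2⟩ := m8_sign hr hq hrq B C hB hBd hB0 hC hCd hC0 hx' hx h1' h2' h1 h2
    P1s P1 P2s P2 V hK
  have h0 : V.valuation x ≠ 0 := (Valuation.ne_zero_iff _).mpr hx
  have h0' : V.valuation x' ≠ 0 := (Valuation.ne_zero_iff _).mpr hx'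
  constructor
  · rw [← V.valuation_le_one_iff, ← V.valuation_le_one_iff, ← not_lt, ← not_lt]
    exact not_congr ⟨s2, t2⟩
  · rw [← V.valuation_le_one_iff, ← V.valuation_le_one_iff, map_inv₀, map_inv₀,
      inv_le_one₀ (zero_lt_iff.mpr h0), inv_le_one₀ (zero_lt_iff.mpr h0'), ← not_lt, ← not_lt]
    exact not_congr ⟨s1, t1⟩

/-- the four integrality statements. -/
theorem m8_intOver {r q : ℕ} (hr : 2 ≤ r) (hq : 2 ≤ q) (hrq : r ≠ q) (B C : K[X])
    (hB : B.Monic) (hBd : B.natDegree = r + 1) (hB0 : B.coeff 0 ≠ 0)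
    (hC : C.Monic) (hCd : C.natDegree = r + 1) (hC0 : C.coeff 0 ≠ 0)
    {x x' j j' jr jr' : L} (hx : x ≠ 0) (hx' : x' ≠ 0)
    (h1 : j * x ^ r = aeval x B) (h2 : jr * x = aeval x C)
    (h1' : j' * x' ^ r = aeval x' B) (h2' : jr' * x' = aeval x' C)
    (P1 : PhiShape K q j' j) (P1s : PhiShape K q j j')
    (P2 : PhiShape K q jr' jr) (P2s : PhiShape K q jr jr') :
    IntOver K x x' ∧ IntOver K x' x ∧ IntOver K x⁻¹ x'⁻¹ ∧ IntOver K x'⁻¹ x⁻¹ := by
  have key := fun (V : ValuationSubring L) (hK : ∀ a : K, algebraMap K L a ∈ V) =>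
    m8_abs hr hq hrq B C hB hBd hB0 hC hCd hC0 hx hx' h1 h2 h1' h2' P1 P1s P2 P2s V hK
  exact ⟨intOver_of_valuationSubring _ _ fun V hK h => (key V hK).1.1 h,
    intOver_of_valuationSubring _ _ fun V hK h => (key V hK).1.2 h,
    intOver_of_valuationSubring _ _ fun V hK h => (key V hK).2.1 h,
    intOver_of_valuationSubring _ _ fun V hK h => (key V hK).2.2 h⟩

end Fermat.Agent.Mod
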