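import Fermat.Agent.S34.Mod.BC

set_option autoImplicit false

/-!
# MOD / task BCREL : change of the constant field for `IntOver`, `RelLE`, `PhiShape`

See the header of `BC.lean` for THE TRICK (`exists_functional`, `sum_down`, `NV.map_mul_coeffMap`).
* `up` statements: map the polynomials by `i` -- except `RelLE.up`:
  if `aeval (i x) P = 0` but some coefficient `c` of `aeval (i y) P` is `≠ 0`, take `ℓ c = 1` and apply `h` to
  `P^ℓ` (coefficientwise `ℓ`; write `P = ∑ monomials` with `MvPolynomial.as_sum`, `aeval` of a monomial is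
  `C coeff * coeffMap i (monomial in the x a)`, then `sum_down`).
* `RelLE.down`: map `P` by `i`, `coeffMap i` is injective.
* `IntOver.down`, `PhiShape.down`: take `ℓ 1 = 1` (so `ℓ (i a) = a`) and apply `ℓ` to all coefficients of the relation.
-/

noncomputable section

namespace Fermat.Agent.Mod

open Polynomial ModularCurve

variable {k K : Type*} [Field k] [Field K] (i : k →+* K)

/-! ### auxiliary lemmas -/

theorem bcrel_comp_algebraMap :
    (coeffMap i).comp (algebraMap k (LaurentSeries k)) = (algebraMap K (LaurentSeries K)).comp i := by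
  ext1 a
  simp only [RingHom.comp_apply]
  rw [algebraMap_laurentSeries_eq_single, coeffMap_single, ← algebraMap_laurentSeries_eq_single]

theorem bcrel_aeval_map (t : LaurentSeries k) (P : k[X]) :
    aeval (coeffMap i t) (P.map i) = coeffMap i (aeval t P) := by
  rw [aeval_def, aeval_def, eval₂_map, hom_eval₂, bcrel_comp_algebraMap]

theorem bcrel_algebraMap_eq (e : K) : algebraMap K (LaurentSeries K) e = HahnSeries.C e := by
  rw [algebraMap_laurentSeries_eq_single, HahnSeries.C_apply]

/-- a functional applied to the coefficients of a polynomial. -/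
def polyDown (ℓ : K →+ k) (P : K[X]) : k[X] :=
  ∑ n ∈ Finset.range (P.natDegree + 1), Polynomial.monomial n (ℓ (P.coeff n))

theorem coeff_polyDown (ℓ : K →+ k) (P : K[X]) (n : ℕ) : (polyDown ℓ P).coeff n = ℓ (P.coeff n) := by
  unfold polyDown
  rw [Polynomial.finsetSum_coeff]
  simp only [Polynomial.coeff_monomial]
  rw [Finset.sum_ite_eq']
  split_ifs with h
  · rfl
  · rw [Finset.mem_range, not_lt] at h
    rw [Polynomial.coeff_eq_zero_of_natDegree_lt (by omega), map_zero]

theorem natDegree_polyDown_le (ℓ : K →+ k) (P : K[X]) : (polyDown ℓ P).natDegree ≤ P.natDegree := by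
  rw [Polynomial.natDegree_le_iff_coeff_eq_zero]
  intro n hn
  rw [coeff_polyDown, Polynomial.coeff_eq_zero_of_natDegree_lt hn, map_zero]

theorem polyDown_one (ℓ : K →+ k) (h1 : ℓ 1 = 1) : polyDown ℓ 1 = 1 := by
  ext n
  rw [coeff_polyDown, Polynomial.coeff_one, Polynomial.coeff_one]
  split_ifs
  · exact h1
  · exact map_zero ℓ

variable {i} in
theorem bcrel_map_aeval_mul {ℓ : K →+ k} (hℓ : ∀ (a : k) (e : K), ℓ (e * i a) = ℓ e * a)
    (P : K[X]) (t w : LaurentSeries k) :
    NV.Rational.mapHom ℓ (aeval (coeffMap i t) P * coeffMap i w) = aeval t (polyDown ℓ P) * w := by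
  rw [Polynomial.aeval_eq_sum_range, Finset.sum_mul, map_sum]
  unfold polyDown
  rw [map_sum, Finset.sum_mul]
  refine Finset.sum_congr rfl fun n _ => ?_
  rw [Polynomial.aeval_monomial, Algebra.smul_def, bcrel_algebraMap_eq, bcrel_algebraMap_eq,
    ← map_pow, mul_assoc, ← map_mul, mul_assoc]
  show (HahnSeries.C (P.coeff n) * coeffMap i (t ^ n * w)).map ℓ = _
  rw [NV.Rational.map_mul_coeffMap i ℓ hℓ, NV.Rational.map_C]

/-- a functional applied to the coefficients of a polynomial in several variables. -/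
def mvDown {I : Type*} (ℓ : K →+ k) (P : MvPolynomial I K) : MvPolynomial I k :=
  ∑ m ∈ P.support, MvPolynomial.monomial m (ℓ (P.coeff m))

variable {i} in
theorem bcrel_map_mvAeval {I : Type*} {ℓ : K →+ k}
    (hℓ : ∀ (a : k) (e : K), ℓ (e * i a) = ℓ e * a) (P : MvPolynomial I K)
    (x : I → LaurentSeries k) :
    NV.Rational.mapHom ℓ (MvPolynomial.aeval (fun a => coeffMap i (x a)) P) =
      MvPolynomial.aeval x (mvDown ℓ P) := by
  conv_lhs => rw [P.as_sum]
  unfold mvDown
  rw [map_sum, map_sum, map_sum]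
  refine Finset.sum_congr rfl fun m _ => ?_
  rw [MvPolynomial.aeval_monomial, MvPolynomial.aeval_monomial, bcrel_algebraMap_eq,
    bcrel_algebraMap_eq]
  have h1 : (m.prod fun a e => coeffMap i (x a) ^ e) = coeffMap i (m.prod fun a e => x a ^ e) := by
    rw [map_finsuppProd]
    simp only [map_pow]
  rw [h1]
  show (HahnSeries.C (P.coeff m) * coeffMap i _).map ℓ = _
  rw [NV.Rational.map_mul_coeffMap i ℓ hℓ, NV.Rational.map_C]

theorem bcrel_mvAeval_map {I : Type*} (x : I → LaurentSeries k) (P : MvPolynomial I k) :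
    MvPolynomial.aeval (fun a => coeffMap i (x a)) (MvPolynomial.map i P) =
      coeffMap i (MvPolynomial.aeval x P) := by
  rw [MvPolynomial.aeval_def, MvPolynomial.aeval_def, MvPolynomial.eval₂_map,
    MvPolynomial.eval₂_comp_left, bcrel_comp_algebraMap]
  rfl

/-! ### the statements -/

theorem IntOver.up {t z : LaurentSeries k} (h : IntOver k t z) :
    IntOver K (coeffMap i t) (coeffMap i z) := by
  obtain ⟨p, hp, hz⟩ := h
  refine ⟨p.map (Polynomial.mapRingHom i), hp.map _, ?_⟩
  rw [eval₂_map]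
  have hc : ((aeval (coeffMap i t) : K[X] →ₐ[K] LaurentSeries K) : K[X] →+* LaurentSeries K).comp
      (Polynomial.mapRingHom i) =
      (coeffMap i).comp ((aeval t : k[X] →ₐ[k] LaurentSeries k) : k[X] →+* LaurentSeries k) := by
    refine RingHom.ext fun P => ?_
    exact bcrel_aeval_map i t P
  rw [hc, ← hom_eval₂, hz, map_zero]

theorem IntOver.down {t z : LaurentSeries k} (h : IntOver K (coeffMap i t) (coeffMap i z)) :
    IntOver k t z := by
  obtain ⟨ℓ, hℓ, h1⟩ := exists_functional i 1 one_ne_zero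
  obtain ⟨p, hp, hz⟩ := h
  set n := p.natDegree with hn
  refine ⟨X ^ n + ∑ j ∈ Finset.range n, C (polyDown ℓ (p.coeff j)) * X ^ j, ?_, ?_⟩
  · apply Polynomial.monic_X_pow_add
    refine (Polynomial.degree_sum_le _ _).trans_lt ?_
    refine (Finset.sup_lt_iff (WithBot.bot_lt_coe n)).2 ?_
    intro j hj
    refine (Polynomial.degree_C_mul_X_pow_le _ _).trans_lt ?_
    exact WithBot.coe_lt_coe.2 (Finset.mem_range.1 hj)
  · rw [eval₂_eq_sum_range, ← hn, Finset.sum_range_succ] at hz
    have h2 := congrArg (NV.Rational.mapHom ℓ) hz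
    rw [map_add, map_sum, map_zero] at h2
    rw [eval₂_add, eval₂_pow, eval₂_X, eval₂_finsetSum, add_comm, ← h2]
    congr 1
    · refine Finset.sum_congr rfl fun j _ => ?_
      rw [eval₂_mul, eval₂_C, eval₂_pow, eval₂_X, ← map_pow]
      exact (bcrel_map_aeval_mul hℓ _ _ _).symm
    · have h3 : p.coeff n = 1 := hp
      rw [h3, ← map_pow]
      have := bcrel_map_aeval_mul hℓ (1 : K[X]) t (z ^ n)
      rw [polyDown_one ℓ h1, map_one (aeval t), one_mul] at this
      exact this.symm

theorem RelLE.up {I : Type*} {x y : I → LaurentSeries k} (h : RelLE k x y) :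
    RelLE K (fun a => coeffMap i (x a)) (fun a => coeffMap i (y a)) := by
  intro P hP
  by_contra hne
  obtain ⟨n, hn⟩ : ∃ n, (MvPolynomial.aeval (fun a => coeffMap i (y a)) P).coeff n ≠ 0 := by
    by_contra hcon
    push Not at hcon
    exact hne (HahnSeries.ext (funext hcon))
  obtain ⟨ℓ, hℓ, h1⟩ := exists_functional i _ hn
  have e1 := bcrel_map_mvAeval hℓ P x
  rw [hP, map_zero] at e1
  have e2 := h _ e1.symm
  rw [← bcrel_map_mvAeval hℓ P y] at e2
  have e3 := congrArg (fun s : LaurentSeries k => s.coeff n) e2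
  have e4 : ℓ ((MvPolynomial.aeval (fun a => coeffMap i (y a)) P).coeff n) = 0 := e3
  rw [h1] at e4
  exact one_ne_zero e4

theorem RelLE.down {I : Type*} {x y : I → LaurentSeries k}
    (h : RelLE K (fun a => coeffMap i (x a)) (fun a => coeffMap i (y a))) : RelLE k x y := by
  intro P hP
  have h1 := h (MvPolynomial.map i P) (by rw [bcrel_mvAeval_map, hP, map_zero])
  rw [bcrel_mvAeval_map] at h1
  exact (map_eq_zero (coeffMap i)).1 h1

theorem PhiShape.up {q : ℕ} {X Y : LaurentSeries k} (h : PhiShape k q X Y) :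
    PhiShape K q (coeffMap i X) (coeffMap i Y) := by
  obtain ⟨c, h1, h2, h3, h4⟩ := h
  refine ⟨fun j => (c j).map i, ?_, fun j hj hj' => (Polynomial.natDegree_map_le).trans (h2 j hj hj'),
    ?_, (Polynomial.natDegree_map_le).trans h4⟩
  · have := congrArg (coeffMap i) h1
    rw [map_add, map_sum, map_zero, map_pow] at this
    rw [← this]
    congr 1
    refine Finset.sum_congr rfl fun j _ => ?_
    rw [map_mul, map_pow, bcrel_aeval_map]
  · rw [Polynomial.coeff_map, h3, map_neg, map_one]

/-- take `ℓ 1 = 1`; `natDegree` can only drop and `ℓ (-1) = -1`. -/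
theorem PhiShape.down {q : ℕ} {X Y : LaurentSeries k}
    (h : PhiShape K q (coeffMap i X) (coeffMap i Y)) : PhiShape k q X Y := by
  obtain ⟨ℓ, hℓ, hℓ1⟩ := exists_functional i 1 one_ne_zero
  obtain ⟨c, h1, h2, h3, h4⟩ := h
  refine ⟨fun j => polyDown ℓ (c j), ?_,
    fun j hj hj' => (natDegree_polyDown_le ℓ _).trans (h2 j hj hj'), ?_,
    (natDegree_polyDown_le ℓ _).trans h4⟩
  · have := congrArg (NV.Rational.mapHom ℓ) h1
    rw [map_add, map_sum, map_zero] at this
    rw [← this]
    congr 1
    · have e := bcrel_map_aeval_mul hℓ (1 : K[X]) Y (X ^ (q + 1))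
      rw [polyDown_one ℓ hℓ1, map_one, one_mul, map_one, one_mul, map_pow] at e
      exact e.symm
    · refine Finset.sum_congr rfl fun j _ => ?_
      rw [← map_pow]
      exact (bcrel_map_aeval_mul hℓ _ _ _).symm
  · rw [coeff_polyDown, h3, map_neg, hℓ1]

end Fermat.Agent.Mod
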