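import Fermat.Agent.S34.Mod.Defs

set_option autoImplicit false

/-!
# MOD / task HOM : from relation preservation to field automorphisms (pure field theory)

`exists_algEquiv_of_relLE`: `A = Algebra.adjoin K (range x) = (MvPolynomial.aeval x).range`
(`Algebra.adjoin_range_eq_range_aeval`), `A ≃ MvPolynomial I K ⧸ ker` (`Ideal.quotientKerAlgEquivOfSurjective` /
`AlgHom.quotientKerEquivRange`), `RelLE` says `ker (aeval x) ≤ ker (aeval (x ∘ π))`, so `Ideal.Quotient.liftₐ` gives
`φ : A →ₐ[K] L`, `x a ↦ x (π a)`, with values in `A`.  `φ ∘ φ = id` on generators, so `φ` is injective; extend to the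
fraction field (`IsFractionRing (Algebra.adjoin K S) (IntermediateField.adjoin K S)` is an instance in
`Mathlib/FieldTheory/IntermediateField/Adjoin/Algebra.lean`; `IsFractionRing.liftAlgHom` / `IsLocalization.lift`), the image lies in
`adjoin K (range x)`; again `w ∘ w = id` by `ringHom_ext_adjoin`, whence the `AlgEquiv` (`AlgEquiv.ofAlgHom`).
-/

noncomputable section

namespace Fermat.Agent.Mod

open scoped IntermediateField.algebraAdjoinAdjoin

/-- two ring homomorphisms out of `K(S)` which agree on `K` and on `S` are equal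
(`IntermediateField.adjoin_induction`). -/
theorem ringHom_ext_adjoin {K L M : Type*} [Field K] [Field L] [Algebra K L] [Field M] (S : Set L)
    (f g : IntermediateField.adjoin K S →+* M)
    (hK : ∀ a : K, f (algebraMap K _ a) = g (algebraMap K _ a))
    (hS : ∀ (s : L) (hs : s ∈ S), f ⟨s, IntermediateField.subset_adjoin K S hs⟩ =
      g ⟨s, IntermediateField.subset_adjoin K S hs⟩) : f = g := by
  refine RingHom.ext fun y => ?_
  obtain ⟨y, hy⟩ := y
  induction hy using IntermediateField.adjoin_induction with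
  | mem x hx => exact hS x hx
  | algebraMap a => exact hK a
  | add x y hx hy h1 h2 =>
    have e : (⟨x + y, add_mem hx hy⟩ : IntermediateField.adjoin K S) = ⟨x, hx⟩ + ⟨y, hy⟩ := rfl
    rw [e, map_add, map_add, h1, h2]
  | inv x hx h1 =>
    have e : (⟨x⁻¹, inv_mem hx⟩ : IntermediateField.adjoin K S) = (⟨x, hx⟩ : IntermediateField.adjoin K S)⁻¹ := rfl
    rw [e, map_inv₀, map_inv₀, h1]
  | mul x y hx hy h1 h2 =>
    have e : (⟨x * y, mul_mem hx hy⟩ : IntermediateField.adjoin K S) = ⟨x, hx⟩ * ⟨y, hy⟩ := rfl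
    rw [e, map_mul, map_mul, h1, h2]

theorem exists_algEquiv_of_relLE {K L I : Type*} [Field K] [Field L] [Algebra K L] (x : I → L)
    (π : I → I) (hπ : ∀ a, π (π a) = a) (h : RelLE K x (fun a => x (π a))) :
    ∃ w : IntermediateField.adjoin K (Set.range x) ≃ₐ[K] IntermediateField.adjoin K (Set.range x),
      ∀ a, ((w ⟨x a, IntermediateField.subset_adjoin K _ ⟨a, rfl⟩⟩ :
        IntermediateField.adjoin K (Set.range x)) : L) = x (π a) := by
  set E := IntermediateField.adjoin K (Set.range x) with hE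
  set A := Algebra.adjoin K (Set.range x) with hA
  let xE : I → E := fun a => ⟨x a, IntermediateField.subset_adjoin K _ ⟨a, rfl⟩⟩
  let xA : I → A := fun a => ⟨x a, Algebra.subset_adjoin ⟨a, rfl⟩⟩
  let F₀ : MvPolynomial I K →ₐ[K] A := MvPolynomial.aeval xA
  let g : MvPolynomial I K →ₐ[K] E := MvPolynomial.aeval (fun a => xE (π a))
  have hF₀ : ∀ P, ((F₀ P : A) : L) = MvPolynomial.aeval x P := fun P =>
    MvPolynomial.comp_aeval_apply xA A.val P
  have hg : ∀ P, ((g P : E) : L) = MvPolynomial.aeval (fun a => x (π a)) P := fun P =>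
    MvPolynomial.comp_aeval_apply (fun a => xE (π a)) E.val P
  have hsurj : Function.Surjective F₀ := by
    rintro ⟨y, hy⟩
    have hy' : y ∈ (MvPolynomial.aeval x : MvPolynomial I K →ₐ[K] L).range := by
      rw [← Algebra.adjoin_range_eq_range_aeval]; exact hy
    obtain ⟨P, rfl⟩ := hy'
    exact ⟨P, Subtype.ext (hF₀ P)⟩
  have hker : ∀ P ∈ RingHom.ker F₀, g P = 0 := by
    intro P hP
    apply Subtype.ext
    rw [hg]
    apply h
    rw [← hF₀, (RingHom.mem_ker).1 hP]
    rfl
  let e := Ideal.quotientKerAlgEquivOfSurjective hsurj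
  let φ : A →ₐ[K] E := (Ideal.Quotient.liftₐ (RingHom.ker F₀) g hker).comp e.symm.toAlgHom
  have hφ : ∀ P, φ (F₀ P) = g P := by
    intro P
    have h1 : e (Ideal.Quotient.mk _ P) = F₀ P := rfl
    show Ideal.Quotient.liftₐ (RingHom.ker F₀) g hker (e.symm (F₀ P)) = g P
    rw [← h1, AlgEquiv.symm_apply_apply]
    rfl
  have hinj : Function.Injective φ := by
    rw [injective_iff_map_eq_zero]
    intro y hy
    obtain ⟨P, rfl⟩ := hsurj y
    rw [hφ] at hy
    have h1 : MvPolynomial.aeval (fun a => x (π a)) P = 0 := by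
      rw [← hg, hy]; rfl
    have h2 : MvPolynomial.aeval x (MvPolynomial.rename π P) = 0 := by
      rw [MvPolynomial.aeval_rename]; exact h1
    have h3 := h _ h2
    rw [MvPolynomial.aeval_rename] at h3
    have h4 : ((fun a => x (π a)) ∘ π) = x := by
      funext a
      simp [hπ]
    rw [h4] at h3
    apply Subtype.ext
    rw [hF₀, h3]
    rfl
  let W : E →ₐ[K] E := IsFractionRing.liftAlgHom (A := A) (K := E) hinj
  have hW : ∀ a, W (xE a) = xE (π a) := by
    intro a
    have h1 : xE a = algebraMap A E (F₀ (MvPolynomial.X a)) := by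
      apply Subtype.ext
      show x a = ((F₀ (MvPolynomial.X a) : A) : L)
      rw [hF₀, MvPolynomial.aeval_X]
    rw [h1, IsFractionRing.liftAlgHom_apply]
    have h2 := IsFractionRing.lift_algebraMap (A := A) (K := E) (g := (φ : A →+* E)) hinj
      (F₀ (MvPolynomial.X a))
    refine h2.trans ?_
    show φ (F₀ (MvPolynomial.X a)) = _
    rw [hφ]
    exact MvPolynomial.aeval_X _ a
  have hWW : W.comp W = AlgHom.id K E := by
    have h1 : ((W.comp W : E →ₐ[K] E) : E →+* E) = ((AlgHom.id K E : E →ₐ[K] E) : E →+* E) := by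
      apply ringHom_ext_adjoin
      · intro a
        exact ((W.comp W).commutes a).trans ((AlgHom.id K E).commutes a).symm
      · rintro _ ⟨a, rfl⟩
        show W (W (xE a)) = xE a
        rw [hW, hW, hπ]
    exact AlgHom.ext fun y => congrArg (fun f : E →+* E => f y) h1
  exact ⟨AlgEquiv.ofAlgHom W W hWW hWW, fun a => congrArg Subtype.val (hW a)⟩

end Fermat.Agent.Mod
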