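import Fermat.Agent.S34.Mod.WAn
import Fermat.Agent.S34.Mod.Hom
import Fermat.Agent.S34.Mod.BCRel

set_option autoImplicit false

/-!
# MOD / task W : the Atkin-Lehner involution `wQ K N Q` of `F_{N,K}` (`Q ∥ N`, `K` any field of characteristic 0)

* `relLE_al`: `relLE_Kb`, `RelLE.down` along `ℚ → ℚ̄`, `RelLE.up` along `ℚ → K` (`coeffMap_jS`).
* `exists_wQ`: `exists_algEquiv_of_relLE` with `I = Dv N`, `π d = ⟨alPerm Q d, alPerm_dvd ..⟩`, transported along
  `FK_eq_adjoin` (`IntermediateField.equivOfEq`, or `rw`/`subst` on the intermediate field before applying).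
* all the other statements: two ring homs out of `FK K N` which agree on `K` and on the `j(q^d)` are equal
  (`ringHom_ext_adjoin` + `FK_eq_adjoin`; state a local version `ringHom_ext_FK` first).
-/

noncomputable section

namespace Fermat.Agent.Mod

open ModularCurve

theorem relLE_al (K : Type) [Field K] [CharZero K] (N Q : ℕ) [NeZero N] (hQ : Q ∣ N)
    (hc : Nat.Coprime Q (N / Q)) :
    RelLE K (jFam K N) (fun d => jS K (alPerm Q d.1)) := by
  have h1 := relLE_Kb N Q hQ hc
  have h2 : RelLE ℚ (jFam ℚ N) (fun d => jS ℚ (alPerm Q d.1)) := by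
    apply RelLE.down (algebraMap ℚ S24.Kb)
    have e1 : (fun a => coeffMap (algebraMap ℚ S24.Kb) (jFam ℚ N a)) = jFam S24.Kb N :=
      funext fun a => coeffMap_jS _ _
    have e2 : (fun a : Dv N => coeffMap (algebraMap ℚ S24.Kb) (jS ℚ (alPerm Q a.1))) =
        fun d : Dv N => jS S24.Kb (alPerm Q d.1) := funext fun a => coeffMap_jS _ _
    rw [e1, e2]
    exact h1
  have h3 := RelLE.up (algebraMap ℚ K) h2
  have e1 : (fun a => coeffMap (algebraMap ℚ K) (jFam ℚ N a)) = jFam K N :=
    funext fun a => coeffMap_jS _ _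
  have e2 : (fun a : Dv N => coeffMap (algebraMap ℚ K) (jS ℚ (alPerm Q a.1))) =
      fun d : Dv N => jS K (alPerm Q d.1) := funext fun a => coeffMap_jS _ _
  rw [e1, e2] at h3
  exact h3

theorem w_ringHom_ext_of_eq {K L M : Type*} [Field K] [Field L] [Algebra K L] [Field M] (S : Set L)
    (E : IntermediateField K L) (hE : E = IntermediateField.adjoin K S) (f g : E →+* M)
    (hK : ∀ a : K, f (algebraMap K _ a) = g (algebraMap K _ a))
    (hS : ∀ (s : L) (_ : s ∈ S) (hsE : s ∈ E), f ⟨s, hsE⟩ = g ⟨s, hsE⟩) : f = g := by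
  subst hE
  exact ringHom_ext_adjoin S f g hK (fun s hs => hS s hs _)

theorem w_exists_algEquiv_of_eq {K L I : Type*} [Field K] [Field L] [Algebra K L] (x : I → L)
    (π : I → I) (hπ : ∀ a, π (π a) = a) (h : RelLE K x (fun a => x (π a)))
    (E : IntermediateField K L) (hE : E = IntermediateField.adjoin K (Set.range x)) :
    ∃ w : E ≃ₐ[K] E, ∀ (a : I) (ha : x a ∈ E), ((w ⟨x a, ha⟩ : E) : L) = x (π a) := by
  subst hE
  obtain ⟨w, hw⟩ := exists_algEquiv_of_relLE x π hπ h
  exact ⟨w, fun a _ => hw a⟩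

/-- two ring homs out of `F_{N,K}` which agree on `K` and on the generators are equal. -/
theorem ringHom_ext_FK {K : Type} [Field K] {N : ℕ} [NeZero N] {M : Type*} [Field M]
    (f g : FK K N →+* M) (hK : ∀ a : K, f (algebraMap K _ a) = g (algebraMap K _ a))
    (hj : ∀ (d : ℕ) (hd : d ∣ N), f (jF K N d hd) = g (jF K N d hd)) : f = g := by
  refine w_ringHom_ext_of_eq (Set.range (jFam K N)) (FK K N) (FK_eq_adjoin K N) f g hK ?_
  rintro s ⟨⟨d, hd⟩, rfl⟩ hsE
  exact hj d hd

theorem exists_wQ (K : Type) [Field K] [CharZero K] (N Q : ℕ) [NeZero N] (hQ : Q ∣ N)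
    (hc : Nat.Coprime Q (N / Q)) :
    ∃ w : FK K N ≃ₐ[K] FK K N, ∀ (d : ℕ) (hd : d ∣ N),
      ((w (jF K N d hd) : FK K N) : LaurentSeries K) = jS K (alPerm Q d) := by
  have hN : 0 < N := Nat.pos_of_ne_zero (NeZero.ne N)
  obtain ⟨w, hw⟩ := w_exists_algEquiv_of_eq (K := K) (jFam K N)
    (fun d => ⟨alPerm Q d.1, alPerm_dvd hN hQ hc d.2⟩)
    (fun d => Subtype.ext (alPerm_alPerm hN hQ hc d.2)) (relLE_al K N Q hQ hc) (FK K N)
    (FK_eq_adjoin K N)
  exact ⟨w, fun d hd => hw ⟨d, hd⟩ (jS_mem K hd)⟩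

/-- the Atkin-Lehner involution (the identity if `Q` is not an exact divisor of `N`). -/
def wQ (K : Type) [Field K] [CharZero K] (N Q : ℕ) [NeZero N] : FK K N ≃ₐ[K] FK K N :=
  if h : Q ∣ N ∧ Nat.Coprime Q (N / Q) then (exists_wQ K N Q h.1 h.2).choose else AlgEquiv.refl

section
variable (K : Type) [Field K] [CharZero K] (N Q : ℕ) [NeZero N] (hQ : Q ∣ N)
  (hc : Nat.Coprime Q (N / Q))

include hQ hc

theorem wQ_jF (d : ℕ) (hd : d ∣ N) :
    ((wQ K N Q (jF K N d hd) : FK K N) : LaurentSeries K) = jS K (alPerm Q d) := by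
  rw [wQ, dif_pos ⟨hQ, hc⟩]
  exact (exists_wQ K N Q hQ hc).choose_spec d hd

/-- `w_Q (j(q^(e f))) = j(q^((Q/e) f))`. -/
theorem wQ_jF_mul (e f : ℕ) (he : e ∣ Q) (hf : f ∣ N / Q) (hd : e * f ∣ N) :
    ((wQ K N Q (jF K N (e * f) hd) : FK K N) : LaurentSeries K) = jS K ((Q / e) * f) := by
  have hN : 0 < N := Nat.pos_of_ne_zero (NeZero.ne N)
  rw [wQ_jF K N Q hQ hc, alPerm_mul (Nat.pos_of_dvd_of_pos hQ hN) he
    ((Nat.Coprime.coprime_dvd_right hf hc).symm)]

theorem wQ_wQ (f : FK K N) : wQ K N Q (wQ K N Q f) = f := by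
  have hN : 0 < N := Nat.pos_of_ne_zero (NeZero.ne N)
  have h : ((wQ K N Q : FK K N →+* FK K N)).comp (wQ K N Q : FK K N →+* FK K N) =
      RingHom.id (FK K N) := by
    apply ringHom_ext_FK
    · intro a
      simp only [RingHom.comp_apply, RingHom.id_apply, RingHom.coe_coe, AlgEquiv.commutes]
    · intro d hd
      simp only [RingHom.comp_apply, RingHom.id_apply, RingHom.coe_coe]
      have h1 : wQ K N Q (jF K N d hd) = jF K N (alPerm Q d) (alPerm_dvd hN hQ hc hd) :=
        Subtype.ext (wQ_jF K N Q hQ hc d hd)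
      rw [h1]
      apply Subtype.ext
      rw [wQ_jF K N Q hQ hc, alPerm_alPerm hN hQ hc hd]
      rfl
  exact congrArg (fun φ : FK K N →+* FK K N => φ f) h

/-- on the subfield `F_{N/Q,K}` the involution is `q ↦ q^Q`. -/
theorem wQ_of_mem [NeZero Q] (f : FK K N) (hf : f.1 ∈ FK K (N / Q)) :
    ((wQ K N Q f : FK K N) : LaurentSeries K) = qExpand K Q f.1 := by
  have hN : 0 < N := Nat.pos_of_ne_zero (NeZero.ne N)
  have hNQ : NeZero (N / Q) := ⟨(Nat.div_pos (Nat.le_of_dvd hN hQ)
    (Nat.pos_of_ne_zero (NeZero.ne Q))).ne'⟩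
  have hle : FK K (N / Q) ≤ FK K N := full_degeneracyC_le K (Nat.div_dvd_of_dvd hQ)
  have h : ((FK K N).val : FK K N →+* LaurentSeries K).comp
      ((wQ K N Q : FK K N →+* FK K N).comp
        (IntermediateField.inclusion hle : FK K (N / Q) →+* FK K N)) =
      (qExpand K Q : LaurentSeries K →+* LaurentSeries K).comp
        ((FK K (N / Q)).val : FK K (N / Q) →+* LaurentSeries K) := by
    apply ringHom_ext_FK
    · intro a
      simp only [RingHom.comp_apply, RingHom.coe_coe, AlgHom.commutes, AlgEquiv.commutes]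
      rw [algebraMap_laurentSeries_eq_single, qExpand_single, mul_zero]
    · intro d hd
      simp only [RingHom.comp_apply, RingHom.coe_coe]
      have h1 : IntermediateField.inclusion hle (jF K (N / Q) d hd) =
          jF K N d (hd.trans (Nat.div_dvd_of_dvd hQ)) := rfl
      rw [h1]
      have h2 := wQ_jF K N Q hQ hc d (hd.trans (Nat.div_dvd_of_dvd hQ))
      rw [alPerm_of_dvd hN hQ hc hd] at h2
      refine h2.trans ?_
      exact (qExpand_jS K Q d).symm
  exact congrArg (fun φ : FK K (N / Q) →+* LaurentSeries K => φ ⟨f.1, hf⟩) h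

/-- compatibility with a change of the constant field (in particular with Galois automorphisms of `K`). -/
theorem wQ_mapFK {K' : Type} [Field K'] [CharZero K'] (σ : K →+* K') (f : FK K N) :
    wQ K' N Q (mapFK σ N f) = mapFK σ N (wQ K N Q f) := by
  have hmap : ∀ a : K, mapFK σ N (algebraMap K _ a) = algebraMap K' _ (σ a) := by
    intro a
    apply Subtype.ext
    exact congrArg (fun φ : K →+* LaurentSeries K' => φ a) (bcrel_comp_algebraMap σ)
  have h : ((wQ K' N Q : FK K' N →+* FK K' N)).comp (mapFK σ N) =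
      (mapFK σ N).comp (wQ K N Q : FK K N →+* FK K N) := by
    apply ringHom_ext_FK
    · intro a
      simp only [RingHom.comp_apply, RingHom.coe_coe, AlgEquiv.commutes, hmap]
    · intro d hd
      simp only [RingHom.comp_apply, RingHom.coe_coe]
      have h1 : mapFK σ N (jF K N d hd) = jF K' N d hd := Subtype.ext (coeffMap_jS σ d)
      rw [h1]
      apply Subtype.ext
      rw [wQ_jF K' N Q hQ hc, coe_mapFK]
      have h2 := wQ_jF K N Q hQ hc d hd
      rw [show (wQ K N Q (jF K N d hd)).1 = jS K (alPerm Q d) from h2, coeffMap_jS]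
  exact congrArg (fun φ : FK K N →+* FK K' N => φ f) h

/-- compatibility with the level: `N ∣ N'`, `Q ∥ N`, `Q ∥ N'`. -/
theorem wQ_level (N' : ℕ) [NeZero N'] (hN : N ∣ N') (hc' : Nat.Coprime Q (N' / Q)) (f : FK K N)
    (hf : f.1 ∈ FK K N') :
    ((wQ K N' Q ⟨f.1, hf⟩ : FK K N') : LaurentSeries K) = (wQ K N Q f : FK K N) := by
  have hle : FK K N ≤ FK K N' := full_degeneracyC_le K hN
  have h : ((FK K N').val : FK K N' →+* LaurentSeries K).comp
      ((wQ K N' Q : FK K N' →+* FK K N').comp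
        (IntermediateField.inclusion hle : FK K N →+* FK K N')) =
      ((FK K N).val : FK K N →+* LaurentSeries K).comp (wQ K N Q : FK K N →+* FK K N) := by
    apply ringHom_ext_FK
    · intro a
      simp only [RingHom.comp_apply, RingHom.coe_coe, AlgHom.commutes, AlgEquiv.commutes]
    · intro d hd
      simp only [RingHom.comp_apply, RingHom.coe_coe]
      have h1 : IntermediateField.inclusion hle (jF K N d hd) = jF K N' d (hd.trans hN) := rfl
      rw [h1]
      exact (wQ_jF K N' Q (hQ.trans hN) hc' d (hd.trans hN)).trans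
        (wQ_jF K N Q hQ hc d hd).symm
  exact congrArg (fun φ : FK K N →+* LaurentSeries K => φ f) h

end

end Fermat.Agent.Mod
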