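import Fermat.Agent.S34.Mod.PhiDeg
import Fermat.Agent.S34.Mod.W

set_option autoImplicit false

/-!
# MOD / task PHI : `Φ_q`-shaped relations between `j(q^(qd))` and `j(q^d)` over any `K` of characteristic `0`, in both directions

* `PhiShape.map`, `PhiShape.of_map`: apply the algebra hom to the relation (`map_sum`, `Polynomial.aeval_algHom_apply`).
* `phiShape`: `phiShape_C`, `PhiShape.down` along `ℚ → ℂ`, `PhiShape.up` along `ℚ → K` (`coeffMap_jS`), then `PhiShape.map (qExpandAlgHomC K d)` (`qExpand_jS`).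
* `phiShape_swap`: for `d = 1` view the relation in `FK K q` (`PhiShape.of_map (FK K q).val`), apply `wQ K q q` (it swaps `j` and `j(q^q)`: `wQ_jF`,
  `alPerm q 1 = q`, `alPerm q q = 1`; `Nat.Coprime q (q / q)`), go back with `PhiShape.map`; then `qExpandAlgHomC K d`.
-/

noncomputable section

namespace Fermat.Agent.Mod

open ModularCurve Polynomial

theorem PhiShape.map {K L L' : Type*} [Field K] [Field L] [Field L'] [Algebra K L] [Algebra K L']
    (φ : L →ₐ[K] L') {q : ℕ} {X Y : L} (h : PhiShape K q X Y) : PhiShape K q (φ X) (φ Y) := by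
  obtain ⟨c, h1, h2⟩ := h
  refine ⟨c, ?_, h2⟩
  have := congrArg φ h1
  rw [map_add, map_sum, map_zero, map_pow] at this
  rw [← this]
  congr 1
  refine Finset.sum_congr rfl fun k _ => ?_
  rw [map_mul, map_pow, Polynomial.aeval_algHom_apply]

theorem PhiShape.of_map {K L L' : Type*} [Field K] [Field L] [Field L'] [Algebra K L] [Algebra K L']
    (φ : L →ₐ[K] L') {q : ℕ} {X Y : L} (h : PhiShape K q (φ X) (φ Y)) : PhiShape K q X Y := by
  obtain ⟨c, h1, h2⟩ := h
  refine ⟨c, ?_, h2⟩
  have hinj : Function.Injective φ := φ.injective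
  apply hinj
  rw [map_add, map_sum, map_zero, map_pow, ← h1]
  congr 1
  refine Finset.sum_congr rfl fun k _ => ?_
  rw [map_mul, map_pow, Polynomial.aeval_algHom_apply]

theorem phiShape (K : Type) [Field K] [CharZero K] (q : ℕ) (hq : q.Prime) (d : ℕ) (hd : d ≠ 0) :
    PhiShape K q (jS K (q * d)) (jS K d) := by
  have : NeZero d := ⟨hd⟩
  have h1 : PhiShape ℚ q (jS ℚ q) (jS ℚ 1) := by
    apply PhiShape.down (algebraMap ℚ ℂ)
    rw [coeffMap_jS, coeffMap_jS]
    exact phiShape_C q hq
  have h2 := PhiShape.up (algebraMap ℚ K) h1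
  rw [coeffMap_jS, coeffMap_jS] at h2
  have h3 := PhiShape.map (qExpandAlgHomC K d) h2
  rw [qExpandAlgHomC_apply, qExpandAlgHomC_apply, qExpand_jS, qExpand_jS, mul_one, mul_comm] at h3
  exact h3

theorem phiShape_swap (K : Type) [Field K] [CharZero K] (q : ℕ) (hq : q.Prime) (d : ℕ)
    (hd : d ≠ 0) : PhiShape K q (jS K d) (jS K (q * d)) := by
  have : NeZero d := ⟨hd⟩
  have : NeZero q := ⟨hq.ne_zero⟩
  have h0 := phiShape K q hq 1 one_ne_zero
  rw [mul_one] at h0
  have h1 : PhiShape K q (jF K q q dvd_rfl) (jF K q 1 (one_dvd q)) :=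
    PhiShape.of_map (FK K q).val h0
  have h2 := PhiShape.map (FK K q).val (PhiShape.map (wQ K q q).toAlgHom h1)
  have hc : Nat.Coprime q (q / q) := by
    rw [Nat.div_self hq.pos]
    exact Nat.coprime_one_right q
  have e1 : (FK K q).val ((wQ K q q).toAlgHom (jF K q q dvd_rfl)) = jS K 1 := by
    have := wQ_jF K q q dvd_rfl hc q dvd_rfl
    rw [show alPerm q q = 1 by simp [alPerm, Nat.div_self hq.pos]] at this
    exact this
  have e2 : (FK K q).val ((wQ K q q).toAlgHom (jF K q 1 (one_dvd q))) = jS K q := by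
    have := wQ_jF K q q dvd_rfl hc 1 (one_dvd q)
    rw [show alPerm q 1 = q by simp [alPerm]] at this
    exact this
  rw [e1, e2] at h2
  have h3 := PhiShape.map (qExpandAlgHomC K d) h2
  rw [qExpandAlgHomC_apply, qExpandAlgHomC_apply, qExpand_jS, qExpand_jS, mul_one, mul_comm] at h3
  exact h3

end Fermat.Agent.Mod
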