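import Fermat.Agent.S34.Mod.X
import Fermat.Agent.S34.Mod.Phi
import Fermat.Agent.S34.Mod.M8Abs

set_option autoImplicit false

/-!
# MOD / task M8 : `x` and `x(q^q)` are integral over each other's polynomial rings (output (M8))

Apply `m8_intOver` in `L = LaurentSeries K` with `r = Λ.r`, `B = Λ.Bp.map (Int.castRingHom K)`, `C = (Cp Λ).map (Int.castRingHom K)`,
`x = xK K Λ`, `x' = qExpand K q x`, `j = jS K 1`, `j' = jS K q`, `jr = jS K r`, `jr' = jS K (q * r)`.
* `h1`: `S18.xK_rel` (`Λ.Ap = X ^ r`), `h2`: `xK_rel_r`; `h1'`, `h2'`: apply the ring hom `qExpand K q` (`qExpand_jS`, `Polynomial.hom_eval₂`; `Polynomial.aeval_map_algebraMap`-type lemmas to pass from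
  `aeval _ (P : ℤ[X])` to `aeval _ (P.map (Int.castRingHom K))`).
* monic / natDegree / constant coefficients: explicit polynomials, `CharZero K` (`256³ ≠ 0`, `27 * 243³ ≠ 0`, `16³`, `27 * 3³`); `Polynomial.Monic.map`, `natDegree` by `compute_degree`/`Monic.natDegree_mul`.
* `P1 = phiShape K q hq 1`, `P1s = phiShape_swap K q hq 1`, `P2 = phiShape K q hq r`, `P2s = phiShape_swap K q hq r` (`mul_one`).
* `x ≠ 0`: `S18.order_xK`/`leadingCoeff_xK`; `qExpand_injective`.
-/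

noncomputable section

namespace Fermat.Agent.Mod

open ModularCurve Polynomial Fermat.Agent.S18

theorem M8.aux2 (K : Type) [Field K] [CharZero K] (q : ℕ) [NeZero q] (hq : q.Prime) (hqr : 2 ≠ q)
    (x : LaurentSeries K) (hx : x ≠ 0) (h1 : (x + 256) ^ 3 = jqModC K * x ^ 2)
    (h2 : (x + 16) ^ 3 = jS K 2 * x) :
    IntOver K x (qExpand K q x) ∧ IntOver K (qExpand K q x) x ∧
      IntOver K x⁻¹ (qExpand K q x)⁻¹ ∧ IntOver K (qExpand K q x)⁻¹ x⁻¹ := by
  have P1 := phiShape K q hq 1 one_ne_zero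
  have P1s := phiShape_swap K q hq 1 one_ne_zero
  have P2 := phiShape K q hq 2 two_ne_zero
  have P2s := phiShape_swap K q hq 2 two_ne_zero
  rw [mul_one] at P1 P1s
  have h1' := congrArg (qExpand K q) h1
  have h2' := congrArg (qExpand K q) h2
  rw [map_pow, map_add, map_mul, map_pow, map_ofNat, ← jS_of_ne] at h1'
  rw [map_pow, map_add, map_mul, map_ofNat, qExpand_jS] at h2'
  rw [← jS_one] at h1
  refine m8_intOver (r := 2) le_rfl hq.two_le hqr ((X + C (256 : K)) ^ 3) ((X + C (16 : K)) ^ 3)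
    ((monic_X_add_C _).pow 3) ?_ ?_ ((monic_X_add_C _).pow 3) ?_ ?_ hx
    ((_root_.map_ne_zero (qExpand K q)).2 hx) ?_ ?_ ?_ ?_ P1 P1s P2 P2s
  · rw [(monic_X_add_C _).natDegree_pow, natDegree_X_add_C]
  · rw [coeff_zero_eq_eval_zero]
    simp
  · rw [(monic_X_add_C _).natDegree_pow, natDegree_X_add_C]
  · rw [coeff_zero_eq_eval_zero]
    simp
  · rw [← h1]; simp [map_ofNat]
  · rw [← h2]; simp [map_ofNat]
  · rw [← h1']; simp [map_ofNat]
  · rw [← h2']; simp [map_ofNat]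

theorem M8.aux3 (K : Type) [Field K] [CharZero K] (q : ℕ) [NeZero q] (hq : q.Prime) (hqr : 3 ≠ q)
    (x : LaurentSeries K) (hx : x ≠ 0) (h1 : (x + 27) * (x + 243) ^ 3 = jqModC K * x ^ 3)
    (h2 : (x + 27) * (x + 3) ^ 3 = jS K 3 * x) :
    IntOver K x (qExpand K q x) ∧ IntOver K (qExpand K q x) x ∧
      IntOver K x⁻¹ (qExpand K q x)⁻¹ ∧ IntOver K (qExpand K q x)⁻¹ x⁻¹ := by
  have P1 := phiShape K q hq 1 one_ne_zero
  have P1s := phiShape_swap K q hq 1 one_ne_zero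
  have P2 := phiShape K q hq 3 three_ne_zero
  have P2s := phiShape_swap K q hq 3 three_ne_zero
  rw [mul_one] at P1 P1s
  have h1' := congrArg (qExpand K q) h1
  have h2' := congrArg (qExpand K q) h2
  rw [map_mul, map_pow, map_add, map_add, map_mul, map_pow, map_ofNat, map_ofNat,
    ← jS_of_ne] at h1'
  rw [map_mul, map_pow, map_add, map_add, map_mul, map_ofNat, map_ofNat, qExpand_jS] at h2'
  rw [← jS_one] at h1
  refine m8_intOver (r := 3) (by norm_num) hq.two_le hqr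
    ((X + C (27 : K)) * (X + C (243 : K)) ^ 3) ((X + C (27 : K)) * (X + C (3 : K)) ^ 3)
    ((monic_X_add_C _).mul ((monic_X_add_C _).pow 3)) ?_ ?_
    ((monic_X_add_C _).mul ((monic_X_add_C _).pow 3)) ?_ ?_ hx
    ((_root_.map_ne_zero (qExpand K q)).2 hx) ?_ ?_ ?_ ?_ P1 P1s P2 P2s
  · rw [(monic_X_add_C _).natDegree_mul ((monic_X_add_C _).pow 3),
      (monic_X_add_C _).natDegree_pow, natDegree_X_add_C, natDegree_X_add_C]
  · rw [coeff_zero_eq_eval_zero]
    simp
  · rw [(monic_X_add_C _).natDegree_mul ((monic_X_add_C _).pow 3),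
      (monic_X_add_C _).natDegree_pow, natDegree_X_add_C, natDegree_X_add_C]
  · rw [coeff_zero_eq_eval_zero]
    simp
  · rw [← h1]; simp [map_ofNat]
  · rw [← h2]; simp [map_ofNat]
  · rw [← h1']; simp [map_ofNat]
  · rw [← h2']; simp [map_ofNat]

theorem m8 (K : Type) [Field K] [CharZero K] (Λ : Line) (hΛ : Λ = line2 ∨ Λ = line3) (q : ℕ)
    [NeZero q] (hq : q.Prime) (hqr : Λ.r ≠ q) :
    IntOver K (xK K Λ) (qExpand K q (xK K Λ)) ∧ IntOver K (qExpand K q (xK K Λ)) (xK K Λ) ∧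
      IntOver K (xK K Λ)⁻¹ (qExpand K q (xK K Λ))⁻¹ ∧
      IntOver K (qExpand K q (xK K Λ))⁻¹ (xK K Λ)⁻¹ := by
  have h1 := xK_rel K Λ hΛ
  have h2 := xK_rel_r Λ hΛ K
  have hx : xK K Λ ≠ 0 := by
    intro h0
    have := order_xK K Λ
    rw [h0, HahnSeries.order_zero] at this
    omega
  generalize xK K Λ = x at h1 h2 hx ⊢
  rcases hΛ with rfl | rfl
  · have e1 : line2.Bp = (X + 256) ^ 3 := rfl
    have e2 : line2.Ap = X ^ 2 := rfl
    have e3 : Cp line2 = (X + 16) ^ 3 := if_pos rfl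
    have e4 : line2.r = 2 := rfl
    rw [e1, e2] at h1
    rw [e3, e4] at h2
    rw [e4] at hqr
    simp only [map_pow, map_add, Polynomial.aeval_X, map_ofNat] at h1 h2
    exact M8.aux2 K q hq hqr x hx h1 h2
  · have e1 : line3.Bp = (X + 27) * (X + 243) ^ 3 := rfl
    have e2 : line3.Ap = X ^ 3 := rfl
    have e4 : line3.r = 3 := rfl
    have e3 : Cp line3 = (X + 27) * (X + 3) ^ 3 := if_neg (by rw [e4]; norm_num)
    rw [e1, e2] at h1
    rw [e3, e4] at h2
    rw [e4] at hqr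
    simp only [map_pow, map_add, map_mul, Polynomial.aeval_X, map_ofNat] at h1 h2
    exact M8.aux3 K q hq hqr x hx h1 h2

end Fermat.Agent.Mod
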