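import Fermat.Agent.S34.Mod.Defs
import Fermat.Agent.NV.Rational
import Fermat.Agent.S36.Descent.Rat

set_option autoImplicit false

/-!
# MOD / task BC : change of the constant field `i : k → K` for subfields of `k((q))`

THE TRICK (see `NV/Rational.lean`, which does `ℚ̄ → ℂ`; `NV.map_mul_coeffMap` is already general):
a `k`-linear functional `ℓ : K → k` induces the additive map `y ↦ y.map ℓ : K((q)) → k((q))` with
`(y * coeffMap i x).map ℓ = y.map ℓ * x`.  So a relation `∑ C (c a) * coeffMap i (m a) = 0` over `K` gives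
`∑ C (ℓ (c a)) * m a = 0` over `k`.  Choose `ℓ` with `ℓ c = 1` for a suitable `c ≠ 0`
(`c = 1`: then `ℓ ∘ i = id`; `c` = a nonzero coefficient of a denominator, ...).

* `up` statements: map the polynomial / adjoin induction (cf. `S18.coeffMap_mem_FN`), except `RelLE.up`:
  if `aeval (i x) P = 0` but some coefficient `c` of `aeval (i y) P` is `≠ 0`, take `ℓ c = 1`, and apply `h` to
  `P^ℓ` (coefficientwise `ℓ`; e.g. write `P = ∑ monomials`, `MvPolynomial.as_sum`).
* `down` for `RelLE`, trivial: map `P` by `i`, `coeffMap i` is injective.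
* WARNING: on `LaurentSeries K` the `K`-algebra structure is the power series one:
  `algebraMap K _ a = HahnSeries.C a = single 0 a` is `ModularCurve.algebraMap_laurentSeries_eq_single`.
-/

noncomputable section

namespace Fermat.Agent.Mod

open Polynomial ModularCurve

section
variable {k K : Type*} [Field k] [Field K] (i : k →+* K)

theorem exists_functional (c : K) (hc : c ≠ 0) :
    ∃ ℓ : K →+ k, (∀ (a : k) (e : K), ℓ (e * i a) = ℓ e * a) ∧ ℓ c = 1 := by
  let _ : Algebra k K := i.toAlgebra
  obtain ⟨φ, hφ⟩ : ∃ φ : Module.Dual k K, φ c ≠ 0 := by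
    by_contra hcon
    push Not at hcon
    exact hc ((Module.forall_dual_apply_eq_zero_iff k c).1 hcon)
  refine ⟨((φ c)⁻¹ • φ).toAddMonoidHom, ?_, ?_⟩
  · intro a e
    have h1 : e * i a = a • e := by
      rw [Algebra.smul_def, mul_comm]
      rfl
    rw [h1]
    show ((φ c)⁻¹ • φ) (a • e) = ((φ c)⁻¹ • φ) e * a
    rw [map_smul, smul_eq_mul, mul_comm]
  · show ((φ c)⁻¹ • φ) c = 1
    rw [LinearMap.smul_apply, smul_eq_mul, inv_mul_cancel₀ hφ]

theorem sum_down {ι : Type*} (s : Finset ι) (c : ι → K) (m : ι → LaurentSeries k)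
    (h : ∑ a ∈ s, HahnSeries.C (c a) * coeffMap i (m a) = 0)
    (ℓ : K →+ k) (hℓ : ∀ (a : k) (e : K), ℓ (e * i a) = ℓ e * a) :
    ∑ a ∈ s, HahnSeries.C (ℓ (c a)) * m a = 0 := by
  have h1 := congrArg (NV.Rational.mapHom ℓ) h
  rw [map_sum, map_zero] at h1
  rw [← h1]
  refine Finset.sum_congr rfl fun a _ => ?_
  show _ = (HahnSeries.C (c a) * coeffMap i (m a)).map ℓ
  rw [NV.Rational.map_mul_coeffMap i ℓ hℓ, NV.Rational.map_C]

theorem mem_up (S : Set (LaurentSeries k)) {f : LaurentSeries k}
    (h : f ∈ IntermediateField.adjoin k S) :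
    coeffMap i f ∈ IntermediateField.adjoin K (coeffMap i '' S) := by
  induction h using IntermediateField.adjoin_induction with
  | mem x hx => exact IntermediateField.subset_adjoin K _ ⟨x, hx, rfl⟩
  | algebraMap r =>
    rw [algebraMap_laurentSeries_eq_single, coeffMap_single, ← algebraMap_laurentSeries_eq_single]
    exact IntermediateField.algebraMap_mem _ _
  | add x y _ _ hx hy => rw [map_add]; exact add_mem hx hy
  | inv x _ hx => rw [map_inv₀]; exact inv_mem hx
  | mul x y _ _ hx hy => rw [map_mul]; exact mul_mem hx hy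

theorem bc_range_C (k' : Type*) [Field k'] : Set.range (algebraMap k' (LaurentSeries k')) =
    Set.range (HahnSeries.C : k' → LaurentSeries k') := by
  ext y
  constructor
  · rintro ⟨c, rfl⟩
    exact ⟨c, by rw [algebraMap_laurentSeries_eq_single, HahnSeries.C_apply]⟩
  · rintro ⟨c, rfl⟩
    exact ⟨c, by rw [algebraMap_laurentSeries_eq_single, HahnSeries.C_apply]⟩

theorem mem_down (S : Set (LaurentSeries k)) {f : LaurentSeries k}
    (h : coeffMap i f ∈ IntermediateField.adjoin K (coeffMap i '' S)) :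
    f ∈ IntermediateField.adjoin k S := by
  have h1 : coeffMap i f ∈ Subfield.closure (S36.Descent.Rat.gens K (coeffMap i '' S)) := by
    unfold S36.Descent.Rat.gens
    rw [← bc_range_C K]
    exact h
  have h2 := S36.Descent.Rat.mem_of_coeffMap_mem_abs i S f h1
  unfold S36.Descent.Rat.gens at h2
  rw [← bc_range_C k] at h2
  exact h2

end

section
variable {k K : Type} [Field k] [Field K] (i : k →+* K)

theorem coeffMap_mem_FK (N : ℕ) [NeZero N] {f : LaurentSeries k} (h : f ∈ FK k N) :
    coeffMap i f ∈ FK K N := by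
  rw [FK_eq_adjoin] at h ⊢
  have h1 := mem_up i _ h
  have h2 : coeffMap i '' Set.range (jFam k N) = Set.range (jFam K N) := by
    ext y
    constructor
    · rintro ⟨_, ⟨d, rfl⟩, rfl⟩
      exact ⟨d, (coeffMap_jS i d.1).symm⟩
    · rintro ⟨d, rfl⟩
      exact ⟨_, ⟨d, rfl⟩, coeffMap_jS i d.1⟩
  rwa [h2] at h1

theorem mem_FK_of_coeffMap (N : ℕ) [NeZero N] {f : LaurentSeries k} (h : coeffMap i f ∈ FK K N) :
    f ∈ FK k N :=
  S36.Descent.Rat.mem_of_coeffMap_mem i N f h

/-- the map `F_{N,k} → F_{N,K}` on coefficients. -/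
def mapFK (N : ℕ) [NeZero N] : FK k N →+* FK K N where
  toFun f := ⟨coeffMap i f.1, coeffMap_mem_FK i N f.2⟩
  map_one' := Subtype.ext (map_one (coeffMap i))
  map_mul' a b := Subtype.ext (map_mul (coeffMap i) a.1 b.1)
  map_zero' := Subtype.ext (map_zero (coeffMap i))
  map_add' a b := Subtype.ext (map_add (coeffMap i) a.1 b.1)

@[simp] theorem coe_mapFK (N : ℕ) [NeZero N] (f : FK k N) :
    ((mapFK i N f : FK K N) : LaurentSeries K) = coeffMap i f.1 := rfl

end

end Fermat.Agent.Mod
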