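import Fermat.Agent.S34.Mod.WAn
import Fermat.Agent.S24.Degree
import Fermat.Agent.ES.NumIndex

set_option autoImplicit false

/-!
# MOD : degree arguments over `ℚ̄(j)` (shared by tasks DMEM and XMEM)

`Ej p = ℚ̄(j) ⊆ ℚ̄((q))`.  `mem_FN_of_finrank_le`: an extension `M` of `ℚ̄(j)` inside `ℚ̄((q))` of degree `≤ p + 1` which contains
`j(q^p)` is contained in (in fact equal to) `F_p = ℚ̄(j, j(q^p))`, because `[F_p : ℚ̄(j)] = p + 1` (`S24.finrank_jF`).
`finrank_adjoin_pair_le`: if all `X + c Y`, `c : ℕ`, have degree `≤ n` over `E` then `[E(X, Y) : E] ≤ n`.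
-/

noncomputable section

namespace Fermat.Agent.Mod

open IntermediateField Polynomial ModularCurve Fermat.Agent.S24

namespace MinDeg

section
variable (p : ℕ) [NeZero p]

/-- `j(q^p)` in `FN p`. -/
def Jp : FN p := ⟨Jser p, A0_le p _ (Jser_mem_A0 dvd_rfl)⟩

theorem thetaIncl_mem (hp : p.Prime) (a : A0 p) :
    thetaIncl p a ∈ (Kb⟮S24.jF p⟯)⟮Jp p⟯ := by
  obtain ⟨a, ha⟩ := a
  induction ha using Algebra.adjoin_induction with
  | mem x hx =>
    obtain ⟨d, hd, rfl⟩ := hx
    rcases (Nat.dvd_prime hp).mp hd with rfl | rfl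
    · exact ((Kb⟮S24.jF p⟯)⟮Jp p⟯).algebraMap_mem ⟨S24.jF p, mem_adjoin_simple_self Kb _⟩
    · exact mem_adjoin_simple_self _ (Jp d)
  | algebraMap r =>
    exact ((Kb⟮S24.jF p⟯)⟮Jp p⟯).algebraMap_mem (algebraMap Kb (Kb⟮S24.jF p⟯) r)
  | add x y hx hy h1 h2 =>
    rw [show (⟨x + y, add_mem hx hy⟩ : A0 p) = ⟨x, hx⟩ + ⟨y, hy⟩ from rfl, map_add]
    exact add_mem h1 h2
  | mul x y hx hy h1 h2 =>
    rw [show (⟨x * y, mul_mem hx hy⟩ : A0 p) = ⟨x, hx⟩ * ⟨y, hy⟩ from rfl, map_mul]
    exact mul_mem h1 h2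

theorem adjoin_Jp_eq_top (hp : p.Prime) : (Kb⟮S24.jF p⟯)⟮Jp p⟯ = ⊤ := by
  rw [eq_top_iff]
  intro f _
  obtain ⟨u, w, -, rfl⟩ := thetaIncl_exists_div p f
  exact div_mem (thetaIncl_mem p hp u) (thetaIncl_mem p hp w)

omit [NeZero p] in
theorem dedekindPsi_prime (hp : p.Prime) : dedekindPsi p = p + 1 := by
  have := ES.dedekindPsi_prime_mul_of_not_dvd hp one_ne_zero (by simpa using hp.one_lt.ne')
  simpa using this

theorem natDegree_minpoly_Jp (hp : p.Prime) : (minpoly (Kb⟮S24.jF p⟯) (Jp p)).natDegree = p + 1 := by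
  have hfin := finiteDimensional_jF p
  have hint : IsIntegral (Kb⟮S24.jF p⟯) (Jp p) := IsIntegral.of_finite _ _
  rw [← adjoin.finrank hint, adjoin_Jp_eq_top p hp, finrank_top', finrank_jF,
    dedekindPsi_prime p hp]

/-- `ℚ̄(j)` inside `ℚ̄((q))`. -/
def Ej : IntermediateField Kb (LaurentSeries Kb) := (Kb⟮S24.jF p⟯).map (modularFunctionFieldBar p).val

theorem Ej_le : Ej p ≤ modularFunctionFieldBar p := by
  rintro _ ⟨x, -, rfl⟩
  exact x.2

theorem j_mem_Ej : jqModC Kb ∈ Ej p := by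
  refine ⟨S24.jF p, mem_adjoin_simple_self Kb _, ?_⟩
  show Jser 1 = _
  exact degree_Jser_one

/-- `j` as an element of `Ej`. -/
def jE : Ej p := ⟨jqModC Kb, j_mem_Ej p⟩

/-- any nonzero polynomial over `ℚ̄(j)` vanishing at `j(q^p)` has degree `≥ p + 1`. -/
theorem le_natDegree (hp : p.Prime) (P : (Ej p)[X]) (hP : P ≠ 0)
    (h0 : Polynomial.aeval (Jser p) P = 0) : p + 1 ≤ P.natDegree := by
  let ψ : Kb⟮S24.jF p⟯ ≃ₐ[Kb] Ej p := equivMap (Kb⟮S24.jF p⟯) (modularFunctionFieldBar p).val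
  let φ : Ej p →+* Kb⟮S24.jF p⟯ := (ψ.symm : Ej p ≃ₐ[Kb] Kb⟮S24.jF p⟯).toRingEquiv.toRingHom
  have hφ : Function.Injective φ := ψ.symm.injective
  have hcomp : ∀ e : Ej p, (((φ e : Kb⟮S24.jF p⟯) : FN p) : LaurentSeries Kb) = (e : LaurentSeries Kb) := by
    intro e
    have := coe_equivMap_apply (Kb⟮S24.jF p⟯) (modularFunctionFieldBar p).val (ψ.symm e)
    rw [show equivMap (Kb⟮S24.jF p⟯) (modularFunctionFieldBar p).val (ψ.symm e) = e from
      ψ.apply_symm_apply e] at this
    exact this.symm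
  have h1 : Polynomial.aeval (Jp p) (P.map φ) = 0 := by
    apply Subtype.val_injective
    show (modularFunctionFieldBar p).val (Polynomial.aeval (Jp p) (P.map φ)) = 0
    rw [Polynomial.aeval_def, Polynomial.eval₂_map, ← AlgHom.coe_toRingHom, Polynomial.hom_eval₂]
    rw [Polynomial.aeval_def] at h0
    rw [← h0]
    congr 1
    exact RingHom.ext hcomp
  have h2 : P.map φ ≠ 0 := (Polynomial.map_ne_zero_iff hφ).mpr hP
  have h3 := Polynomial.natDegree_le_of_dvd (minpoly.dvd _ _ h1) h2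
  rw [natDegree_minpoly_Jp p hp, Polynomial.natDegree_map_eq_of_injective hφ] at h3
  exact h3

theorem mem_FN_of_finrank_le (hp : p.Prime) (M : IntermediateField (Ej p) (LaurentSeries Kb))
    [FiniteDimensional (Ej p) M] (hJ : Jser p ∈ M) (hM : Module.finrank (Ej p) M ≤ p + 1)
    {y : LaurentSeries Kb} (hy : y ∈ M) : y ∈ modularFunctionFieldBar p := by
  have hint : IsIntegral (Ej p) (Jser p) := by
    have h1 : IsIntegral (Ej p) (⟨Jser p, hJ⟩ : M) := IsIntegral.of_finite _ _
    exact h1.map M.val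
  have hle : (Ej p)⟮Jser p⟯ ≤ M := adjoin_simple_le_iff.mpr hJ
  have hdeg : p + 1 ≤ Module.finrank (Ej p) (Ej p)⟮Jser p⟯ := by
    rw [adjoin.finrank hint]
    exact le_natDegree p hp _ (minpoly.ne_zero hint) (minpoly.aeval _ _)
  have heq : (Ej p)⟮Jser p⟯ = M := eq_of_le_of_finrank_le hle (hM.trans hdeg)
  rw [← heq] at hy
  induction hy using IntermediateField.adjoin_induction with
  | mem x hx =>
    rw [Set.mem_singleton_iff] at hx
    subst hx
    exact (Jp p).2
  | algebraMap e => exact Ej_le p e.2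
  | add x y _ _ h1 h2 => exact add_mem h1 h2
  | inv x _ h1 => exact inv_mem h1
  | mul x y _ _ h1 h2 => exact mul_mem h1 h2

end

/-- if all `X + c Y` have degree `≤ n` over `E` then `[E(X,Y) : E] ≤ n`. -/
theorem finrank_adjoin_pair_le {E L : Type*} [Field E] [Field L] [Algebra E L] [CharZero E]
    (X Y : L) (n : ℕ)
    (h : ∀ c : ℕ, ∃ P : E[X], P ≠ 0 ∧ P.natDegree ≤ n ∧ Polynomial.aeval (X + (c : L) * Y) P = 0) :
    FiniteDimensional E (IntermediateField.adjoin E {X, Y}) ∧
      Module.finrank E (IntermediateField.adjoin E {X, Y}) ≤ n := by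
  have hint : ∀ c : ℕ, IsIntegral E (X + (c : L) * Y) := by
    intro c
    obtain ⟨P, hP, -, h0⟩ := h c
    exact isAlgebraic_iff_isIntegral.mp ⟨P, hP, h0⟩
  have hX : IsIntegral E X := by simpa using hint 0
  have hY : IsIntegral E Y := by
    have := (hint 1).sub hX
    simpa using this
  set M := IntermediateField.adjoin E ({X, Y} : Set L) with hM
  have hfin : FiniteDimensional E M := by
    apply IntermediateField.finiteDimensional_adjoin
    intro x hx
    rcases hx with rfl | hx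
    · exact hX
    · rw [Set.mem_singleton_iff] at hx; subst hx; exact hY
  refine ⟨hfin, ?_⟩
  have hXM : X ∈ M := IntermediateField.subset_adjoin E _ (Set.mem_insert _ _)
  have hYM : Y ∈ M := IntermediateField.subset_adjoin E _ (Set.mem_insert_of_mem _ rfl)
  let x' : M := ⟨X, hXM⟩
  let y' : M := ⟨Y, hYM⟩
  have hfinI : Finite (IntermediateField E M) :=
    Field.finite_intermediateField_of_exists_primitive_element E M
      (Field.exists_primitive_element E M)
  obtain ⟨c, c', hcc, heq⟩ := Finite.exists_ne_map_eq_of_infinite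
    (fun c : ℕ => (E⟮x' + (c : M) * y'⟯ : IntermediateField E M))
  set T := E⟮x' + (c : M) * y'⟯ with hT
  have h1 : x' + (c : M) * y' ∈ T := mem_adjoin_simple_self E _
  have h2 : x' + (c' : M) * y' ∈ T := by rw [heq]; exact mem_adjoin_simple_self E _
  have hne : ((c : M) - (c' : M)) ≠ 0 := by
    rw [sub_ne_zero]
    exact_mod_cast hcc
  have h3 : ((c : M) - (c' : M)) * y' ∈ T := by
    have := sub_mem h1 h2
    have e : x' + (c : M) * y' - (x' + (c' : M) * y') = ((c : M) - (c' : M)) * y' := by ring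
    rwa [e] at this
  have hcT : ((c : M) - (c' : M)) ∈ T := sub_mem (_root_.natCast_mem T c) (_root_.natCast_mem T c')
  have hy'T : y' ∈ T := by
    have := mul_mem (inv_mem hcT) h3
    rwa [← mul_assoc, inv_mul_cancel₀ hne, one_mul] at this
  have hx'T : x' ∈ T := by
    have := sub_mem h1 (mul_mem (_root_.natCast_mem T c) hy'T)
    simpa using this
  have hTtop : T = ⊤ := by
    rw [eq_top_iff]
    intro m _
    have hle : M ≤ T.map M.val := by
      refine (IntermediateField.adjoin_le_iff (F := E) (S := ({X, Y} : Set L))).mpr ?_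
      rintro z (rfl | hz)
      · exact ⟨x', hx'T, rfl⟩
      · rw [Set.mem_singleton_iff] at hz; subst hz; exact ⟨y', hy'T, rfl⟩
    obtain ⟨t, ht, hte⟩ := hle m.2
    have : t = m := Subtype.ext hte
    rwa [← this]
  obtain ⟨P, hP, hPn, h0⟩ := h c
  have h0' : Polynomial.aeval (x' + (c : M) * y') P = 0 := by
    apply Subtype.val_injective
    show M.val (Polynomial.aeval (x' + (c : M) * y') P) = 0
    rw [← Polynomial.aeval_algHom_apply]
    simpa using h0
  have hint' : IsIntegral E (x' + (c : M) * y') := IsIntegral.of_finite _ _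
  have h4 : Module.finrank E T = (minpoly E (x' + (c : M) * y')).natDegree := adjoin.finrank hint'
  rw [hTtop, finrank_top'] at h4
  rw [h4]
  exact (Polynomial.natDegree_le_of_dvd (minpoly.dvd _ _ h0') hP).trans hPn

end MinDeg

end Fermat.Agent.Mod
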