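import Fermat.Agent.S34.Mod.X
import Fermat.Agent.S34.Mod.BC
import Fermat.Agent.S34.Mod.MinDeg

set_option autoImplicit false

/-!
# MOD / task XMEM : `x ∈ F_{r,K} = K(j, j(q^r))` (output (X)), by a degree count over `ℚ̄`

`x` is a root of the monic polynomial `Bp - j Ap` of degree `r + 1` over `ℚ̄(j)`, `j(q^r) = Cp(x)/x ∈ ℚ̄(j)(x)`, and `[F_r : ℚ̄(j)] = r + 1`
(`MinDeg.mem_FN_of_finrank_le`).
-/

noncomputable section

namespace Fermat.Agent.Mod

open ModularCurve Polynomial IntermediateField Fermat.Agent.S18 Fermat.Agent.S24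

theorem coeffMap_xK {K K' : Type*} [CommRing K] [CommRing K'] (σ : K →+* K') (Λ : Line) :
    coeffMap σ (xK K Λ) = xK K' Λ := by
  rw [xK, xK, coeffMap_coeffMap]
  exact coeffMap_congr (RingHom.ext_int _ _) _

namespace XMem

theorem aeval_int {L : Type*} [CommRing L] [Algebra ℤ L] (x : L) (P : ℤ[X]) :
    Polynomial.aeval x P = Polynomial.eval₂ (Int.castRingHom L) x P := by
  rw [Polynomial.aeval_def]
  congr 1
  exact RingHom.ext_int _ _

/-- abstract version: a root of `B - j A` (`B` monic of degree `n`, `deg A < n`) generates an extension of degree `≤ n`. -/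
theorem finrank_le {E L : Type*} [Field E] [Field L] [Algebra E L] (x : L) (B A : E[X]) (j : E)
    (hB : B.Monic) (hA : A.degree < B.degree)
    (h : Polynomial.aeval x B = algebraMap E L j * Polynomial.aeval x A) :
    FiniteDimensional E E⟮x⟯ ∧ Module.finrank E E⟮x⟯ ≤ B.natDegree := by
  have hd : (C j * A).degree < B.degree := by
    by_cases hj : j = 0
    · rw [hj, map_zero, zero_mul, degree_zero]
      exact bot_lt_iff_ne_bot.mpr (degree_ne_bot.mpr hB.ne_zero)
    · rwa [degree_C_mul hj]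
  have hG : (B - C j * A).Monic := hB.sub_of_left hd
  have h0 : Polynomial.aeval x (B - C j * A) = 0 := by
    rw [map_sub, map_mul, aeval_C, h, sub_self]
  have hint : IsIntegral E x := ⟨_, hG, h0⟩
  refine ⟨adjoin.finiteDimensional hint, ?_⟩
  rw [adjoin.finrank hint]
  refine (natDegree_le_of_dvd (minpoly.dvd _ _ h0) hG.ne_zero).trans ?_
  refine (natDegree_sub_le _ _).trans (max_le le_rfl ?_)
  exact natDegree_le_natDegree hd.le

end XMem

variable (Λ : Line) (hΛ : Λ = line2 ∨ Λ = line3)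

include hΛ

theorem xK_mem_Kb : xK Kb Λ ∈ FK Kb Λ.r := by
  have hr : Λ.r.Prime := by
    rcases hΛ with rfl | rfl
    · exact Nat.prime_two
    · exact Nat.prime_three
  have hr0 : NeZero Λ.r := ⟨hr.ne_zero⟩
  rw [FK_Kb]
  set x := xK Kb Λ with hx
  have hx0 : x ≠ 0 := by
    intro h
    have := leadingCoeff_xK Kb Λ
    rw [← hx, h] at this
    simp at this
  set E := MinDeg.Ej Λ.r
  have hrel := xK_rel Kb Λ hΛ
  have hrel_r := xK_rel_r Λ hΛ Kb
  rw [← hx] at hrel hrel_r
  rw [XMem.aeval_int, XMem.aeval_int] at hrel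
  rw [XMem.aeval_int] at hrel_r
  have hcast : ∀ P : ℤ[X], Polynomial.eval₂ (Int.castRingHom (LaurentSeries Kb)) x P =
      Polynomial.aeval x (P.map (Int.castRingHom E)) := by
    intro P
    rw [Polynomial.aeval_def, Polynomial.eval₂_map]
    congr 1
  have hmonic : (Λ.Bp.map (Int.castRingHom E)).Monic ∧
      (Λ.Bp.map (Int.castRingHom E)).natDegree = Λ.r + 1 ∧
      (Λ.Ap.map (Int.castRingHom E)).degree < (Λ.Bp.map (Int.castRingHom E)).degree := by
    rcases hΛ with rfl | rfl
    · have h1 : (line2.Bp.map (Int.castRingHom E)) = (X + C 256) ^ 3 := by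
        rw [show (C (256 : E) : E[X]) = 256 from map_ofNat C 256]
        simp [line2]
      have h2 : (line2.Ap.map (Int.castRingHom E)) = X ^ 2 := by simp [line2]
      have h3 : ((X + C (256 : E)) ^ 3).Monic := (monic_X_add_C _).pow 3
      have h4 : ((X + C (256 : E)) ^ 3).natDegree = 3 := by
        rw [(monic_X_add_C _).natDegree_pow, natDegree_X_add_C]
      rw [h1, h2]
      refine ⟨h3, h4, ?_⟩
      rw [degree_eq_natDegree h3.ne_zero, h4, degree_X_pow]
      norm_num
    · have h1 : (line3.Bp.map (Int.castRingHom E)) = (X + C 27) * (X + C 243) ^ 3 := by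
        rw [show (C (27 : E) : E[X]) = 27 from map_ofNat C 27,
          show (C (243 : E) : E[X]) = 243 from map_ofNat C 243]
        simp [line3]
      have h2 : (line3.Ap.map (Int.castRingHom E)) = X ^ 3 := by simp [line3]
      have h3 : ((X + C (27 : E)) * (X + C (243 : E)) ^ 3).Monic :=
        (monic_X_add_C _).mul ((monic_X_add_C _).pow 3)
      have h4 : ((X + C (27 : E)) * (X + C (243 : E)) ^ 3).natDegree = 4 := by
        rw [(monic_X_add_C _).natDegree_mul ((monic_X_add_C _).pow 3),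
          (monic_X_add_C _).natDegree_pow, natDegree_X_add_C, natDegree_X_add_C]
      rw [h1, h2]
      refine ⟨h3, h4, ?_⟩
      rw [degree_eq_natDegree h3.ne_zero, h4, degree_X_pow]
      norm_num
  obtain ⟨hB, hBd, hAB⟩ := hmonic
  have hfr := XMem.finrank_le (E := E) x _ _ (MinDeg.jE Λ.r) hB hAB (by
    rw [← hcast, ← hcast, hrel]; rfl)
  obtain ⟨hfin, hle⟩ := hfr
  rw [hBd] at hle
  have hxM : x ∈ E⟮x⟯ := mem_adjoin_simple_self E x
  have hJ : Jser Λ.r ∈ E⟮x⟯ := by
    have h1 : Jser Λ.r = Polynomial.eval₂ (Int.castRingHom (LaurentSeries Kb)) x (Cp Λ) / x := by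
      rw [hrel_r, jS_Kb, mul_div_assoc, div_self hx0, mul_one]
    rw [h1, hcast]
    refine div_mem ?_ hxM
    have : (Polynomial.aeval x ((Cp Λ).map (Int.castRingHom E)) : LaurentSeries Kb) =
        ((Polynomial.aeval (⟨x, hxM⟩ : E⟮x⟯) ((Cp Λ).map (Int.castRingHom E)) : E⟮x⟯) :
          LaurentSeries Kb) := by
      rw [← IntermediateField.coe_val, ← Polynomial.aeval_algHom_apply]
      rfl
    rw [this]
    exact Subtype.mem _
  exact MinDeg.mem_FN_of_finrank_le Λ.r hr E⟮x⟯ hJ hle hxM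

theorem xK_mem (K : Type) [Field K] [CharZero K] (N : ℕ) [NeZero N] (hN : Λ.r ∣ N) :
    xK K Λ ∈ FK K N := by
  have hr0 : NeZero Λ.r := ⟨fun h => NeZero.ne N (by rw [h] at hN; simpa using hN)⟩
  have h1 : xK ℚ Λ ∈ FK ℚ Λ.r := by
    apply mem_FK_of_coeffMap (algebraMap ℚ Kb) Λ.r
    rw [coeffMap_xK]
    exact xK_mem_Kb Λ hΛ
  have h2 := coeffMap_mem_FK (algebraMap ℚ K) Λ.r h1
  rw [coeffMap_xK] at h2
  exact full_degeneracyC_le K hN h2

end Fermat.Agent.Mod
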