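import Fermat.Agent.S34.Mod.D
import Fermat.Agent.S34.Mod.G
import Fermat.Agent.S34.Mod.Deg
import Fermat.Agent.S34.Mod.M8
import Fermat.Agent.S34.Mod.XMem

set_option autoImplicit false

/-!
# Chapter MOD : summary of the outputs for S34 / S35 (helper5's list (W), (X), (D), (M8), (G), (DEG))

`K` a field of characteristic `0`, `q` prime, `q ∣ N`, `¬ q² ∣ N`, `Λ = S18.lineOf q`, `r = Λ.r ∣ N` (`r = 2` if `q = 3`, `r = 3` otherwise).
`FK K N = modularFunctionFieldFullC K N`, `wQ K N q : FK K N ≃ₐ[K] FK K N`, `mapFK σ N : FK K N →+* FK K' N` (coefficientwise `σ`).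
`IntOver K t z` : `z` is integral over `K[t]` (`intOver_iff_mem_CInt`, `intOver_iff_isIntegral`, `intOver_coe_iff`).

More general statements (any exact divisor `Q ∥ N`, e.g. `Q = q²` for S36): `W.lean`, `WDict.lean`, `WMat.lean`, `DAn.lean`.
-/

noncomputable section

namespace Fermat.Agent.Mod

open ModularCurve Fermat.Agent.S18

theorem lineOf_cases (q : ℕ) : lineOf q = line2 ∨ lineOf q = line3 := by
  unfold lineOf; split_ifs <;> simp

theorem lineOf_r_ne (q : ℕ) : (lineOf q).r ≠ q := by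
  unfold lineOf
  split_ifs with h
  · subst h; simp [line2]
  · simpa [line3] using Ne.symm h

theorem coprime_of_not_sq_dvd {q N : ℕ} (hq : q.Prime) (hqN : q ∣ N) (hq2 : ¬ q ^ 2 ∣ N) :
    Nat.Coprime q (N / q) := by
  rw [Nat.Prime.coprime_iff_not_dvd hq]
  intro h
  obtain ⟨m, rfl⟩ := hqN
  rw [Nat.mul_div_cancel_left _ hq.pos] at h
  exact hq2 (by rw [pow_two]; exact Nat.mul_dvd_mul_left q h)

section
variable (K : Type) [Field K] [CharZero K] (N q : ℕ) [NeZero N] [NeZero q] (hq : q.Prime)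
  (hqN : q ∣ N) (hq2 : ¬ q ^ 2 ∣ N)

include hq hqN hq2

/-- (W) involution. -/
theorem out_W_invol (f : FK K N) : wQ K N q (wQ K N q f) = f :=
  wQ_wQ K N q hqN (coprime_of_not_sq_dvd hq hqN hq2) f

/-- (W) `w_q f = f(q^q)` for `f ∈ F_{N/q,K}`; in particular `w_q (j(q^d)) = j(q^(qd))`. -/
theorem out_W_low (f : FK K N) (hf : f.1 ∈ FK K (N / q)) :
    ((wQ K N q f : FK K N) : LaurentSeries K) = qExpand K q f.1 :=
  wQ_of_mem K N q hqN (coprime_of_not_sq_dvd hq hqN hq2) f hf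

/-- (W) commutes with coefficientwise ring homs. -/
theorem out_W_map {K' : Type} [Field K'] [CharZero K'] (σ : K →+* K') (f : FK K N) :
    wQ K' N q (mapFK σ N f) = mapFK σ N (wQ K N q f) :=
  wQ_mapFK K N q hqN (coprime_of_not_sq_dvd hq hqN hq2) σ f

/-- (D) `D = Δ(q)/Δ(q^q) ∈ F_{N,K}`, `w_q D = q¹² / D`. -/
theorem out_D :
    ((wQ K N q ⟨DK K q, DK_mem K q N hq hqN⟩ : FK K N) : LaurentSeries K) * DK K q =
      (q : LaurentSeries K) ^ 12 := by
  rw [wQ_DK K q N hq hqN (coprime_of_not_sq_dvd hq hqN hq2), mul_assoc, mul_comm (DKinv K q),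
    DK_mul_DKinv, mul_one]

end

/-- (X) `x ∈ F_{N,K}` as soon as `r ∣ N`. -/
theorem out_X (K : Type) [Field K] [CharZero K] (q N : ℕ) [NeZero N] (hr : (lineOf q).r ∣ N) :
    xK K (lineOf q) ∈ FK K N :=
  xK_mem _ (lineOf_cases q) K N hr

/-- (D) integrality of `D` and `q¹²/D` (up to the constant) over `K[j]`. -/
theorem out_D_int (K : Type) [Field K] [CharZero K] (q : ℕ) [NeZero q] (hq : q.Prime) :
    IntOver K (jqModC K) (DK K q) ∧ IntOver K (jqModC K) (DKinv K q) :=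
  ⟨DK_intOver K q hq, DKinv_intOver K q hq⟩

/-- (M8). -/
theorem out_M8 (K : Type) [Field K] [CharZero K] (q : ℕ) [NeZero q] (hq : q.Prime) :
    IntOver K (xK K (lineOf q)) (qExpand K q (xK K (lineOf q))) ∧
      IntOver K (qExpand K q (xK K (lineOf q))) (xK K (lineOf q)) ∧
      IntOver K (xK K (lineOf q))⁻¹ (qExpand K q (xK K (lineOf q)))⁻¹ ∧
      IntOver K (qExpand K q (xK K (lineOf q)))⁻¹ (xK K (lineOf q))⁻¹ :=
  m8 K _ (lineOf_cases q) q hq (lineOf_r_ne q)

/-- (G) `j(q^q)/j^q` is integral over `K[1/j]`. -/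
theorem out_G (K : Type) [Field K] [CharZero K] (q : ℕ) (hq : q.Prime) :
    IntOver K (jqModC K)⁻¹ (jS K q / jqModC K ^ q) := by
  have := g_intOver K q hq 1 one_ne_zero
  rwa [mul_one, jS_one] at this

/-- (DEG) `[F_{Mq,K} : F_{M,K}] ≤ q + 1`. -/
theorem out_DEG {K : Type} [Field K] (ι : K →+* S24.Kb) (M q : ℕ) [NeZero M] [NeZero q]
    (hq : q.Prime) (hqM : ¬ q ∣ M) :
    FiniteDimensional (FK K M) (IntermediateField.extendScalars (FK_le (K := K) M q)) ∧
      Module.finrank (FK K M) (IntermediateField.extendScalars (FK_le (K := K) M q)) ≤ q + 1 :=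
  finrank_le ι M q hq hqM

end Fermat.Agent.Mod
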