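import Fermat.Agent.S34.Mod.BC

set_option autoImplicit false

/-!
# MOD / task BCDEG : descent of degree bounds along `i : k → K`

See the header of `BC.lean` for THE TRICK (`exists_functional`, `NV.map_mul_coeffMap`).
-/

noncomputable section

namespace Fermat.Agent.Mod

open Polynomial ModularCurve

variable {k K : Type} [Field k] [Field K] (i : k →+* K)

/-- "`[B : A] ≤ n`" for subsets of a field: any `n + 1` elements of `B` are linearly dependent over `A`. -/
def DegLE {L : Type*} [Field L] (A B : Set L) (n : ℕ) : Prop :=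
  ∀ v : Fin (n + 1) → L, (∀ a, v a ∈ B) →
    ∃ c : Fin (n + 1) → L, (∀ a, c a ∈ A) ∧ c ≠ 0 ∧ ∑ a, c a * v a = 0

include i in
/-- descent of the degree bound.  Given `v a ∈ F_{N,k}`, get `c a ∈ F_{M,K}` not all zero with
`∑ c a * i (v a) = 0`; clear denominators (`c a ∈ K[j_d : d ∣ M] = Algebra.adjoin`, every element of which is a
finite sum `∑ C e * coeffMap i m`, `m ∈ k[j_d]`, cf. `NV.isSpan_of_mem`); choose `ℓ` with `ℓ e = 1` for a
nonzero coefficient `e` of some `c a₀ ≠ 0`; then `∑ (c a).map ℓ * v a = 0`, `(c a).map ℓ ∈ k[j_d : d ∣ M]`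
(cf. `NV.map_mem_A0`), `(c a₀).map ℓ ≠ 0`. -/
theorem DegLE.down (M N : ℕ) [NeZero M] [NeZero N] (n : ℕ)
    (h : DegLE (FK K M : Set (LaurentSeries K)) (FK K N) n) :
    DegLE (FK k M : Set (LaurentSeries k)) (FK k N) n := by
  classical
  intro v hv
  obtain ⟨c, hc, hc0, hsum⟩ := h (fun a => coeffMap i (v a)) (fun a => coeffMap_mem_FK i N (hv a))
  set S := divisorExpansionsC k M with hS
  set RK := Subring.closure (S36.Descent.Rat.gens K (coeffMap i '' S)) with hRK
  have hfrac : ∀ a, ∃ u ∈ RK, ∃ w ∈ RK, w ≠ 0 ∧ c a * w = u := by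
    intro a
    have h1 : c a ∈ Subfield.closure (S36.Descent.Rat.gens K (coeffMap i '' S)) := by
      have h2 := (S36.Descent.Rat.mem_full_iff K M (c a)).1 (hc a)
      refine Subfield.closure_mono ?_ h2
      apply Set.union_subset_union_right
      rintro y ⟨d, hd, hdN, rfl⟩
      exact ⟨qExpand k d (jqModC k), ⟨d, hd, hdN, rfl⟩, by rw [coeffMap_qExpand, coeffMap_jqModC]⟩
    obtain ⟨u, hu, w, hw, huw⟩ := Subfield.mem_closure_iff.1 h1
    by_cases hw0 : w = 0
    · refine ⟨0, zero_mem _, 1, one_mem _, one_ne_zero, ?_⟩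
      rw [← huw, hw0, div_zero, zero_mul]
    · exact ⟨u, hu, w, hw, hw0, by rw [← huw, div_mul_cancel₀ _ hw0]⟩
  choose u hu w hw hw0 huw using hfrac
  set W := ∏ a, w a with hW
  have hW0 : W ≠ 0 := Finset.prod_ne_zero_iff.2 fun a _ => hw0 a
  have hmem : ∀ a, c a * W ∈ RK := by
    intro a
    rw [hW, ← Finset.mul_prod_erase Finset.univ w (Finset.mem_univ a), ← mul_assoc, huw]
    exact mul_mem (hu a) (prod_mem fun b _ => hw b)
  obtain ⟨a₀, ha₀⟩ : ∃ a, c a ≠ 0 := by
    by_contra hcon
    push Not at hcon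
    exact hc0 (funext hcon)
  obtain ⟨n₀, hn₀⟩ : ∃ n₀, (c a₀ * W).coeff n₀ ≠ 0 := by
    by_contra hcon
    push Not at hcon
    exact mul_ne_zero ha₀ hW0 (HahnSeries.ext (funext hcon))
  obtain ⟨ℓ, hℓ, hℓ1⟩ := exists_functional i _ hn₀
  refine ⟨fun a => (c a * W).map ℓ, fun a => ?_, ?_, ?_⟩
  · have h1 := S36.Descent.Rat.map_mem i S ℓ hℓ _ (hmem a)
    exact (S36.Descent.Rat.mem_full_iff k M _).2 (Subfield.subring_closure_le _ h1)
  · intro h0
    have h1 := congrFun h0 a₀
    have h2 := congrArg (fun s : LaurentSeries k => s.coeff n₀) h1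
    have h3 : ℓ ((c a₀ * W).coeff n₀) = 0 := h2
    rw [hℓ1] at h3
    exact one_ne_zero h3
  · have h1 : ∑ a, c a * W * coeffMap i (v a) = 0 := by
      have : ∑ a, c a * W * coeffMap i (v a) = W * ∑ a, c a * coeffMap i (v a) := by
        rw [Finset.mul_sum]
        exact Finset.sum_congr rfl fun a _ => by ring
      rw [this, hsum, mul_zero]
    have h2 := congrArg (NV.Rational.mapHom ℓ) h1
    rw [map_sum, map_zero] at h2
    rw [← h2]
    refine Finset.sum_congr rfl fun a _ => ?_
    exact (NV.Rational.map_mul_coeffMap i ℓ hℓ _ _).symm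

/-- from `DegLE` to Mathlib's `finrank`. -/
theorem DegLE.finrank_le {K₀ L : Type*} [Field K₀] [Field L] [Algebra K₀ L]
    (A B : IntermediateField K₀ L) (hAB : A ≤ B) (n : ℕ) (h : DegLE (A : Set L) B n) :
    FiniteDimensional A (IntermediateField.extendScalars hAB) ∧
      Module.finrank A (IntermediateField.extendScalars hAB) ≤ n := by
  classical
  have hrank : Module.rank A (IntermediateField.extendScalars hAB) ≤ n := by
    apply rank_le
    intro s hs
    by_contra hcard
    rw [not_le] at hcard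
    obtain ⟨t, hts, htc⟩ := Finset.exists_subset_card_eq (show n + 1 ≤ s.card from hcard)
    let e : Fin (n + 1) ≃ t := (Finset.equivFinOfCardEq htc).symm
    have hli := hs.comp (fun a : Fin (n + 1) => (⟨(e a : _), hts (e a).2⟩ : s)) (by
      intro a b hab
      apply e.injective
      apply Subtype.ext
      exact congrArg (fun x : s => (x : IntermediateField.extendScalars hAB)) hab)
    rw [Fintype.linearIndependent_iff] at hli
    obtain ⟨c, hc, hc0, hsum⟩ := h (fun a => ((e a : IntermediateField.extendScalars hAB) : L))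
      (fun a => (IntermediateField.mem_extendScalars hAB).1 (e a : IntermediateField.extendScalars hAB).2)
    apply hc0
    funext a
    have := hli (fun a => ⟨c a, hc a⟩) (by
      apply Subtype.ext
      have h1 := map_sum (IntermediateField.extendScalars hAB).val
        (fun a : Fin (n + 1) => (⟨c a, hc a⟩ : A) • (e a : IntermediateField.extendScalars hAB))
        Finset.univ
      refine h1.trans ?_
      exact hsum) a
    exact congrArg Subtype.val this
  refine ⟨?_, Module.finrank_le_of_rank_le hrank⟩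
  exact Module.rank_lt_aleph0_iff.1 (hrank.trans_lt (Cardinal.natCast_lt_aleph0))

end Fermat.Agent.Mod
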