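import Fermat.Agent.S34.Mod.XForm

set_option autoImplicit false
set_option linter.unusedSectionVars false
set_option linter.style.haveILetI false

/-!
# MOD / task COEF : the first coefficients of `j` and of the formal eta quotients (formal power series only)

Prove everything over `ℤ` and transport with `coeffMap (Int.castRingHom K)` (`coeffMap_xL`), or directly over `K`.

INPUTS to establish in `ℤ⟦X⟧`:
 * `etaProd = 1 - X - X² + X³ * R`   (`etaProd = ∏' n, (1 - X^(n+1))` in the Pi topology: the coefficient of `X^k`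
   of the `tprod` is that of `∏ n < 3`; e.g. `etaProd = (1 - X)(1 - X²)(1 - X³) * ∏' n, (1 - X^(n+4))` via
   `Multipliable.tprod_eq_...`/`tprod_eq_prod_mul...` (`PowerSeries.WithPiTopology.multipliable_one_sub_X_pow`) and the tail is `1 + X⁴ * _`
   (its coefficients 1..3 vanish: continuity of `coeff`, cf. `ModularCurve.constantCoeff_etaProd`);
 * `eisenstein4 = 1 + 240 X + X² * R`;  hence `jNum = 1 + 744 X + X² * R`;
 * `w₂ := (etaProd(X)/etaProd(X²))²⁴ = 1 - 24 X + X² R`,  `w₃ := (etaProd(X)/etaProd(X³))¹² = 1 - 12 X + 54 X² + X³ R`.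
THEN (with `s = single (-1) 1`, `t = single 1 1`, `s * t = 1`, `x̂ = s * w`, `j = s * jNum`, `j(q^r) = s^r * (1 + t^r * _)`)
expand with `ring`-style manipulations and read off that the polar parts cancel:
 * line2: `(x̂+256)³ - j x̂² = x̂² (x̂ + 768 - j) + 196608 x̂ + 256³`, `x̂ + 768 - j = (-24 + 768 - 744) + t * _`;
          `(x̂+16)³ - j(q²) x̂ = s³(w³ - w) + 48 s² w² + … `, `w³ - w = -48 t + t² _`;
 * line3: `(x̂+27)(x̂+243)³ - j x̂³ = x̂³ (x̂ + 756 - j) + 196830 x̂² + …`, `-12 + 756 - 744 = 0`;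
          `(x̂+27)(x̂+3)³ - j(q³) x̂ = s⁴ (w⁴ - w) + 36 s³ w³ + 270 s² w² + …`,
          `w⁴ - w = -36 t + 1026 t² + t³ _`, `36 w³ = 36 - 1296 t + t² _`, `270 w² = 270 + t _`: `-36+36 = 0`, `1026-1296+270 = 0`.
A series of the form `s^a * ofPowerSeries p` has zero coefficients below `-a`.
-/

noncomputable section

namespace Fermat.Agent.Mod

open Polynomial ModularCurve S18

namespace Coef

open scoped PowerSeries.WithPiTopology

local notation "PS" => PowerSeries ℤ

/-- the truncation `ℤ⟦X⟧ → ℤ⟦X⟧ / (X ^ k)`. -/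
def pr (k : ℕ) : PS →+* PS ⧸ (Ideal.span {(PowerSeries.X : PS) ^ k}) := Ideal.Quotient.mk _

theorem pr_eq_iff (k : ℕ) (f g : PS) :
    pr k f = pr k g ↔ ∀ m < k, PowerSeries.coeff m f = PowerSeries.coeff m g := by
  rw [pr, Ideal.Quotient.eq, Ideal.mem_span_singleton, PowerSeries.X_pow_dvd_iff]
  simp only [map_sub, sub_eq_zero]

theorem pr_X_pow (k : ℕ) : pr k PowerSeries.X ^ k = 0 := by
  rw [← map_pow, pr, Ideal.Quotient.eq_zero_iff_mem]
  exact Ideal.mem_span_singleton_self _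

theorem exists_of_pr_eq_zero {k : ℕ} {f : PS} (h : pr k f = 0) :
    ∃ R : PS, f = PowerSeries.X ^ k * R := by
  rw [pr, Ideal.Quotient.eq_zero_iff_mem, Ideal.mem_span_singleton] at h
  exact h

theorem pr_X_pow_of_le {k n : ℕ} (h : k ≤ n) : pr k PowerSeries.X ^ n = 0 := by
  obtain ⟨c, rfl⟩ := Nat.exists_eq_add_of_le h
  rw [pow_add, pr_X_pow, zero_mul]

theorem isClosed_pr (k : ℕ) (g : PS) : IsClosed {f : PS | pr k f = pr k g} := by
  simp only [pr_eq_iff, Set.ofPred_forall]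
  refine isClosed_iInter fun m => isClosed_iInter fun _ => ?_
  exact isClosed_eq (PowerSeries.WithPiTopology.continuous_coeff ℤ m) continuous_const

/-- `∏ (1 - X^n)` modulo `X ^ k`. -/
theorem pr_etaProd (k : ℕ) :
    pr k etaProd = ∏ i ∈ Finset.range k, (1 - pr k PowerSeries.X ^ (i + 1)) := by
  have hprod := (PowerSeries.WithPiTopology.multipliable_one_sub_X_pow ℤ).hasProd
  have key : etaProd ∈ {f : PS | pr k f =
      pr k (∏ i ∈ Finset.range k, (1 - PowerSeries.X ^ (i + 1)))} := by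
    refine (isClosed_pr k _).mem_of_tendsto hprod ?_
    filter_upwards [Filter.eventually_ge_atTop (Finset.range k)] with s hs
    show pr k _ = pr k _
    rw [map_prod, map_prod]
    symm
    apply Finset.prod_subset hs
    intro i _ hi
    rw [Finset.mem_range, not_lt] at hi
    rw [map_sub, map_one, map_pow, pr_X_pow_of_le (by omega), sub_zero]
  have h2 : pr k etaProd = pr k (∏ i ∈ Finset.range k, (1 - PowerSeries.X ^ (i + 1))) := key
  rw [h2, map_prod]
  simp only [map_sub, map_one, map_pow]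

theorem pr_expand {k : ℕ} (r : ℕ) (hr : r ≠ 0) (hk : k ≤ r) (p : PS) :
    pr k (p.expand r hr) = pr k (PowerSeries.C (PowerSeries.constantCoeff p)) := by
  rw [pr_eq_iff]
  intro m hm
  rw [PowerSeries.coeff_expand, PowerSeries.coeff_C]
  by_cases h0 : m = 0
  · subst h0
    simp
  · rw [if_neg h0, if_neg]
    intro hd
    exact h0 (Nat.eq_zero_of_dvd_of_lt hd (lt_of_lt_of_le hm hk))

theorem pr_eisenstein4 : pr 2 eisenstein4 = 1 + 240 * pr 2 PowerSeries.X := by
  have : (1 : PS ⧸ (Ideal.span {(PowerSeries.X : PS) ^ 2})) + 240 * pr 2 PowerSeries.X =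
      pr 2 (1 + 240 * PowerSeries.X) := by
    rw [map_add, map_mul, map_one, map_ofNat]
  rw [this, pr_eq_iff]
  intro m hm
  have h240 : (240 : PS) = PowerSeries.C (240 : ℤ) := by
    rw [map_ofNat]
  rw [h240]
  interval_cases m
  · simp [eisenstein4]
  · rw [map_add, PowerSeries.coeff_one, if_neg one_ne_zero, zero_add, PowerSeries.coeff_C_mul,
      PowerSeries.coeff_one_X, mul_one]
    simp [eisenstein4]

/-- `∏ (1 - X^n)⁻¹`. -/
def etaInv : PS := etaProd.invOfUnit 1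

theorem etaProd_mul_etaInv : etaProd * etaInv = 1 :=
  PowerSeries.mul_invOfUnit _ _ (by rw [constantCoeff_etaProd]; rfl)

theorem constantCoeff_etaInv : PowerSeries.constantCoeff etaInv = 1 := by
  have h := congrArg (PowerSeries.constantCoeff (R := ℤ)) etaProd_mul_etaInv
  rwa [map_mul, constantCoeff_etaProd, one_mul, map_one] at h

/-- `∏ ((1 - X^n) / (1 - X^(rn)))^m`. -/
def wPS (r m : ℕ) [NeZero r] : PS := (etaProd * etaInv.expand r (NeZero.ne r)) ^ m

theorem constantCoeff_wPS (r m : ℕ) [NeZero r] : PowerSeries.constantCoeff (wPS r m) = 1 := by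
  rw [wPS, map_pow, map_mul, constantCoeff_etaProd, PowerSeries.constantCoeff_expand,
    constantCoeff_etaInv, one_mul, one_pow]

theorem pr_expand_etaInv {k : ℕ} (r : ℕ) [NeZero r] (hk : k ≤ r) :
    pr k (etaInv.expand r (NeZero.ne r)) = 1 := by
  rw [pr_expand r _ hk, constantCoeff_etaInv, map_one, map_one]

theorem pr_expand_jNum {k : ℕ} (r : ℕ) [NeZero r] (hk : k ≤ r) :
    pr k (jNum.expand r (NeZero.ne r)) = 1 := by
  rw [pr_expand r _ hk, constantCoeff_jNum, map_one, map_one]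

theorem pr2_etaProd : pr 2 etaProd = 1 - pr 2 PowerSeries.X := by
  have hx := pr_X_pow 2
  rw [pr_etaProd, Finset.prod_range_succ, Finset.prod_range_one]
  linear_combination (pr 2 PowerSeries.X - 1) * hx

theorem pr3_etaProd : pr 3 etaProd = 1 - pr 3 PowerSeries.X - pr 3 PowerSeries.X ^ 2 := by
  have hx := pr_X_pow 3
  rw [pr_etaProd, Finset.prod_range_succ, Finset.prod_range_succ, Finset.prod_range_one]
  generalize pr 3 PowerSeries.X = x at hx ⊢
  linear_combination ((1) * x + (1) * x ^ 2 + (-1) * x ^ 3) * hx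

theorem pr2_w2 : pr 2 (wPS 2 24) = 1 - 24 * pr 2 PowerSeries.X := by
  have hx := pr_X_pow 2
  rw [wPS, map_pow, map_mul, pr_expand_etaInv 2 le_rfl, pr2_etaProd, mul_one]
  generalize pr 2 PowerSeries.X = x at hx ⊢
  linear_combination ((276) + (-2024) * x + (10626) * x ^ 2 + (-42504) * x ^ 3 + (134596) * x ^ 4 + (-346104) * x ^ 5 + (735471) * x ^ 6 + (-1307504) * x ^ 7 + (1961256) * x ^ 8 + (-2496144) * x ^ 9 + (2704156) * x ^ 10 + (-2496144) * x ^ 11 + (1961256) * x ^ 12 + (-1307504) * x ^ 13 + (735471) * x ^ 14 + (-346104) * x ^ 15 + (134596) * x ^ 16 + (-42504) * x ^ 17 + (10626) * x ^ 18 + (-2024) * x ^ 19 + (276) * x ^ 20 + (-24) * x ^ 21 + (1) * x ^ 22) * hx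

theorem pr2_w3 : pr 2 (wPS 3 12) = 1 - 12 * pr 2 PowerSeries.X := by
  have hx := pr_X_pow 2
  rw [wPS, map_pow, map_mul, pr_expand_etaInv 3 (by norm_num), pr2_etaProd, mul_one]
  generalize pr 2 PowerSeries.X = x at hx ⊢
  linear_combination ((66) + (-220) * x + (495) * x ^ 2 + (-792) * x ^ 3 + (924) * x ^ 4 + (-792) * x ^ 5 + (495) * x ^ 6 + (-220) * x ^ 7 + (66) * x ^ 8 + (-12) * x ^ 9 + (1) * x ^ 10) * hx

theorem pr3_w3 : pr 3 (wPS 3 12) =
    1 - 12 * pr 3 PowerSeries.X + 54 * pr 3 PowerSeries.X ^ 2 := by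
  have hx := pr_X_pow 3
  rw [wPS, map_pow, map_mul, pr_expand_etaInv 3 le_rfl, pr3_etaProd, mul_one]
  generalize pr 3 PowerSeries.X = x at hx ⊢
  linear_combination ((-88) + (-99) * x + (528) * x ^ 2 + (-286) * x ^ 3 + (-1188) * x ^ 4 + (1386) * x ^ 5 + (1628) * x ^ 6 + (-2706) * x ^ 7 + (-1728) * x ^ 8 + (3301) * x ^ 9 + (1728) * x ^ 10 + (-2706) * x ^ 11 + (-1628) * x ^ 12 + (1386) * x ^ 13 + (1188) * x ^ 14 + (-286) * x ^ 15 + (-528) * x ^ 16 + (-99) * x ^ 17 + (88) * x ^ 18 + (54) * x ^ 19 + (12) * x ^ 20 + (1) * x ^ 21) * hx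

theorem pr2_jNum : pr 2 jNum = 1 + 744 * pr 2 PowerSeries.X := by
  have hx := pr_X_pow 2
  have hU : pr 2 dedekindEtaUnit = 1 - 24 * pr 2 PowerSeries.X := by
    rw [dedekindEtaUnit, map_pow, pr2_etaProd]
    generalize pr 2 PowerSeries.X = x at hx ⊢
    linear_combination ((276) + (-2024) * x + (10626) * x ^ 2 + (-42504) * x ^ 3 + (134596) * x ^ 4 + (-346104) * x ^ 5 + (735471) * x ^ 6 + (-1307504) * x ^ 7 + (1961256) * x ^ 8 + (-2496144) * x ^ 9 + (2704156) * x ^ 10 + (-2496144) * x ^ 11 + (1961256) * x ^ 12 + (-1307504) * x ^ 13 + (735471) * x ^ 14 + (-346104) * x ^ 15 + (134596) * x ^ 16 + (-42504) * x ^ 17 + (10626) * x ^ 18 + (-2024) * x ^ 19 + (276) * x ^ 20 + (-24) * x ^ 21 + (1) * x ^ 22) * hx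
  have hV := congrArg (pr 2) dedekindEtaUnit_mul_inv
  rw [map_mul, map_one, hU] at hV
  rw [jNum, map_mul, map_pow, pr_eisenstein4]
  generalize pr 2 dedekindEtaUnitInv = V at hV ⊢
  generalize pr 2 PowerSeries.X = x at hx hV ⊢
  have hV' : V = 1 + 24 * x := by
    linear_combination (1 + 24 * x) * hV + 576 * V * hx
  rw [hV']
  linear_combination ((190080) + (17971200) * x + (331776000) * x ^ 2) * hx

/-- (i) -/
theorem fact_inf2 : ∃ R : PS, wPS 2 24 - jNum + 768 * PowerSeries.X = PowerSeries.X ^ 2 * R := by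
  apply exists_of_pr_eq_zero
  rw [map_add, map_sub, map_mul, map_ofNat, pr2_w2, pr2_jNum]
  ring

/-- (ii) -/
theorem fact_zero2 : ∃ R : PS, wPS 2 24 ^ 3 - jNum.expand 2 two_ne_zero * wPS 2 24 +
    48 * PowerSeries.X * wPS 2 24 ^ 2 = PowerSeries.X ^ 2 * R := by
  apply exists_of_pr_eq_zero
  have hx := pr_X_pow 2
  have hJ : pr 2 (jNum.expand 2 two_ne_zero) = 1 := pr_expand_jNum 2 le_rfl
  rw [map_add, map_sub, map_mul, map_mul, map_mul, map_pow, map_pow, map_ofNat, pr2_w2, hJ]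
  generalize pr 2 PowerSeries.X = x at hx ⊢
  linear_combination ((-576) + (13824) * x) * hx

/-- (iii) -/
theorem fact_inf3 : ∃ R : PS, wPS 3 12 - jNum + 756 * PowerSeries.X = PowerSeries.X ^ 2 * R := by
  apply exists_of_pr_eq_zero
  rw [map_add, map_sub, map_mul, map_ofNat, pr2_w3, pr2_jNum]
  ring

/-- (iv) -/
theorem fact_zero3 : ∃ R : PS, wPS 3 12 ^ 4 - jNum.expand 3 three_ne_zero * wPS 3 12 +
    36 * PowerSeries.X * wPS 3 12 ^ 3 + 270 * PowerSeries.X ^ 2 * wPS 3 12 ^ 2 =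
      PowerSeries.X ^ 3 * R := by
  apply exists_of_pr_eq_zero
  have hx := pr_X_pow 3
  have hJ : pr 3 (jNum.expand 3 three_ne_zero) = 1 := pr_expand_jNum 3 le_rfl
  simp only [map_add, map_sub, map_mul, map_pow, map_ofNat]
  rw [pr3_w3, hJ]
  generalize pr 3 PowerSeries.X = x at hx ⊢
  linear_combination ((216) + (-2592) * x + (11664) * x ^ 2 + (157464) * x ^ 3 + (-1889568) * x ^ 4 + (8503056) * x ^ 5) * hx

/-! ### Laurent series -/

section Laurent

variable (K : Type*) [CommRing K]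

/-- `ℤ⟦X⟧ → K((q))`. -/
def ph : PS →+* LaurentSeries K :=
  (HahnSeries.ofPowerSeries ℤ K).comp (PowerSeries.map (Int.castRingHom K))

theorem ph_apply (p : PS) :
    ph K p = HahnSeries.ofPowerSeries ℤ K (p.map (Int.castRingHom K)) := rfl

theorem s_mul_ph_X : HahnSeries.single (-1 : ℤ) (1 : K) * ph K PowerSeries.X = 1 := by
  rw [ph_apply, PowerSeries.map_X, HahnSeries.ofPowerSeries_X, HahnSeries.single_mul_single]
  simp

theorem qExpand_ofPS (r : ℕ) [NeZero r] (p : PowerSeries K) :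
    qExpand K r (HahnSeries.ofPowerSeries ℤ K p) =
      HahnSeries.ofPowerSeries ℤ K (p.expand r (NeZero.ne r)) := by
  have hr : (0 : ℤ) < r := by exact_mod_cast Nat.pos_of_ne_zero (NeZero.ne r)
  ext k
  by_cases hk : (r : ℤ) ∣ k
  · obtain ⟨m, rfl⟩ := hk
    rw [qExpand_coeff_mul]
    rcases le_or_gt 0 m with hm | hm
    · lift m to ℕ using hm
      rw [HahnSeries.ofPowerSeries_apply_coeff, ← Nat.cast_mul,
        HahnSeries.ofPowerSeries_apply_coeff, PowerSeries.coeff_expand_mul]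
    · rw [ofPowerSeries_coeff_of_neg _ hm,
        ofPowerSeries_coeff_of_neg _ (mul_neg_of_pos_of_neg hr hm)]
  · rw [qExpand_coeff_of_not_dvd _ _ hk]
    rcases le_or_gt 0 k with hk0 | hk0
    · lift k to ℕ using hk0
      rw [HahnSeries.ofPowerSeries_apply_coeff, PowerSeries.coeff_expand_of_not_dvd]
      intro h
      exact hk (Int.natCast_dvd_natCast.2 h)
    · rw [ofPowerSeries_coeff_of_neg _ hk0]

theorem qExpand_ph (r : ℕ) [NeZero r] (p : PS) :
    qExpand K r (ph K p) = ph K (p.expand r (NeZero.ne r)) := by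
  rw [ph_apply, ph_apply, qExpand_ofPS, PowerSeries.map_expand]

variable {K} in
theorem coeffMap_ph {K' : Type*} [CommRing K'] (σ : K →+* K') (p : PS) :
    coeffMap σ (ph K p) = ph K' p := by
  rw [ph_apply, ph_apply, coeffMap_ofPowerSeries, S28.map_map_intCast]

theorem eP_eq : eP K = ph K etaProd := rfl

theorem ePinv_eq : ePinv K = ph K etaInv := rfl

theorem eP_mul_ePinv : eP K * ePinv K = 1 := by
  rw [eP_eq, ePinv_eq, ← map_mul, etaProd_mul_etaInv, map_one]

theorem xForm_eq (r m : ℕ) [NeZero r] :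
    xForm K r m = HahnSeries.single (-1 : ℤ) 1 * ph K (wPS r m) := by
  rw [xForm, eP_eq, ePinv_eq, qExpand_ph, wPS, map_pow, map_mul]

theorem jq_eq : jqModC K = HahnSeries.single (-1 : ℤ) 1 * ph K jNum := rfl

theorem jS_eq (r : ℕ) [NeZero r] :
    jS K r = HahnSeries.single (-1 : ℤ) 1 ^ r * ph K (jNum.expand r (NeZero.ne r)) := by
  rw [jS_of_ne, jq_eq, map_mul, qExpand_ph, qExpand_single, HahnSeries.single_pow, one_pow]
  congr 2

theorem coeff_vanish (a : ℕ) (P : PS) (n : ℤ) (hn : n < -(a : ℤ)) :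
    (HahnSeries.single (-1 : ℤ) (1 : K) ^ a * ph K P).coeff n = 0 := by
  rw [HahnSeries.single_pow, one_pow]
  have e : n = (n + a) + a • (-1 : ℤ) := by simp
  rw [e, HahnSeries.coeff_single_mul_add, one_mul, ph_apply]
  exact ofPowerSeries_coeff_of_neg _ (by omega)

theorem inf2 : ∃ P : PS, (xForm K 2 24 + 256) ^ 3 - jqModC K * xForm K 2 24 ^ 2 =
    HahnSeries.single (-1 : ℤ) 1 ^ 1 * ph K P := by
  obtain ⟨R, hR⟩ := fact_inf2
  refine ⟨wPS 2 24 ^ 2 * R + 196608 * wPS 2 24 + 16777216 * PowerSeries.X, ?_⟩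
  have hW := congrArg (ph K) hR
  have hst := s_mul_ph_X K
  simp only [map_add, map_sub, map_mul, map_pow, map_ofNat] at hW ⊢
  rw [xForm_eq, jq_eq]
  generalize HahnSeries.single (-1 : ℤ) (1 : K) = s at hst ⊢
  generalize ph K (wPS 2 24) = W at hW ⊢
  generalize ph K jNum = J at hW ⊢
  generalize ph K PowerSeries.X = t at hW hst ⊢
  generalize ph K R = RR at hW ⊢
  linear_combination (s ^ 3 * W ^ 2) * hW +
    (-768 * s ^ 2 * W ^ 2 + s * W ^ 2 * RR * (s * t + 1) - 16777216) * hst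

theorem zero2 : ∃ P : PS, (xForm K 2 24 + 16) ^ 3 - jS K 2 * xForm K 2 24 =
    HahnSeries.single (-1 : ℤ) 1 ^ 1 * ph K P := by
  obtain ⟨R, hR⟩ := fact_zero2
  refine ⟨R + 768 * wPS 2 24 + 4096 * PowerSeries.X, ?_⟩
  have hW := congrArg (ph K) hR
  have hst := s_mul_ph_X K
  simp only [map_add, map_sub, map_mul, map_pow, map_ofNat] at hW ⊢
  rw [xForm_eq, jS_eq]
  generalize HahnSeries.single (-1 : ℤ) (1 : K) = s at hst ⊢
  generalize ph K (wPS 2 24) = W at hW ⊢
  generalize ph K (jNum.expand 2 _) = J at hW ⊢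
  generalize ph K PowerSeries.X = t at hW hst ⊢
  generalize ph K R = RR at hW ⊢
  linear_combination (s ^ 3) * hW +
    (-48 * s ^ 2 * W ^ 2 + s * RR * (s * t + 1) - 4096) * hst

theorem inf3 : ∃ P : PS, (xForm K 3 12 + 27) * (xForm K 3 12 + 243) ^ 3 -
    jqModC K * xForm K 3 12 ^ 3 = HahnSeries.single (-1 : ℤ) 1 ^ 2 * ph K P := by
  obtain ⟨R, hR⟩ := fact_inf3
  refine ⟨wPS 3 12 ^ 3 * R + 196830 * wPS 3 12 ^ 2 + 19131876 * PowerSeries.X * wPS 3 12 +
    387420489 * PowerSeries.X ^ 2, ?_⟩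
  have hW := congrArg (ph K) hR
  have hst := s_mul_ph_X K
  simp only [map_add, map_sub, map_mul, map_pow, map_ofNat] at hW ⊢
  rw [xForm_eq, jq_eq]
  generalize HahnSeries.single (-1 : ℤ) (1 : K) = s at hst ⊢
  generalize ph K (wPS 3 12) = W at hW ⊢
  generalize ph K jNum = J at hW ⊢
  generalize ph K PowerSeries.X = t at hW hst ⊢
  generalize ph K R = RR at hW ⊢
  linear_combination (s ^ 4 * W ^ 3) * hW +
    (-756 * s ^ 3 * W ^ 3 + s ^ 2 * W ^ 3 * RR * (s * t + 1) - 19131876 * s * W -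
      387420489 * (s * t + 1)) * hst

theorem zero3 : ∃ P : PS, (xForm K 3 12 + 27) * (xForm K 3 12 + 3) ^ 3 -
    jS K 3 * xForm K 3 12 = HahnSeries.single (-1 : ℤ) 1 ^ 1 * ph K P := by
  obtain ⟨R, hR⟩ := fact_zero3
  refine ⟨R + 756 * wPS 3 12 + 729 * PowerSeries.X, ?_⟩
  have hW := congrArg (ph K) hR
  have hst := s_mul_ph_X K
  simp only [map_add, map_sub, map_mul, map_pow, map_ofNat] at hW ⊢
  rw [xForm_eq, jS_eq]
  generalize HahnSeries.single (-1 : ℤ) (1 : K) = s at hst ⊢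
  generalize ph K (wPS 3 12) = W at hW ⊢
  generalize ph K (jNum.expand 3 _) = J at hW ⊢
  generalize ph K PowerSeries.X = t at hW hst ⊢
  generalize ph K R = RR at hW ⊢
  linear_combination (s ^ 4) * hW +
    (-36 * s ^ 3 * W ^ 3 - 270 * s ^ 2 * W ^ 2 * (s * t + 1) +
      s * RR * ((s * t) ^ 2 + s * t + 1) - 729) * hst

end Laurent

end Coef

theorem coeffMap_xL {K K' : Type*} [CommRing K] [CommRing K'] (σ : K →+* K') (Λ : Line) :
    coeffMap σ (xL K Λ) = xL K' Λ := by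
  unfold xL
  split_ifs
  · rw [Coef.xForm_eq, Coef.xForm_eq, map_mul, Coef.coeffMap_ph, coeffMap_single, map_one]
  · rw [Coef.xForm_eq, Coef.xForm_eq, map_mul, Coef.coeffMap_ph, coeffMap_single, map_one]

theorem Coef.xForm_mul_xFormInv (K : Type*) [CommRing K] (r m : ℕ) [NeZero r] :
    xForm K r m * xFormInv K r m = 1 := by
  have h1 := Coef.eP_mul_ePinv K
  have h2 : qExpand K r (ePinv K) * qExpand K r (eP K) = 1 := by
    rw [← map_mul, mul_comm, h1, map_one]
  have h3 : HahnSeries.single (-1 : ℤ) (1 : K) * HahnSeries.single (1 : ℤ) 1 = 1 := by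
    rw [HahnSeries.single_mul_single]
    simp
  calc xForm K r m * xFormInv K r m
      = (HahnSeries.single (-1 : ℤ) (1 : K) * HahnSeries.single (1 : ℤ) 1) *
        ((eP K * ePinv K) * (qExpand K r (ePinv K) * qExpand K r (eP K))) ^ m := by
        rw [xForm, xFormInv]; ring
    _ = 1 := by rw [h1, h2, h3, one_mul, one_mul, one_pow]

theorem xL_mul_xLinv (K : Type*) [CommRing K] (Λ : Line) : xL K Λ * xLinv K Λ = 1 := by
  unfold xL xLinv
  split_ifs
  · exact Coef.xForm_mul_xFormInv K 2 24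
  · exact Coef.xForm_mul_xFormInv K 3 12

theorem Coef.xForm_int (r m : ℕ) [NeZero r] : xForm ℤ r m = xOf (Coef.wPS r m) := by
  rw [Coef.xForm_eq, xOf, Coef.ph_apply]
  congr 2

/-- `x̂ = q⁻¹ w`, `w(0) = 1`. -/
theorem exists_xL_eq (Λ : Line) : ∃ w : PowerSeries ℤ, PowerSeries.constantCoeff w = 1 ∧
    xL ℤ Λ = xOf w := by
  unfold xL
  split_ifs
  · exact ⟨_, Coef.constantCoeff_wPS 2 24, Coef.xForm_int 2 24⟩
  · exact ⟨_, Coef.constantCoeff_wPS 3 12, Coef.xForm_int 3 12⟩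

theorem Coef.order_xForm (K : Type*) [Field K] (r m : ℕ) [NeZero r] :
    (xForm K r m).order = -1 ∧ (xForm K r m).leadingCoeff = 1 := by
  rw [Coef.xForm_eq, Coef.ph_apply]
  apply XSer.order_aux
  rw [← PowerSeries.coeff_zero_eq_constantCoeff_apply, PowerSeries.coeff_map,
    PowerSeries.coeff_zero_eq_constantCoeff_apply, Coef.constantCoeff_wPS]
  simp

theorem order_xL (K : Type*) [Field K] (Λ : Line) : (xL K Λ).order = -1 := by
  unfold xL
  split_ifs
  · exact (Coef.order_xForm K 2 24).1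
  · exact (Coef.order_xForm K 3 12).1

theorem leadingCoeff_xL (K : Type*) [Field K] (Λ : Line) : (xL K Λ).leadingCoeff = 1 := by
  unfold xL
  split_ifs
  · exact (Coef.order_xForm K 2 24).2
  · exact (Coef.order_xForm K 3 12).2

/-- (F∞) `Bp(x̂) - j Ap(x̂) = O(q^(1-r))`. -/
theorem coef_inf (K : Type*) [CommRing K] (Λ : Line) (hΛ : Λ = line2 ∨ Λ = line3) (n : ℤ)
    (hn : n ≤ -(Λ.r : ℤ)) :
    ((Polynomial.aeval (xL K Λ) Λ.Bp : LaurentSeries K) -
      jqModC K * Polynomial.aeval (xL K Λ) Λ.Ap).coeff n = 0 := by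
  rcases hΛ with rfl | rfl
  · have hx : xL K line2 = xForm K 2 24 := if_pos rfl
    obtain ⟨P, hP⟩ := Coef.inf2 K
    have hn' : n ≤ -2 := hn
    simp only [line2, map_pow, map_add, aeval_X, map_ofNat] at hx ⊢
    rw [hx, hP]
    exact Coef.coeff_vanish K 1 P n (by push_cast; omega)
  · have hx : xL K line3 = xForm K 3 12 := if_neg (by decide)
    obtain ⟨P, hP⟩ := Coef.inf3 K
    have hn' : n ≤ -3 := hn
    simp only [line3, map_pow, map_add, map_mul, aeval_X, map_ofNat] at hx ⊢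
    rw [hx, hP]
    exact Coef.coeff_vanish K 2 P n (by push_cast; omega)

/-- (F0) `Cp(x̂) - j(q^r) x̂ = O(q⁻¹)`. -/
theorem coef_zero (K : Type*) [CommRing K] (Λ : Line) (hΛ : Λ = line2 ∨ Λ = line3) (n : ℤ)
    (hn : n < -1) :
    ((Polynomial.aeval (xL K Λ) (Cp Λ) : LaurentSeries K) - jS K Λ.r * xL K Λ).coeff n = 0 := by
  rcases hΛ with rfl | rfl
  · have hx : xL K line2 = xForm K 2 24 := if_pos rfl
    have hC : Cp line2 = (X + 16) ^ 3 := if_pos rfl
    have hr : line2.r = 2 := rfl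
    obtain ⟨P, hP⟩ := Coef.zero2 K
    rw [hx, hC, hr]
    simp only [map_pow, map_add, aeval_X, map_ofNat]
    rw [hP]
    exact Coef.coeff_vanish K 1 P n (by push_cast; omega)
  · have hx : xL K line3 = xForm K 3 12 := if_neg (by decide)
    have hC : Cp line3 = (X + 27) * (X + 3) ^ 3 := if_neg (by decide)
    have hr : line3.r = 3 := rfl
    obtain ⟨P, hP⟩ := Coef.zero3 K
    rw [hx, hC, hr]
    simp only [map_pow, map_add, map_mul, aeval_X, map_ofNat]
    rw [hP]
    exact Coef.coeff_vanish K 1 P n (by push_cast; omega)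

end Fermat.Agent.Mod
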