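import Fermat.Agent.S34.Mod.WMat
import Fermat.Agent.NV.Level
import Fermat.Agent.S28.DeltaQExp

set_option autoImplicit false

/-!
# MOD / task DAN : the analytic function `Δ(z) / Δ(n z)` and its `q`-expansion

* `1/Δ ∈ perSub 1` (`(1/Δ) * Δ¹ = 1` is bounded), `TInf 1 Δ = dS ℂ` (`TInf_of_isBd`, `isBd_discriminant`,
  `S28.qExpansion_discriminant`; `S28.dS K = ofPowerSeries (X * dedekindEtaUnit.map _)` up to unfolding, see `S28/Series.lean`,
  `S28.Lf_D`), so `TInf 1 (1/Δ) = dInv ℂ` (`S28.dS_mul_dInv`, `TInf` is a ring hom).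
* `pre n 0 1 f ∈ perSub 1` and `TInf 1 (pre n 0 1 f) = qExpand ℂ n (TInf 1 f)`: `NV.pre_mem_perSub`, `NV.TInf_pre` with
  `M = 1, a = n, b = 0, δ = 1` (`rootU 1 0 = 1`: `S24.expandC_rootU_zero`, `S24.twist_one`, `NV.HeckeExp.qExpand_congr`);
  `pre n 0 1 (1/Δ) = 1 / pre n 0 1 Δ` pointwise.
* `DAn_W`: `ALMat.disc_W` with `(e, f) = (1, 1)` and `(Q, 1)`; `pre 1 0 1 Δ = Δ`.
-/

noncomputable section

namespace Fermat.Agent.Mod

open UpperHalfPlane ModularForm ModularCurve Fermat.Agent.S24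

/-- `Δ(z) / Δ(n z)`. -/
def DAn (n : ℕ) : ℍ → ℂ := fun z => discriminant z / pre n 0 1 discriminant z

/-- `Δ(n z) / Δ(z)`. -/
def DAnInv (n : ℕ) : ℍ → ℂ := fun z => pre n 0 1 discriminant z / discriminant z

theorem DAn_ne_zero (n : ℕ) (z : ℍ) : DAn n z ≠ 0 :=
  div_ne_zero (discriminant_ne_zero z) (discriminant_ne_zero _)

theorem DAn_mul_DAnInv (n : ℕ) (z : ℍ) : DAn n z * DAnInv n z = 1 := by
  have h1 := discriminant_ne_zero z
  have h2 : pre n 0 1 discriminant z ≠ 0 := discriminant_ne_zero _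
  unfold DAn DAnInv
  field_simp

/-- `1/Δ`. -/
def danInv : ℍ → ℂ := fun z => (discriminant z)⁻¹

theorem dan_disc_mem : (discriminant : ℍ → ℂ) ∈ perSub 1 := (isBd_discriminant 1).isPer

theorem dan_inv_mem : danInv ∈ perSub 1 := by
  refine ⟨1, ?_⟩
  have : danInv * (discriminant : ℍ → ℂ) ^ 1 = 1 := by
    funext z
    simp only [danInv, Pi.mul_apply, pow_one, Pi.one_apply]
    exact inv_mul_cancel₀ (discriminant_ne_zero z)
  rw [this]
  exact isBd_one 1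

theorem dan_TInf_disc : TInf 1 ⟨discriminant, dan_disc_mem⟩ = S28.dS ℂ := by
  rw [TInf_of_isBd 1 _ (isBd_discriminant 1)]
  show HahnSeries.ofPowerSeries ℤ ℂ (qExpansion ((1 : ℕ) : ℝ) discriminant) = _
  rw [Nat.cast_one, S28.qExpansion_discriminant, map_mul, HahnSeries.ofPowerSeries_X]
  rfl

theorem dan_TInf_inv : TInf 1 ⟨danInv, dan_inv_mem⟩ = S28.dInv ℂ := by
  have h1 : (⟨danInv, dan_inv_mem⟩ : perSub 1) * ⟨discriminant, dan_disc_mem⟩ = 1 := by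
    apply Subtype.ext
    funext z
    exact inv_mul_cancel₀ (discriminant_ne_zero z)
  have h2 := congrArg (TInf 1) h1
  rw [map_mul, map_one, dan_TInf_disc] at h2
  calc TInf 1 ⟨danInv, dan_inv_mem⟩
      = TInf 1 ⟨danInv, dan_inv_mem⟩ * (S28.dS ℂ * S28.dInv ℂ) := by
        rw [S28.dS_mul_dInv, mul_one]
    _ = S28.dInv ℂ := by rw [← mul_assoc, h2, one_mul]

theorem dan_pre_mem {f : ℍ → ℂ} (hf : f ∈ perSub 1) (n : ℕ) [NeZero n] :
    pre n 0 1 f ∈ perSub 1 :=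
  NV.pre_mem_perSub hf (Nat.pos_of_ne_zero (NeZero.ne n)) one_pos (dvd_refl 1)

theorem dan_TInf_pre {f : ℍ → ℂ} (hf : f ∈ perSub 1) (n : ℕ) [NeZero n] :
    TInf 1 ⟨pre n 0 1 f, dan_pre_mem hf n⟩ = qExpand ℂ n (TInf 1 ⟨f, hf⟩) := by
  have hn : n * (1 / 1) = n := by simp
  have : NeZero (n * (1 / 1)) := ⟨by rw [hn]; exact NeZero.ne n⟩
  have := NV.TInf_pre (b := 0) hf (M := 1) (Nat.pos_of_ne_zero (NeZero.ne n)) one_pos (dvd_refl 1)
  rw [Nat.cast_zero, expandC_rootU_zero, twist_one, ModularCurve.qExpand_congr hn] at this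
  exact this

theorem DAn_eq (n : ℕ) : DAn n = discriminant * pre n 0 1 danInv := by
  funext z
  simp only [DAn, Pi.mul_apply, pre, danInv, div_eq_mul_inv]

theorem DAnInv_eq (n : ℕ) : DAnInv n = danInv * pre n 0 1 discriminant := by
  funext z
  simp only [DAnInv, Pi.mul_apply, pre, danInv, div_eq_mul_inv, mul_comm]

theorem DAn_mem (n : ℕ) [NeZero n] : DAn n ∈ perSub 1 := by
  rw [DAn_eq]
  exact mul_mem dan_disc_mem (dan_pre_mem dan_inv_mem n)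

theorem DAnInv_mem (n : ℕ) [NeZero n] : DAnInv n ∈ perSub 1 := by
  rw [DAnInv_eq]
  exact mul_mem dan_inv_mem (dan_pre_mem dan_disc_mem n)

theorem TInf_DAn (n : ℕ) [NeZero n] : TInf 1 ⟨DAn n, DAn_mem n⟩ = DK ℂ n := by
  have h : (⟨DAn n, DAn_mem n⟩ : perSub 1) =
      ⟨discriminant, dan_disc_mem⟩ * ⟨pre n 0 1 danInv, dan_pre_mem dan_inv_mem n⟩ :=
    Subtype.ext (DAn_eq n)
  rw [h, map_mul, dan_TInf_disc, dan_TInf_pre dan_inv_mem, dan_TInf_inv, DK]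

theorem TInf_DAnInv (n : ℕ) [NeZero n] : TInf 1 ⟨DAnInv n, DAnInv_mem n⟩ = DKinv ℂ n := by
  have h : (⟨DAnInv n, DAnInv_mem n⟩ : perSub 1) =
      ⟨danInv, dan_inv_mem⟩ * ⟨pre n 0 1 discriminant, dan_pre_mem dan_disc_mem n⟩ :=
    Subtype.ext (DAnInv_eq n)
  rw [h, map_mul, dan_TInf_inv, dan_TInf_pre dan_disc_mem, dan_TInf_disc, DKinv]

theorem dan_pre_one (f : ℍ → ℂ) (z : ℍ) : pre 1 0 1 f z = f z := by
  simp [pre]

/-- `D(W_Q z) = Q¹² / D(z)`. -/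
theorem DAn_W {N Q : ℕ} (A : ALMat N Q) (hN : 0 < N) (hQ : Q ∣ N) (z : ℍ) :
    DAn Q (A.W z) = (Q : ℂ) ^ 12 * DAnInv Q z := by
  have hQ0 : 0 < Q := Nat.pos_of_dvd_of_pos hQ hN
  have h1 := A.disc_W 1 1 (one_dvd _) (one_dvd _) hN hQ z
  have h2 := A.disc_W Q 1 (dvd_refl _) (one_dvd _) hN hQ z
  rw [mul_one, Nat.div_one, mul_one, dan_pre_one, Nat.cast_one, div_one] at h1
  rw [mul_one, Nat.div_self hQ0, mul_one, dan_pre_one] at h2
  unfold DAn DAnInv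
  rw [h1, h2]
  have hne := ALMat.denom_ne (Q := Q) hN z
  have hQ1 : (Q : ℂ) ≠ 0 := by exact_mod_cast hQ0.ne'
  have h3 := discriminant_ne_zero z
  field_simp

end Fermat.Agent.Mod
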