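import Fermat.Agent.S34.Mod.Defs
import Fermat.Agent.S18.AT.Defs

set_option autoImplicit false

/-!
# MOD / task INT : API of `IntOver K t z` (`z` integral over `K[t]`)

Everything is a translation of Mathlib (`RingHom.IsIntegralElem`, `IsIntegral`, `isIntegral_trans`,
`iInf_valuationSubring_superset` in `Mathlib/RingTheory/Valuation/LocalSubring.lean`).
`IntOver K t z` unfolds to `∃ P : K[X][X], P.Monic ∧ P.eval₂ (aeval t) z = 0`.
-/

noncomputable section

namespace Fermat.Agent.Mod

open Polynomial

section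
variable {K L : Type*} [Field K] [Field L] [Algebra K L]

/-- the evaluation map onto `K[t]`. -/
def IntOver.evA (K : Type*) {L : Type*} [Field K] [Field L] [Algebra K L] (t : L) :
    K[X] →ₐ[K] Algebra.adjoin K {t} :=
  Polynomial.aeval (⟨t, Algebra.self_mem_adjoin_singleton K t⟩ : Algebra.adjoin K {t})

theorem IntOver.coe_evA (t : L) (p : K[X]) : ((IntOver.evA K t p : Algebra.adjoin K {t}) : L) =
    Polynomial.aeval t p :=
  (Polynomial.aeval_algHom_apply (Algebra.adjoin K {t}).val
    (⟨t, Algebra.self_mem_adjoin_singleton K t⟩ : Algebra.adjoin K {t}) p).symm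

theorem IntOver.evA_surjective (t : L) : Function.Surjective (IntOver.evA K t) := by
  rintro ⟨a, ha⟩
  rw [Algebra.adjoin_singleton_eq_range_aeval] at ha
  obtain ⟨p, hp⟩ := ha
  exact ⟨p, Subtype.ext ((IntOver.coe_evA t p).trans hp)⟩

theorem IntOver.comp_evA (t : L) :
    (algebraMap (Algebra.adjoin K {t}) L).comp (IntOver.evA K t : K[X] →+* Algebra.adjoin K {t}) =
      ((Polynomial.aeval t : K[X] →ₐ[K] L) : K[X] →+* L) :=
  RingHom.ext fun p => IntOver.coe_evA t p

theorem intOver_iff_isIntegral {t z : L} : IntOver K t z ↔ IsIntegral (Algebra.adjoin K {t}) z := by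
  constructor
  · rintro ⟨P, hP, he⟩
    refine ⟨P.map (IntOver.evA K t : K[X] →+* Algebra.adjoin K {t}), hP.map _, ?_⟩
    rw [Polynomial.eval₂_map, IntOver.comp_evA]
    exact he
  · rintro ⟨P, hP, he⟩
    have hl : P ∈ Polynomial.lifts (IntOver.evA K t : K[X] →+* Algebra.adjoin K {t}) := by
      rw [Polynomial.mem_lifts]
      exact Polynomial.map_surjective _ (IntOver.evA_surjective t) P
    obtain ⟨Q, hQ, -, hQm⟩ := Polynomial.lifts_and_natDegree_eq_and_monic hl hP
    refine ⟨Q, hQm, ?_⟩
    rw [← IntOver.comp_evA, ← Polynomial.eval₂_map, hQ]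
    exact he

theorem IntOver.add {t y z : L} (hy : IntOver K t y) (hz : IntOver K t z) : IntOver K t (y + z) :=
  RingHom.IsIntegralElem.add _ hy hz

theorem IntOver.mul {t y z : L} (hy : IntOver K t y) (hz : IntOver K t z) : IntOver K t (y * z) :=
  RingHom.IsIntegralElem.mul _ hy hz

theorem IntOver.neg {t z : L} (hz : IntOver K t z) : IntOver K t (-z) :=
  RingHom.IsIntegralElem.neg _ hz

theorem IntOver.sub {t y z : L} (hy : IntOver K t y) (hz : IntOver K t z) : IntOver K t (y - z) :=
  RingHom.IsIntegralElem.sub _ hy hz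

theorem IntOver.pow {t z : L} (hz : IntOver K t z) (n : ℕ) : IntOver K t (z ^ n) := by
  induction n with
  | zero =>
    rw [pow_zero]
    have := RingHom.isIntegralElem_map ((Polynomial.aeval t : K[X] →ₐ[K] L) : K[X] →+* L) (x := 1)
    rwa [map_one] at this
  | succ n ih =>
    rw [pow_succ]
    exact ih.mul hz

theorem intOver_aeval (t : L) (P : K[X]) : IntOver K t (Polynomial.aeval t P) :=
  RingHom.isIntegralElem_map _

theorem intOver_self (t : L) : IntOver K t t := by
  simpa using intOver_aeval (K := K) t X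

theorem intOver_algebraMap (t : L) (a : K) : IntOver K t (algebraMap K L a) := by
  simpa using intOver_aeval (K := K) t (C a)

/-- explicit monic relation. -/
theorem IntOver.of_rel {t z : L} (n : ℕ) (c : ℕ → K[X])
    (h : z ^ n + ∑ k ∈ Finset.range n, Polynomial.aeval t (c k) * z ^ k = 0) : IntOver K t z := by
  refine ⟨X ^ n + ∑ k ∈ Finset.range n, C (c k) * X ^ k, ?_, ?_⟩
  · apply Polynomial.monic_X_pow_add
    refine (Polynomial.degree_sum_le _ _).trans_lt ?_
    refine (Finset.sup_lt_iff (WithBot.bot_lt_coe n)).2 ?_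
    intro k hk
    refine (Polynomial.degree_C_mul_X_pow_le k _).trans_lt ?_
    exact WithBot.coe_lt_coe.2 (Finset.mem_range.1 hk)
  · rw [Polynomial.eval₂_add, Polynomial.eval₂_pow, Polynomial.eval₂_X, Polynomial.eval₂_finsetSum,
      ← h]
    congr 1
    refine Finset.sum_congr rfl fun k _ => ?_
    rw [Polynomial.eval₂_mul, Polynomial.eval₂_C, Polynomial.eval₂_pow, Polynomial.eval₂_X]
    rfl

/-- transitivity. -/
theorem IntOver.trans {t u z : L} (h1 : IntOver K t u) (h2 : IntOver K u z) : IntOver K t z := by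
  rw [intOver_iff_isIntegral] at h1 h2 ⊢
  have h3 : ∀ x ∈ Algebra.adjoin K {u}, x ∈ integralClosure (Algebra.adjoin K {t}) L := by
    intro x hx
    induction hx using Algebra.adjoin_induction with
    | mem x hx =>
      rw [Set.mem_singleton_iff] at hx
      rw [hx]; exact h1
    | algebraMap c =>
      exact isIntegral_algebraMap (R := Algebra.adjoin K {t}) (A := L)
        (x := algebraMap K (Algebra.adjoin K {t}) c)
    | add x y _ _ hx hy => exact add_mem hx hy
    | mul x y _ _ hx hy => exact mul_mem hx hy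
  have h4 : IsIntegral (integralClosure (Algebra.adjoin K {t}) L) z := by
    let φ' : Algebra.adjoin K {u} →+* integralClosure (Algebra.adjoin K {t}) L :=
      RingHom.codRestrict (algebraMap (Algebra.adjoin K {u}) L)
        (integralClosure (Algebra.adjoin K {t}) L) (fun x => h3 x.1 x.2)
    exact IsIntegral.map_of_comp_eq φ' (RingHom.id L) (by ext x; rfl) h2
  exact isIntegral_trans (A := integralClosure (Algebra.adjoin K {t}) L) _ h4

theorem IntOver.map {L' : Type*} [Field L'] [Algebra K L'] (φ : L →ₐ[K] L') {t z : L}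
    (h : IntOver K t z) : IntOver K (φ t) (φ z) := by
  obtain ⟨P, hP, he⟩ := h
  refine ⟨P, hP, ?_⟩
  have hc : ((Polynomial.aeval (φ t) : K[X] →ₐ[K] L') : K[X] →+* L') =
      (φ : L →+* L').comp ((Polynomial.aeval t : K[X] →ₐ[K] L) : K[X] →+* L) := by
    ext p
    · simp
    · simp
  rw [hc]
  have := Polynomial.hom_eval₂ P ((Polynomial.aeval t : K[X] →ₐ[K] L) : K[X] →+* L)
    (φ : L →+* L') z
  rw [he, map_zero] at this
  exact this.symm

theorem IntOver.of_map {L' : Type*} [Field L'] [Algebra K L'] (φ : L →ₐ[K] L') {t z : L}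
    (h : IntOver K (φ t) (φ z)) : IntOver K t z := by
  obtain ⟨P, hP, he⟩ := h
  refine ⟨P, hP, ?_⟩
  have hc : ((Polynomial.aeval (φ t) : K[X] →ₐ[K] L') : K[X] →+* L') =
      (φ : L →+* L').comp ((Polynomial.aeval t : K[X] →ₐ[K] L) : K[X] →+* L) := by
    ext p
    · simp
    · simp
  rw [hc] at he
  have := Polynomial.hom_eval₂ P ((Polynomial.aeval t : K[X] →ₐ[K] L) : K[X] →+* L)
    (φ : L →+* L') z
  apply (φ : L →+* L').injective
  rw [this, map_zero]
  exact he

/-- for elements of an intermediate field, integrality can be tested in the big field. -/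
theorem intOver_coe_iff (F : IntermediateField K L) (t z : F) :
    IntOver K (t : L) (z : L) ↔ IntOver K t z :=
  ⟨fun h => IntOver.of_map F.val h, fun h => IntOver.map F.val h⟩

/-- an integral element lies in every valuation ring containing `K` and `t`. -/
theorem IntOver.mem_valuationSubring {t z : L} (h : IntOver K t z) (V : ValuationSubring L)
    (hK : ∀ a : K, algebraMap K L a ∈ V) (ht : t ∈ V) : z ∈ V := by
  obtain ⟨P, hP, hPy⟩ := h
  have hf : ∀ p : K[X], ((Polynomial.aeval t : K[X] →ₐ[K] L) : K[X] →+* L) p ∈ V.toSubring := by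
    intro p
    show Polynomial.aeval t p ∈ V
    rw [Polynomial.aeval_eq_sum_range]
    refine sum_mem fun k _ => ?_
    rw [Algebra.smul_def]
    exact mul_mem (hK _) (pow_mem ht k)
  have h1 : IsIntegral V z := by
    let g : K[X] →+* V :=
      (((Polynomial.aeval t : K[X] →ₐ[K] L) : K[X] →+* L)).codRestrict V.toSubring hf
    refine ⟨P.map g, hP.map g, ?_⟩
    rw [Polynomial.eval₂_map]
    have : (algebraMap V L).comp g = ((Polynomial.aeval t : K[X] →ₐ[K] L) : K[X] →+* L) := by
      ext a <;> rfl
    rw [this]; exact hPy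
  obtain ⟨y, hy⟩ := (IsIntegrallyClosed.isIntegral_iff (R := V) (K := L)).1 h1
  rw [← hy]; exact y.2

/-- valuative criterion (`iInf_valuationSubring_superset` with `s = range (algebraMap K L) ∪ {t}`). -/
theorem intOver_of_valuationSubring (t z : L)
    (h : ∀ V : ValuationSubring L, (∀ a : K, algebraMap K L a ∈ V) → t ∈ V → z ∈ V) :
    IntOver K t z := by
  rw [intOver_iff_isIntegral]
  have h1 : z ∈ (⨅ V : {V : ValuationSubring L //
      (Set.range (algebraMap K L) ∪ {t}) ⊆ V.toSubring}, V.1.toSubring) := by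
    rw [Subring.mem_iInf]
    rintro ⟨V, hV⟩
    exact h V (fun a => hV (Or.inl ⟨a, rfl⟩)) (hV (Or.inr rfl))
  rw [iInf_valuationSubring_superset] at h1
  have h2 : IsIntegral (Subring.closure (Set.range (algebraMap K L) ∪ {t})) z := h1
  have hle : Subring.closure (Set.range (algebraMap K L) ∪ {t}) ≤
      (Algebra.adjoin K {t}).toSubring := by
    rw [Subring.closure_le]
    rintro x (⟨a, rfl⟩ | hx)
    · exact (Algebra.adjoin K {t}).algebraMap_mem a
    · rw [Set.mem_singleton_iff] at hx
      rw [hx]
      exact Algebra.self_mem_adjoin_singleton K t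
  exact IsIntegral.map_of_comp_eq (Subring.inclusion hle) (RingHom.id L) (by ext x; rfl) h2

end

/-- bridge to `S18.CInt` with `R = K`. -/
theorem intOver_iff_mem_CInt {K E : Type} [Field K] [Field E] [Algebra K E] (t z : E) :
    IntOver K t z ↔ z ∈ S18.CInt K K t := by
  have hc : ((Polynomial.aeval t : K[X] →ₐ[K] E) : K[X] →+* E) = S18.evR K K t := by
    ext p
    · simp [S18.evR, S18.rE]
    · simp [S18.evR]
  rw [S18.mem_CInt, ← hc]
  rfl

end Fermat.Agent.Mod
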