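import Fermat.Agent.S34.Mod.W
import Fermat.Agent.NV.HeckeExp

set_option autoImplicit false

/-!
# MOD / task WDICT : the dictionary `w_Q f ↔ y ∘ W_Q` between `F_{N,ℚ̄}` and functions on `ℍ`

`wQ_dict`: if `f, f' ∈ F_{N,ℚ̄}` are the `q`-expansions of `y, y' : ℍ → ℂ` and `y ∘ W = y'` then `w_Q f = f'`.
This is the tool to compute `w_Q` on eta quotients (`Δ(q)/Δ(q^Q)`, and `Θ`-quotients in S36).

PROOF.
(0) `PhiB_wQ`: `a ↦ (PhiB N a) ∘ W` and `a ↦ PhiB N (w_Q a)` are ring homs `A0 N →+* (ℍ → ℂ)` agreeing on constants and on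
    the `Jser d` (`S24.phi_ringHom_ext`, `ALMat.jd_W`, `wQ_jF`, `exists_factor`, `alPerm_mul`).  First show that `w_Q` maps
    (the image of) `A0 N` into `A0 N` (`Algebra.adjoin_induction`), or avoid this: state (0) as
    `∀ a : A0 N, ∃ a' : A0 N, (a' : LaurentSeries Kb) = w_Q a ∧ ∀ z, PhiB N a (W z) = PhiB N a' z` and prove it by
    `Algebra.adjoin_induction`.
(1) `f = u / w`, `u, w ∈ A0 N`, `w ≠ 0` (`S24.exists_div_A0`, `FK_Kb`).  `y * PhiB w = PhiB u` as functions: both sides are in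
    `perSub 1` and have the same `TInf 1` (`NV.HeckeExp.TInf_one_PhiB`, `NV.HeckeExp.PhiB_mem_perSub_one`, `TInf_injective`).
(2) evaluate at `W z`: `y' * PhiB w' = PhiB u'` with `w' = w_Q w`, `u' = w_Q u`.  Apply `TInf 1` and the injectivity of
    `coeffMap iotaK`: `f' * w' = u'`, so `f' = w_Q u / w_Q w = w_Q f`.
-/

noncomputable section

namespace Fermat.Agent.Mod

open UpperHalfPlane ModularCurve Fermat.Agent.S24

theorem wdict_mem_FK {N : ℕ} [NeZero N] {a : LaurentSeries Kb} (ha : a ∈ A0 N) : a ∈ FK Kb N := by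
  rw [FK_Kb]
  exact A0_le N a ha

theorem wdict_jd_W {N Q : ℕ} (hN : 0 < N) (hQ : Q ∣ N) (hc : Nat.Coprime Q (N / Q)) (A : ALMat N Q)
    {d : ℕ} (hd : d ∣ N) (z : ℍ) : jd d (A.W z) = jd (alPerm Q d) z := by
  have hQ0 : 0 < Q := Nat.pos_of_dvd_of_pos hQ hN
  obtain ⟨e, f, he, hf, rfl⟩ := exists_factor hN hQ hc hd
  have hfQ : Nat.Coprime f Q := (Nat.Coprime.coprime_dvd_right hf hc).symm
  rw [alPerm_mul hQ0 he hfQ]
  exact A.jd_W e f he hf hN hQ z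

/-- step (0). -/
theorem wdict_PhiB (N Q : ℕ) [NeZero N] (hQ : Q ∣ N) (hc : Nat.Coprime Q (N / Q)) (A : ALMat N Q)
    (a : LaurentSeries Kb) (ha : a ∈ A0 N) :
    ∃ a' : A0 N, (a' : LaurentSeries Kb) = (wQ Kb N Q ⟨a, wdict_mem_FK ha⟩ : FK Kb N).1 ∧
      ∀ z, (PhiB N ⟨a, ha⟩ : ℍ → ℂ) (A.W z) = (PhiB N a' : ℍ → ℂ) z := by
  have hN : 0 < N := Nat.pos_of_ne_zero (NeZero.ne N)
  have ha' : a ∈ Algebra.adjoin Kb (fGens N) := ha
  induction ha' using Algebra.adjoin_induction with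
  | mem x hx =>
    obtain ⟨d, hd, rfl⟩ := hx
    refine ⟨⟨Jser (alPerm Q d), Jser_mem_A0 (alPerm_dvd hN hQ hc hd)⟩, ?_, ?_⟩
    · exact (wQ_jF Kb N Q hQ hc d hd).symm
    · intro z
      rw [PhiB_Jser N hd, PhiB_Jser N (alPerm_dvd hN hQ hc hd)]
      exact wdict_jd_W hN hQ hc A hd z
  | algebraMap r =>
    refine ⟨algebraMap Kb (A0 N) r, ?_, ?_⟩
    · have e : (⟨algebraMap Kb (LaurentSeries Kb) r, wdict_mem_FK ha⟩ : FK Kb N)
          = algebraMap Kb (FK Kb N) r := rfl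
      rw [e, AlgEquiv.commutes]
      rfl
    · intro z
      have e : (⟨algebraMap Kb (LaurentSeries Kb) r, ha⟩ : A0 N) = algebraMap Kb (A0 N) r := rfl
      rw [e, PhiB_const]
      rfl
  | add x y hx hy ihx ihy =>
    have hx' : x ∈ A0 N := hx
    have hy' : y ∈ A0 N := hy
    obtain ⟨x', ex, fx⟩ := ihx hx'
    obtain ⟨y', ey, fy⟩ := ihy hy'
    refine ⟨x' + y', ?_, ?_⟩
    · have e : (⟨x + y, wdict_mem_FK ha⟩ : FK Kb N)
          = ⟨x, wdict_mem_FK hx'⟩ + ⟨y, wdict_mem_FK hy'⟩ := rfl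
      rw [e, map_add]
      show (x' : LaurentSeries Kb) + y' = _ + _
      rw [ex, ey]
    · intro z
      have e : (⟨x + y, ha⟩ : A0 N) = ⟨x, hx'⟩ + ⟨y, hy'⟩ := rfl
      rw [e, map_add, map_add]
      show (PhiB N ⟨x, hx'⟩ : ℍ → ℂ) (A.W z) + (PhiB N ⟨y, hy'⟩ : ℍ → ℂ) (A.W z) =
        (PhiB N x' : ℍ → ℂ) z + (PhiB N y' : ℍ → ℂ) z
      rw [fx, fy]
  | mul x y hx hy ihx ihy =>
    have hx' : x ∈ A0 N := hx
    have hy' : y ∈ A0 N := hy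
    obtain ⟨x', ex, fx⟩ := ihx hx'
    obtain ⟨y', ey, fy⟩ := ihy hy'
    refine ⟨x' * y', ?_, ?_⟩
    · have e : (⟨x * y, wdict_mem_FK ha⟩ : FK Kb N)
          = ⟨x, wdict_mem_FK hx'⟩ * ⟨y, wdict_mem_FK hy'⟩ := rfl
      rw [e, map_mul]
      show (x' : LaurentSeries Kb) * y' = _ * _
      rw [ex, ey]
    · intro z
      have e : (⟨x * y, ha⟩ : A0 N) = ⟨x, hx'⟩ * ⟨y, hy'⟩ := rfl
      rw [e, map_mul, map_mul]
      show (PhiB N ⟨x, hx'⟩ : ℍ → ℂ) (A.W z) * (PhiB N ⟨y, hy'⟩ : ℍ → ℂ) (A.W z) =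
        (PhiB N x' : ℍ → ℂ) z * (PhiB N y' : ℍ → ℂ) z
      rw [fx, fy]

theorem wQ_dict (N Q : ℕ) [NeZero N] (hQ : Q ∣ N) (hc : Nat.Coprime Q (N / Q)) (A : ALMat N Q)
    (f f' : FK Kb N) (y y' : ℍ → ℂ) (hy : y ∈ perSub 1) (hy' : y' ∈ perSub 1)
    (h1 : TInf 1 ⟨y, hy⟩ = coeffMap iotaK f.1) (h2 : TInf 1 ⟨y', hy'⟩ = coeffMap iotaK f'.1)
    (hW : ∀ z, y (A.W z) = y' z) : wQ Kb N Q f = f' := by
  have hinj : Function.Injective (coeffMap iotaK) := phi_coeffMap_injective iotaK iotaK.injective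
  have hf : f.1 ∈ modularFunctionFieldBar N := by rw [← FK_Kb]; exact f.2
  obtain ⟨u, hu, w, hw, hw0, hfuw⟩ := exists_div_A0 N f.1 hf
  have hfw : f.1 * w = u := by rw [hfuw]; field_simp
  -- (1)
  have e1 : (⟨y, hy⟩ : perSub 1) * ⟨(PhiB N ⟨w, hw⟩ : ℍ → ℂ), NV.HeckeExp.PhiB_mem_perSub_one N _⟩
      = ⟨(PhiB N ⟨u, hu⟩ : ℍ → ℂ), NV.HeckeExp.PhiB_mem_perSub_one N _⟩ := by
    apply TInf_injective 1
    rw [map_mul, h1, NV.HeckeExp.TInf_one_PhiB, NV.HeckeExp.TInf_one_PhiB, ← map_mul]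
    exact congrArg _ hfw
  have e1' : ∀ z, y z * (PhiB N ⟨w, hw⟩ : ℍ → ℂ) z = (PhiB N ⟨u, hu⟩ : ℍ → ℂ) z := fun z =>
    congrFun (congrArg Subtype.val e1) z
  obtain ⟨w', ew, fw⟩ := wdict_PhiB N Q hQ hc A w hw
  obtain ⟨u', eu, fu⟩ := wdict_PhiB N Q hQ hc A u hu
  -- (2)
  have e2 : (⟨y', hy'⟩ : perSub 1) * ⟨(PhiB N w' : ℍ → ℂ), NV.HeckeExp.PhiB_mem_perSub_one N _⟩
      = ⟨(PhiB N u' : ℍ → ℂ), NV.HeckeExp.PhiB_mem_perSub_one N _⟩ := by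
    apply Subtype.ext
    funext z
    show y' z * (PhiB N w' : ℍ → ℂ) z = (PhiB N u' : ℍ → ℂ) z
    rw [← hW, ← fw, ← fu]
    exact e1' _
  have e3 := congrArg (TInf 1) e2
  rw [map_mul, h2, NV.HeckeExp.TInf_one_PhiB, NV.HeckeExp.TInf_one_PhiB, ← map_mul] at e3
  have e4 : f'.1 * (w' : LaurentSeries Kb) = u' := hinj e3
  have e5 : f * (⟨w, wdict_mem_FK hw⟩ : FK Kb N) = ⟨u, wdict_mem_FK hu⟩ := Subtype.ext hfw
  have e6 := congrArg (fun t : FK Kb N => (wQ Kb N Q t : FK Kb N).1) e5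
  simp only [map_mul] at e6
  have e7 : (wQ Kb N Q f : FK Kb N).1 * (w' : LaurentSeries Kb) = u' := by
    rw [ew, eu]; exact e6
  have hw'0 : (w' : LaurentSeries Kb) ≠ 0 := by
    rw [ew]
    intro h0
    have h3 : wQ Kb N Q ⟨w, wdict_mem_FK hw⟩ = 0 := Subtype.ext h0
    rw [map_eq_zero_iff _ (wQ Kb N Q).injective] at h3
    exact hw0 (congrArg Subtype.val h3)
  apply Subtype.ext
  exact mul_right_cancel₀ hw'0 (e7.trans e4.symm)

end Fermat.Agent.Mod
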