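import Fermat.Agent.S34.Mod.DMem
import Fermat.Agent.S34.Mod.DAn
import Fermat.Agent.S34.Mod.WDict
import Fermat.Agent.S34.Mod.IntOver

set_option autoImplicit false

/-!
# MOD / task D : the modular unit `D = Δ(q)/Δ(q^p)` (output (D) of the chapter)

* `DK_mem`: `DK_mem_rat`, `coeffMap_mem_FK` along `ℚ → K`, `coeffMap_DK`, `full_degeneracyC_le`.
* `DK_intOver`, `DKinv_intOver`: `S28.intJ_Yg_inv 1 p`, `S28.intJ_Yg 1 p` say that `Yg 1 p = p¹² Δ(q^p)/Δ(q)` and its inverse are integral over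
  `ℚ[j]` (`S28.IntJ x = (pe ℚ jq).IsIntegralElem x`, `pe ℚ jq = eval₂RingHom (rQ ℚ) jq`, which is `aeval jq` up to `rQ ℚ = algebraMap`);
  `DKinv ℚ p = p⁻¹² Yg 1 p` (`S28.evz`, `S28.qExpand_eq_evz`, `evz_one_one`); then `IntOver.up`.
* `wQ_DK`: over `ℚ̄`: `wQ_dict` with `y = DAn p`, `y' = p¹² DAnInv p` (`TInf_DAn`, `TInf_DAnInv`, `DAn_W`; `DK ℂ p = coeffMap iotaK (DK Kb p)`);
  then to `ℚ` (injectivity of `mapFK`, `wQ_mapFK`) and to `K` (`wQ_mapFK`).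
-/

noncomputable section

namespace Fermat.Agent.Mod

open ModularCurve

theorem coeffMap_DKinv {K K' : Type*} [CommRing K] [CommRing K'] (σ : K →+* K') (n : ℕ) [NeZero n] :
    coeffMap σ (DKinv K n) = DKinv K' n := by
  rw [DKinv, DKinv, map_mul, coeffMap_qExpand, S28.coeffMap_dS, S28.coeffMap_dInv]

variable (K : Type) [Field K] [CharZero K]

theorem DK_mem (p N : ℕ) [NeZero p] [NeZero N] (hp : p.Prime) (hpN : p ∣ N) : DK K p ∈ FK K N := by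
  apply full_degeneracyC_le K hpN
  have h := coeffMap_mem_FK (algebraMap ℚ K) p (DK_mem_rat p hp)
  rwa [coeffMap_DK] at h

omit [CharZero K] in
theorem DKinv_eq_inv (p : ℕ) [NeZero p] : DKinv K p = (DK K p)⁻¹ :=
  eq_inv_of_mul_eq_one_right (DK_mul_DKinv K p)

theorem DKinv_mem (p N : ℕ) [NeZero p] [NeZero N] (hp : p.Prime) (hpN : p ∣ N) :
    DKinv K p ∈ FK K N := by
  rw [DKinv_eq_inv]
  exact inv_mem (DK_mem K p N hp hpN)

theorem d_intOver_of_intJ {x : LaurentSeries ℚ} (h : S28.IntJ x) : IntOver ℚ (jqModC ℚ) x := by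
  obtain ⟨P, hP, he⟩ := h
  refine ⟨P, hP, ?_⟩
  have hc : ((Polynomial.aeval (jqModC ℚ) : Polynomial ℚ →ₐ[ℚ] LaurentSeries ℚ) :
      Polynomial ℚ →+* LaurentSeries ℚ) = S28.pe ℚ jq := by
    apply Polynomial.ringHom_ext
    · intro a
      simp [S28.pe, S28.rQ]
    · simp [S28.pe]
      rfl
  rw [hc]
  exact he

theorem d_Yg_eq (p : ℕ) [NeZero p] : S28.Yg 1 p = (p : LaurentSeries ℚ) ^ 12 * DKinv ℚ p := by
  rw [S28.Yg, one_mul, S28.evz_one_one, ← S28.qExpand_eq_evz, DKinv]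
  ring

theorem d_natCast_eq (p : ℕ) : (p : LaurentSeries ℚ) = algebraMap ℚ (LaurentSeries ℚ) (p : ℚ) :=
  (map_natCast _ p).symm

theorem DKinv_intOver_rat (p : ℕ) [NeZero p] (hp : p.Prime) :
    IntOver ℚ (jqModC ℚ) (DKinv ℚ p) := by
  have h := d_intOver_of_intJ (S28.intJ_Yg 1 p one_ne_zero hp)
  rw [d_Yg_eq] at h
  have hp0 : (p : ℚ) ≠ 0 := by exact_mod_cast hp.ne_zero
  have h2 := (intOver_algebraMap (K := ℚ) (jqModC ℚ) (((p : ℚ) ^ 12)⁻¹)).mul h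
  have e : algebraMap ℚ (LaurentSeries ℚ) (((p : ℚ) ^ 12)⁻¹) *
      ((p : LaurentSeries ℚ) ^ 12 * DKinv ℚ p) = DKinv ℚ p := by
    rw [d_natCast_eq, ← map_pow, ← mul_assoc, ← map_mul, inv_mul_cancel₀ (pow_ne_zero _ hp0),
      map_one, one_mul]
  rwa [e] at h2

theorem DK_intOver_rat (p : ℕ) [NeZero p] (hp : p.Prime) :
    IntOver ℚ (jqModC ℚ) (DK ℚ p) := by
  have h := d_intOver_of_intJ (S28.intJ_Yg_inv 1 p one_ne_zero hp)
  rw [d_Yg_eq, DKinv_eq_inv, mul_inv, inv_inv] at h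
  have hp0 : (p : ℚ) ≠ 0 := by exact_mod_cast hp.ne_zero
  have h2 := (intOver_algebraMap (K := ℚ) (jqModC ℚ) ((p : ℚ) ^ 12)).mul h
  have e : algebraMap ℚ (LaurentSeries ℚ) ((p : ℚ) ^ 12) *
      (((p : LaurentSeries ℚ) ^ 12)⁻¹ * DK ℚ p) = DK ℚ p := by
    rw [d_natCast_eq, ← map_pow, ← mul_assoc, ← map_inv₀, ← map_mul,
      mul_inv_cancel₀ (pow_ne_zero _ hp0), map_one, one_mul]
  rwa [e] at h2

theorem DK_intOver (p : ℕ) [NeZero p] (hp : p.Prime) : IntOver K (jqModC K) (DK K p) := by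
  have h := IntOver.up (algebraMap ℚ K) (DK_intOver_rat p hp)
  rwa [coeffMap_DK, coeffMap_jqModC] at h

theorem DKinv_intOver (p : ℕ) [NeZero p] (hp : p.Prime) : IntOver K (jqModC K) (DKinv K p) := by
  have h := IntOver.up (algebraMap ℚ K) (DKinv_intOver_rat p hp)
  rwa [coeffMap_DKinv, coeffMap_jqModC] at h

open Fermat.Agent.S24 in
/-- `w_p D = p¹² / D` over `ℚ̄`. -/
theorem wQ_DK_Kb (p N : ℕ) [NeZero p] [NeZero N] (hp : p.Prime) (hpN : p ∣ N)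
    (hc : Nat.Coprime p (N / p)) :
    ((wQ Kb N p ⟨DK Kb p, DK_mem Kb p N hp hpN⟩ : FK Kb N) : LaurentSeries Kb) =
      (p : LaurentSeries Kb) ^ 12 * DKinv Kb p := by
  obtain ⟨A⟩ := exists_alMat hc
  have hN : 0 < N := Nat.pos_of_ne_zero (NeZero.ne N)
  have hm : (p : LaurentSeries Kb) ^ 12 * DKinv Kb p ∈ FK Kb N :=
    mul_mem (pow_mem (natCast_mem _ p) 12) (DKinv_mem Kb p N hp hpN)
  have hy' : (fun z => (p : ℂ) ^ 12 * DAnInv p z) ∈ perSub 1 := by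
    have : (fun z => (p : ℂ) ^ 12 * DAnInv p z) = ((p : UpperHalfPlane → ℂ)) ^ 12 * DAnInv p := by
      funext z
      simp
    rw [this]
    exact mul_mem (pow_mem (natCast_mem _ p) 12) (DAnInv_mem p)
  have key := wQ_dict N p hpN hc A ⟨DK Kb p, DK_mem Kb p N hp hpN⟩ ⟨_, hm⟩ (DAn p)
    (fun z => (p : ℂ) ^ 12 * DAnInv p z) (DAn_mem p) hy' ?_ ?_ (fun z => DAn_W A hN hpN z)
  · rw [key]
  · rw [TInf_DAn, coeffMap_DK]
  · have e : (⟨fun z => (p : ℂ) ^ 12 * DAnInv p z, hy'⟩ : perSub 1) =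
        (p : perSub 1) ^ 12 * ⟨DAnInv p, DAnInv_mem p⟩ := by
      apply Subtype.ext
      funext z
      simp
    rw [e, map_mul, map_pow, map_natCast, TInf_DAnInv]
    show _ = coeffMap iotaK ((p : LaurentSeries Kb) ^ 12 * DKinv Kb p)
    rw [map_mul, map_pow, map_natCast, coeffMap_DKinv]

/-- `w_p D = p¹² / D`. -/
theorem wQ_DK (p N : ℕ) [NeZero p] [NeZero N] (hp : p.Prime) (hpN : p ∣ N)
    (hc : Nat.Coprime p (N / p)) :
    ((wQ K N p ⟨DK K p, DK_mem K p N hp hpN⟩ : FK K N) : LaurentSeries K) =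
      (p : LaurentSeries K) ^ 12 * DKinv K p := by
  -- over `ℚ`
  have hQ : ((wQ ℚ N p ⟨DK ℚ p, DK_mem ℚ p N hp hpN⟩ : FK ℚ N) : LaurentSeries ℚ) =
      (p : LaurentSeries ℚ) ^ 12 * DKinv ℚ p := by
    have hinj : Function.Injective (coeffMap (algebraMap ℚ S24.Kb)) :=
      S24.phi_coeffMap_injective _ (algebraMap ℚ S24.Kb).injective
    apply hinj
    have h1 := wQ_mapFK ℚ N p hpN hc (algebraMap ℚ S24.Kb) ⟨DK ℚ p, DK_mem ℚ p N hp hpN⟩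
    have h2 : mapFK (algebraMap ℚ S24.Kb) N ⟨DK ℚ p, DK_mem ℚ p N hp hpN⟩ =
        ⟨DK S24.Kb p, DK_mem S24.Kb p N hp hpN⟩ := Subtype.ext (coeffMap_DK _ p)
    rw [h2] at h1
    have h3 := congrArg Subtype.val h1
    rw [wQ_DK_Kb p N hp hpN hc] at h3
    rw [map_mul, map_pow, map_natCast, coeffMap_DKinv, h3]
    rfl
  have h1 := wQ_mapFK ℚ N p hpN hc (algebraMap ℚ K) ⟨DK ℚ p, DK_mem ℚ p N hp hpN⟩
  have h2 : mapFK (algebraMap ℚ K) N ⟨DK ℚ p, DK_mem ℚ p N hp hpN⟩ =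
      ⟨DK K p, DK_mem K p N hp hpN⟩ := Subtype.ext (coeffMap_DK _ p)
  rw [h2] at h1
  rw [h1, coe_mapFK, hQ, map_mul, map_pow, map_natCast, coeffMap_DKinv]

end Fermat.Agent.Mod
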