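import Fermat.Agent.S34.Mod.BC
import Fermat.Agent.S34.Mod.MinDeg
import Fermat.Agent.S28.IntGens

set_option autoImplicit false

/-!
# MOD / task DMEM : `Δ(q) / Δ(q^p) ∈ F_{p,ℚ} = ℚ(j, j(q^p))`, `p` prime

`S28`: `X = Xg 1 p = p¹² E₄(q^p)³/Δ(q)`, `Y = Yg 1 p = p¹² Δ(q^p)/Δ(q)`, `j(q^p) * Y = X`, and for all `c` the element `X + c Y` is a root of a monic
polynomial of degree `p + 1` with coefficients in `ℚ[j]` (`S28.IG.exists_nbr 1 p`).  So `[ℚ̄(j)(X, Y) : ℚ̄(j)] ≤ p + 1` (`MinDeg.finrank_adjoin_pair_le`), this field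
contains `j(q^p) = X / Y`, hence it is `F_p` (`MinDeg.mem_FN_of_finrank_le`).
-/

noncomputable section

namespace Fermat.Agent.Mod

open ModularCurve Polynomial IntermediateField Fermat.Agent.S24

namespace DMem

theorem jd_eq (d : ℕ) [NeZero d] : S28.jd d = jS ℚ d := by
  rw [S28.jd, jS_of_ne, S28.qExpand_eq_evz]
  rfl

theorem Yg_eq (p : ℕ) [NeZero p] : S28.Yg 1 p = (p : LaurentSeries ℚ) ^ 12 * DKinv ℚ p := by
  rw [S28.Yg, DKinv, one_mul, S28.evz_one_one, S28.qExpand_eq_evz]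
  ring

section
variable (p : ℕ) [NeZero p]

/-- the coefficient map `ℚ((q)) → ℚ̄((q))`. -/
abbrev s : LaurentSeries ℚ →+* LaurentSeries Kb := coeffMap (algebraMap ℚ Kb)

theorem exists_poly (hp : p.Prime) (c : ℕ) :
    ∃ P : (MinDeg.Ej p)[X], P ≠ 0 ∧ P.natDegree ≤ p + 1 ∧
      Polynomial.aeval (s (S28.Xg 1 p) + (c : LaurentSeries Kb) * s (S28.Yg 1 p)) P = 0 := by
  obtain ⟨ε, hm, he, -⟩ := S28.IG.exists_nbr 1 p one_ne_zero hp 1 c
  set E := MinDeg.Ej p
  let P : E[X] := ∑ k ∈ Finset.range (p + 1 + 1), (-1) ^ k *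
    (C ((ε k).eval₂ (algebraMap ℚ E) (MinDeg.jE p)) * X ^ (p + 1 - k))
  have hj : s (S28.jd 1) = jqModC Kb := by
    rw [jd_eq, coeffMap_jS, jS_one]
  have hmap : P.map (algebraMap E (LaurentSeries Kb)) = (S28.IG.nbrQ (p + 1) ε (S28.jd 1)).map s := by
    rw [S28.IG.map_nbrQ, Polynomial.map_sum]
    refine Finset.sum_congr rfl fun k _ => ?_
    have h3 : algebraMap E (LaurentSeries Kb) ((ε k).eval₂ (algebraMap ℚ E) (MinDeg.jE p)) =
        (ε k).eval₂ (S28.rQ Kb) (s (S28.jd 1)) := by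
      rw [Polynomial.hom_eval₂, hj]
      congr 1
      exact Subsingleton.elim _ _
    simp only [Polynomial.map_mul, Polynomial.map_pow, Polynomial.map_neg, Polynomial.map_one,
      Polynomial.map_C, Polynomial.map_X, h3]
  have hmonic : P.Monic := by
    apply Polynomial.monic_of_injective (algebraMap E (LaurentSeries Kb)).injective
    rw [hmap]
    exact hm.map s
  refine ⟨P, hmonic.ne_zero, ?_, ?_⟩
  · apply Polynomial.natDegree_sum_le_of_forall_le
    intro k _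
    have h1 : ((-1 : E[X]) ^ k * (C ((ε k).eval₂ (algebraMap ℚ E) (MinDeg.jE p)) * X ^ (p + 1 - k))) =
        C ((-1) ^ k * (ε k).eval₂ (algebraMap ℚ E) (MinDeg.jE p)) * X ^ (p + 1 - k) := by
      simp only [map_mul, map_pow, map_neg, map_one]
      ring
    rw [h1]
    exact (Polynomial.natDegree_C_mul_X_pow_le _ _).trans (Nat.sub_le _ _)
  · rw [Polynomial.aeval_def, ← Polynomial.eval_map, hmap]
    have h2 : s (S28.Xg 1 p) + (c : LaurentSeries Kb) * s (S28.Yg 1 p) =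
        s (S28.rQ ℚ 1 * S28.Xg 1 p + S28.rQ ℚ c * S28.Yg 1 p) := by
      rw [map_add, map_mul, map_mul, map_one, map_one, one_mul, map_natCast, map_natCast]
    rw [h2, Polynomial.eval_map, Polynomial.eval₂_hom, he, map_zero]

theorem Yg_mem_Kb (hp : p.Prime) : s (S28.Yg 1 p) ∈ modularFunctionFieldBar p := by
  set E := MinDeg.Ej p
  have hchar : CharZero E := charZero_of_injective_algebraMap (algebraMap Kb E).injective
  obtain ⟨hfin, hle⟩ := MinDeg.finrank_adjoin_pair_le (E := E) (s (S28.Xg 1 p)) (s (S28.Yg 1 p))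
    (p + 1) (exists_poly p hp)
  set M := IntermediateField.adjoin E ({s (S28.Xg 1 p), s (S28.Yg 1 p)} : Set (LaurentSeries Kb))
  have hXM : s (S28.Xg 1 p) ∈ M := IntermediateField.subset_adjoin E _ (Set.mem_insert _ _)
  have hYM : s (S28.Yg 1 p) ∈ M :=
    IntermediateField.subset_adjoin E _ (Set.mem_insert_of_mem _ rfl)
  have hY0 : S28.Yg 1 p ≠ 0 :=
    (S28.IG.intJ_step 1 p one_ne_zero hp (S28.intJ_jd 1 one_ne_zero)).2.2.2
  have hY0' : s (S28.Yg 1 p) ≠ 0 := by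
    intro h
    exact hY0 ((map_eq_zero s).mp h)
  have hJ : Jser p ∈ M := by
    have h1 := congrArg s (S28.IG.jd_mul_Yg 1 p)
    rw [map_mul, one_mul, jd_eq, coeffMap_jS, jS_Kb] at h1
    have h2 : Jser p = s (S28.Xg 1 p) / s (S28.Yg 1 p) := by
      rw [← h1, mul_div_assoc, div_self hY0', mul_one]
    rw [h2]
    exact div_mem hXM hYM
  exact MinDeg.mem_FN_of_finrank_le p hp M hJ hle hYM

end

end DMem

theorem DK_mem_rat (p : ℕ) [NeZero p] (hp : p.Prime) : DK ℚ p ∈ FK ℚ p := by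
  have h1 : S28.Yg 1 p ∈ FK ℚ p := by
    apply mem_FK_of_coeffMap (algebraMap ℚ Kb) p
    rw [FK_Kb]
    exact DMem.Yg_mem_Kb p hp
  have hp0 : (p : LaurentSeries ℚ) ^ 12 ≠ 0 := by
    apply pow_ne_zero
    rw [← map_natCast (algebraMap ℚ (LaurentSeries ℚ)) p]
    exact (_root_.map_ne_zero _).mpr (by exact_mod_cast hp.ne_zero)
  have h2 : DKinv ℚ p ∈ FK ℚ p := by
    have : DKinv ℚ p = ((p : LaurentSeries ℚ) ^ 12)⁻¹ * S28.Yg 1 p := by
      rw [DMem.Yg_eq, ← mul_assoc, inv_mul_cancel₀ hp0, one_mul]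
    rw [this]
    exact mul_mem (inv_mem (pow_mem (_root_.natCast_mem _ p) 12)) h1
  have h3 : DK ℚ p = (DKinv ℚ p)⁻¹ := eq_inv_of_mul_eq_one_left (DK_mul_DKinv ℚ p)
  rw [h3]
  exact inv_mem h2

end Fermat.Agent.Mod
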