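import Fermat.Agent.S18.XSer
import Fermat.Agent.S28.Series

set_option autoImplicit false

/-!
# Chapter MOD (modular inputs of S34 / S35 / S36) : common definitions

`K` is a field of characteristic zero, `FK K N = K(j(q^d) : d ∣ N) ⊆ K((q))`.

* `jS K d`      : the series `j(q^d)` (junk value `0` for `d = 0`);
* `alPerm Q d`  : the Atkin-Lehner permutation `d = d_Q d_M ↦ (Q / d_Q) d_M` of the divisors of `N`, `Q ∥ N`;
* `IntOver K t z` : `z` is integral over `K[t]`;
* `RelLE K x y` : every polynomial relation over `K` between the `x i` also holds for the `y i`;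
* `PhiShape K q X Y` : `X` is a root of a polynomial of the shape of the modular polynomial `Φ_q(X, Y)`;
* `DK K q`      : `Δ(q) / Δ(q^q)`;
* `Cp Λ`        : `j(q^r) = Cp(x) / x` on helper18's lines (`j = Bp(x) / Ap(x)`).
-/

noncomputable section

namespace Fermat.Agent.Mod

open Polynomial ModularCurve

/-- `j(q^d)`, with junk value `0` at `d = 0`. -/
def jS (K : Type*) [CommRing K] (d : ℕ) : LaurentSeries K :=
  if h : d = 0 then 0 else haveI : NeZero d := ⟨h⟩; qExpand K d (jqModC K)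

theorem jS_of_ne (K : Type*) [CommRing K] (d : ℕ) [NeZero d] : jS K d = qExpand K d (jqModC K) := by
  rw [jS, dif_neg (NeZero.ne d)]

theorem jS_one (K : Type*) [CommRing K] : jS K 1 = jqModC K := by
  rw [jS_of_ne, qExpand_one_apply]

theorem coeffMap_jS {K K' : Type*} [CommRing K] [CommRing K'] (σ : K →+* K') (d : ℕ) :
    coeffMap σ (jS K d) = jS K' d := by
  by_cases h : d = 0
  · simp [jS, h]
  · haveI : NeZero d := ⟨h⟩
    rw [jS_of_ne, jS_of_ne, coeffMap_qExpand, coeffMap_jqModC]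

theorem qExpand_jS (K : Type*) [CommRing K] (e d : ℕ) [NeZero e] :
    qExpand K e (jS K d) = jS K (e * d) := by
  by_cases h : d = 0
  · simp [jS, h]
  · haveI : NeZero d := ⟨h⟩
    have : NeZero (e * d) := ⟨Nat.mul_ne_zero (NeZero.ne e) h⟩
    rw [jS_of_ne, jS_of_ne, qExpand_qExpand]

/-- the function field of `X₀(N)` over `K`. -/
abbrev FK (K : Type) [Field K] (N : ℕ) : IntermediateField K (LaurentSeries K) :=
  modularFunctionFieldFullC K N

theorem jS_mem (K : Type) [Field K] {N d : ℕ} [NeZero N] (hd : d ∣ N) : jS K d ∈ FK K N := by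
  have : NeZero d := ⟨fun h => NeZero.ne N (by subst h; simpa using hd)⟩
  rw [jS_of_ne]
  exact jqModCd_mem_full K N hd

/-- `j(q^d)` as an element of the function field. -/
def jF (K : Type) [Field K] (N : ℕ) [NeZero N] (d : ℕ) (hd : d ∣ N) : FK K N := ⟨jS K d, jS_mem K hd⟩

/-- the divisors of `N`. -/
abbrev Dv (N : ℕ) : Type := {d : ℕ // d ∣ N}

/-- the family of generators. -/
def jFam (K : Type*) [CommRing K] (N : ℕ) : Dv N → LaurentSeries K := fun d => jS K d.1

theorem FK_eq_adjoin (K : Type) [Field K] (N : ℕ) [NeZero N] :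
    FK K N = IntermediateField.adjoin K (Set.range (jFam K N)) := by
  have : divisorExpansionsC K N = Set.range (jFam K N) := by
    ext x
    constructor
    · rintro ⟨d, hd0, hd, rfl⟩
      exact ⟨⟨d, hd⟩, by show jS K d = _; rw [jS_of_ne]⟩
    · rintro ⟨⟨d, hd⟩, rfl⟩
      have hd0 : NeZero d := ⟨fun h => NeZero.ne N (by subst h; simpa using hd)⟩
      exact ⟨d, hd0, hd, by show jS K d = _; rw [jS_of_ne]⟩
  show IntermediateField.adjoin K (divisorExpansionsC K N) = _
  rw [this]

/-- the Atkin-Lehner permutation of the divisors of `N` attached to an exact divisor `Q` of `N`. -/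
def alPerm (Q d : ℕ) : ℕ := (Q / Nat.gcd d Q) * (d / Nat.gcd d Q)

/-- `z` is integral over `K[t]`. -/
def IntOver (K : Type*) {L : Type*} [CommRing K] [CommRing L] [Algebra K L] (t z : L) : Prop :=
  ((Polynomial.aeval t : K[X] →ₐ[K] L) : K[X] →+* L).IsIntegralElem z

/-- every polynomial relation between the `x i` is a relation between the `y i`. -/
def RelLE (K : Type*) {L I : Type*} [CommRing K] [CommRing L] [Algebra K L] (x y : I → L) : Prop :=
  ∀ P : MvPolynomial I K, MvPolynomial.aeval x P = 0 → MvPolynomial.aeval y P = 0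

/-- `X ^ (q+1) + ∑_{k ≤ q} c_k(Y) X ^ k = 0` with `deg c_k ≤ q` (`1 ≤ k ≤ q`), `c_q = - Y ^ q + …`,
`deg c_0 ≤ q + 1`: the shape of the modular polynomial `Φ_q`. -/
def PhiShape (K : Type*) {L : Type*} [CommRing K] [CommRing L] [Algebra K L] (q : ℕ) (X Y : L) :
    Prop :=
  ∃ c : ℕ → K[X], X ^ (q + 1) + ∑ k ∈ Finset.range (q + 1), Polynomial.aeval Y (c k) * X ^ k = 0 ∧
    (∀ k, 1 ≤ k → k ≤ q → (c k).natDegree ≤ q) ∧ (c q).coeff q = -1 ∧ (c 0).natDegree ≤ q + 1

/-- `Δ(q) / Δ(q^n)`. -/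
def DK (K : Type*) [CommRing K] (n : ℕ) [NeZero n] : LaurentSeries K :=
  S28.dS K * qExpand K n (S28.dInv K)

theorem coeffMap_DK {K K' : Type*} [CommRing K] [CommRing K'] (σ : K →+* K') (n : ℕ) [NeZero n] :
    coeffMap σ (DK K n) = DK K' n := by
  rw [DK, DK, map_mul, coeffMap_qExpand, S28.coeffMap_dS, S28.coeffMap_dInv]

/-- `Δ(q^n) / Δ(q)`, the inverse of `DK`. -/
def DKinv (K : Type*) [CommRing K] (n : ℕ) [NeZero n] : LaurentSeries K :=
  S28.dInv K * qExpand K n (S28.dS K)

theorem DK_mul_DKinv (K : Type*) [CommRing K] (n : ℕ) [NeZero n] : DK K n * DKinv K n = 1 := by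
  have h1 : S28.dS K * S28.dInv K = 1 := S28.dS_mul_dInv K
  have h2 : qExpand K n (S28.dInv K) * qExpand K n (S28.dS K) = 1 := by
    rw [← map_mul, mul_comm, h1, map_one]
  calc DK K n * DKinv K n
      = (S28.dS K * S28.dInv K) * (qExpand K n (S28.dInv K) * qExpand K n (S28.dS K)) := by
        rw [DK, DKinv]; ring
    _ = 1 := by rw [h1, h2, one_mul]

/-- `j(q^r) = Cp(x) / x`: `(x+16)³/x` on `line2`, `(x+27)(x+3)³/x` on `line3`. -/
def Cp (Λ : S18.Line) : ℤ[X] :=
  if Λ.r = 2 then (X + 16) ^ 3 else (X + 27) * (X + 3) ^ 3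

/-- the constant of the Fricke involution: `x ↦ cW / x` (`2¹²` on `line2`, `3⁶` on `line3`). -/
def cW (Λ : S18.Line) : ℤ := if Λ.r = 2 then 4096 else 729

end Fermat.Agent.Mod
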