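import Fermat.Agent.S34.Mod.XForm
import Fermat.Agent.S24.ExpandC

set_option autoImplicit false
set_option linter.unusedSectionVars false
set_option linter.style.haveILetI false

/-!
# MOD / task ETA : the eta quotients `h = (η(z)/η(rz))^m`, `(r, m) = (2, 24), (3, 12)`: transformation under `T` and `S`

Mathlib: `ModularForm.eta (z : ℂ) = 𝕢 24 z * ∏' n, (1 - eta_q n z)`, `eta_ne_zero`, `differentiableAt_eta_of_mem_upperHalfPlaneSet`,
`eta_comp_eq_csqrt_I_inv : EqOn (η ∘ (-1 / ·)) ((sqrt I)⁻¹ • (sqrt * η))` on the upper half plane (see how `discriminant_S_invariant`,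
`discriminant_T_invariant` use them in `Mathlib/NumberTheory/ModularForms/Discriminant.lean`).

* `T`: `η(z+1) = e^(2πi/24) η(z)` (`𝕢 24 (z+1) = 𝕢 24 z * exp(2πi/24)`, `eta_q n (z+1) = eta_q n z`), `η(r(z+1)) = e^(2πi r/24) η(rz)`; the quotient to the power
  `m` picks up `exp(2πi m (1 - r)/24) = exp(-2πi) = 1`.   (`act T f z = f (T⁻¹ • z)`, `S24.expA_coe_T_inv_smul : ↑(T⁻¹ • z) = z - 1`.)
* `S`: `h(-1/z) = (η(-1/z) / η(-1/(z/r)))^m = (√z η(z) / (√(z/r) η(z/r)))^m = r^(m/2) (η(z)/η(z/r))^m = r^(m/2) / h(z/r)`;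
  `(√w)^2 = w` (`Complex.sqrt`/`cpow`: see `ModularForm.csqrt_pow_24_eq`), `m` is even.  `2¹² = 4096`, `3⁶ = 729`.
  `UpperHalfPlane.modular_S_smul`, `pre 1 0 r f z = f (ofComplex ((1 * z + 0) / r))`, `S24.expandB_coe_ofComplex`.
-/

noncomputable section

namespace Fermat.Agent.Mod

open UpperHalfPlane ModularForm Fermat.Agent.S24 Fermat.Agent.S18
open scoped MatrixGroups Manifold

/-- `(η(z) / η(r z))^m`. -/
def hFun (r m : ℕ) (z : ℍ) : ℂ := (eta (z : ℂ) / eta ((r : ℂ) * (z : ℂ))) ^ m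

/-- the eta quotient of the line `Λ`. -/
def hL (Λ : Line) : ℍ → ℂ := if Λ.r = 2 then hFun 2 24 else hFun 3 12

/-- its inverse. -/
def hLinv (Λ : Line) : ℍ → ℂ := fun z => (hL Λ z)⁻¹

namespace Eta

theorem mul_mem (r : ℕ) (hr : 0 < r) {w : ℂ} (hw : 0 < w.im) : 0 < ((r : ℂ) * w).im := by
  have : ((r : ℂ) * w).im = r * w.im := by simp
  rw [this]
  positivity

theorem hFun_ne_zero (r m : ℕ) (hr : 0 < r) (z : ℍ) : hFun r m z ≠ 0 :=
  pow_ne_zero _ (div_ne_zero (eta_ne_zero z.2) (eta_ne_zero (mul_mem r hr z.2)))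

theorem mdiff_hFun (r m : ℕ) (hr : 0 < r) : MDiff (hFun r m) := by
  rw [UpperHalfPlane.mdifferentiable_iff]
  have h1 : DifferentiableOn ℂ (fun w : ℂ => (eta w / eta ((r : ℂ) * w)) ^ m) {w | 0 < w.im} := by
    intro w hw
    have hw' : 0 < w.im := hw
    have d1 : DifferentiableAt ℂ eta w := differentiableAt_eta_of_mem_upperHalfPlaneSet hw'
    have d2 : DifferentiableAt ℂ (fun w : ℂ => eta ((r : ℂ) * w)) w :=
      (differentiableAt_eta_of_mem_upperHalfPlaneSet (mul_mem r hr hw')).comp w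
        (by fun_prop)
    exact ((d1.div d2 (eta_ne_zero (mul_mem r hr hw'))).pow m).differentiableWithinAt
  refine h1.congr ?_
  intro w hw
  have hw' : 0 < w.im := hw
  simp only [Function.comp_apply, hFun, ofComplex_apply_of_im_pos hw', coe_mk]

theorem mdiff_inv {f : ℍ → ℂ} (hf : MDiff f) (h0 : ∀ z, f z ≠ 0) : MDiff (fun z => (f z)⁻¹) := by
  rw [UpperHalfPlane.mdifferentiable_iff] at hf ⊢
  exact hf.inv (fun w _ => h0 _)

/-- `η(w - k) = e^(-2πik/24) η(w)`. -/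
theorem eta_sub_nat (w : ℂ) (k : ℕ) :
    eta (w - k) = Complex.exp (-(2 * Real.pi * Complex.I * k / 24)) * eta w := by
  have h1 : ∀ n : ℕ, eta_q n (w - k) = eta_q n w := by
    intro n
    rw [eta_q_eq_pow, eta_q_eq_pow]
    congr 1
    have : 2 * (Real.pi : ℂ) * Complex.I * (w - k) = 2 * Real.pi * Complex.I * w + ((-(k : ℤ) : ℤ) : ℂ) * (2 * Real.pi * Complex.I) := by
      push_cast; ring
    rw [this, Complex.exp_add, Complex.exp_int_mul_two_pi_mul_I, mul_one]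
  have h2 : Function.Periodic.qParam 24 (w - k) =
      Complex.exp (-(2 * Real.pi * Complex.I * k / 24)) * Function.Periodic.qParam 24 w := by
    simp only [Function.Periodic.qParam]
    rw [← Complex.exp_add]
    congr 1
    push_cast
    ring
  simp only [eta, h1, h2, mul_assoc]

theorem hFun_T (r m : ℕ) (hr : 0 < r) (hm : m * (r - 1) = 24) :
    act ModularGroup.T (hFun r m) = hFun r m := by
  funext z
  rw [act_apply, hFun, hFun, expA_coe_T_inv_smul]
  have e1 : (z : ℂ) - 1 = (z : ℂ) - ((1 : ℕ) : ℂ) := by simp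
  have e2 : (r : ℂ) * ((z : ℂ) - 1) = (r : ℂ) * z - (r : ℕ) := by ring
  rw [e2, e1, eta_sub_nat, eta_sub_nat]
  have hne := eta_ne_zero (mul_mem r hr z.2)
  have hexp : Complex.exp (-(2 * Real.pi * Complex.I * (1 : ℕ) / 24)) / Complex.exp (-(2 * Real.pi * Complex.I * r / 24)) =
      Complex.exp (2 * Real.pi * Complex.I * ((r : ℂ) - 1) / 24) := by
    rw [← Complex.exp_sub]
    congr 1
    push_cast
    ring
  rw [mul_div_mul_comm, hexp, mul_pow, ← Complex.exp_nat_mul]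
  have hm' : (m : ℂ) * ((r : ℂ) - 1) = 24 := by
    have h1 : ((m * (r - 1) : ℕ) : ℂ) = 24 := by rw [hm]; norm_num
    rw [Nat.cast_mul, Nat.cast_sub hr, Nat.cast_one] at h1
    exact h1
  have : (m : ℂ) * (2 * Real.pi * Complex.I * ((r : ℂ) - 1) / 24) = 2 * Real.pi * Complex.I := by
    linear_combination (2 * Real.pi * Complex.I / 24) * hm'
  rw [this, Complex.exp_two_pi_mul_I, one_mul]

theorem sqrt_sq (w : ℂ) : Complex.sqrt w ^ 2 = w := by
  have := Complex.cpow_nat_inv_pow w (n := 2) two_ne_zero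
  simp [Complex.sqrt]

/-- `η(-1/w) = (√i)⁻¹ √w η(w)`. -/
theorem eta_S {w : ℂ} (hw : 0 < w.im) :
    eta (-1 / w) = (Complex.sqrt Complex.I)⁻¹ * (Complex.sqrt w * eta w) := by
  have := eta_comp_eq_csqrt_I_inv (show w ∈ upperHalfPlaneSet from hw)
  simpa using this

theorem hFun_S (r k : ℕ) (hr : 0 < r) (z : ℍ) :
    hFun r (2 * k) (ModularGroup.S • z) * pre 1 0 r (hFun r (2 * k)) z = (r : ℂ) ^ k := by
  have hr0 : (r : ℂ) ≠ 0 := by exact_mod_cast hr.ne'
  have hz0 : (z : ℂ) ≠ 0 := z.ne_zero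
  set w : ℂ := (z : ℂ) / r with hw
  have hwim : 0 < w.im := by
    have : w.im = (z : ℂ).im / r := by
      rw [hw]
      simp [Complex.div_natCast_im]
    rw [this]
    exact div_pos z.2 (by exact_mod_cast hr)
  have hw0 : w ≠ 0 := div_ne_zero hz0 hr0
  have hS : ((ModularGroup.S • z : ℍ) : ℂ) = -1 / (z : ℂ) := by
    rw [UpperHalfPlane.modular_S_smul]
    simp [neg_div, inv_neg]
  have hpre : ((ofComplex ((((1 : ℕ) : ℂ) * z + (0 : ℕ)) / r) : ℍ) : ℂ) = w := by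
    rw [expandB_coe_ofComplex 1 0 r one_pos hr]
    simp [hw]
  rw [pre, hFun, hFun, hS, hpre]
  have e1 : (r : ℂ) * (-1 / (z : ℂ)) = -1 / w := by
    rw [hw]; field_simp
  have e2 : (r : ℂ) * w = z := by
    rw [hw]; field_simp
  rw [e1, e2, eta_S z.2, eta_S hwim]
  have hη1 := eta_ne_zero z.2
  have hη2 : eta w ≠ 0 := eta_ne_zero hwim
  have hI : Complex.sqrt Complex.I ≠ 0 := by
    intro h
    have := sqrt_sq Complex.I
    rw [h] at this
    exact Complex.I_ne_zero (by simpa using this.symm)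
  have hsw : Complex.sqrt w ≠ 0 := by
    intro h
    have := sqrt_sq w
    rw [h] at this
    exact hw0 (by simpa using this.symm)
  rw [← mul_pow]
  have e3 : (Complex.sqrt Complex.I)⁻¹ * (Complex.sqrt z * eta z) /
      ((Complex.sqrt Complex.I)⁻¹ * (Complex.sqrt w * eta w)) * (eta w / eta z) =
      Complex.sqrt z / Complex.sqrt w := by
    field_simp
  rw [e3, pow_mul, div_pow, sqrt_sq, sqrt_sq, hw]
  congr 1
  field_simp

end Eta

theorem hL_ne_zero (Λ : Line) (z : ℍ) : hL Λ z ≠ 0 := by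
  unfold hL
  split_ifs
  · exact Eta.hFun_ne_zero 2 24 (by norm_num) z
  · exact Eta.hFun_ne_zero 3 12 (by norm_num) z

theorem mdiff_hL (Λ : Line) : MDiff (hL Λ) := by
  unfold hL
  split_ifs
  · exact Eta.mdiff_hFun 2 24 (by norm_num)
  · exact Eta.mdiff_hFun 3 12 (by norm_num)

theorem mdiff_hLinv (Λ : Line) : MDiff (hLinv Λ) :=
  Eta.mdiff_inv (mdiff_hL Λ) (hL_ne_zero Λ)

theorem hL_T (Λ : Line) : act ModularGroup.T (hL Λ) = hL Λ := by
  unfold hL
  split_ifs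
  · exact Eta.hFun_T 2 24 (by norm_num) (by norm_num)
  · exact Eta.hFun_T 3 12 (by norm_num) (by norm_num)

/-- `h(-1/z) h(z/r) = cW`. -/
theorem hL_S (Λ : Line) (hΛ : Λ = line2 ∨ Λ = line3) (z : ℍ) :
    hL Λ (ModularGroup.S • z) * pre 1 0 Λ.r (hL Λ) z = (cW Λ : ℂ) := by
  rcases hΛ with rfl | rfl
  · have h1 : hL line2 = hFun 2 (2 * 12) := if_pos rfl
    have h2 : cW line2 = 4096 := if_pos rfl
    have h3 : line2.r = 2 := rfl
    rw [h1, h2, h3, Eta.hFun_S 2 12 (by norm_num) z]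
    norm_num
  · have h1 : hL line3 = hFun 3 (2 * 6) := if_neg (by decide)
    have h2 : cW line3 = 729 := if_neg (by decide)
    have h3 : line3.r = 3 := rfl
    rw [h1, h2, h3, Eta.hFun_S 3 6 (by norm_num) z]
    norm_num

/-- Fricke: `h(-1/(rz)) h(z) = cW`. -/
theorem hL_fricke (Λ : Line) (hΛ : Λ = line2 ∨ Λ = line3) (z : ℍ) :
    hL Λ (ModularGroup.S • ofComplex ((((Λ.r : ℕ) : ℂ) * (z : ℂ) + (0 : ℕ)) / (1 : ℕ))) * hL Λ z =
      (cW Λ : ℂ) := by
  have hr : 0 < Λ.r := by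
    rcases hΛ with rfl | rfl <;> decide
  have hr0 : (Λ.r : ℂ) ≠ 0 := by exact_mod_cast hr.ne'
  rw [← hL_S Λ hΛ (ofComplex ((((Λ.r : ℕ) : ℂ) * (z : ℂ) + (0 : ℕ)) / (1 : ℕ)))]
  congr 1
  rw [pre]
  congr 1
  apply UpperHalfPlane.ext
  rw [expandB_coe_ofComplex 1 0 Λ.r one_pos hr, expandB_coe_ofComplex Λ.r 0 1 hr one_pos]
  simp only [Nat.cast_one, Nat.cast_zero, add_zero, div_one, one_mul]
  field_simp

end Fermat.Agent.Mod
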