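import Fermat.Agent.S34.Mod.Eta
import Fermat.Agent.S34.Mod.Coef
import Fermat.Agent.NV.Level
import Fermat.Agent.S28.DeltaQExp

set_option autoImplicit false
set_option linter.unusedSectionVars false
set_option linter.style.haveILetI false

/-!
# MOD / task ETAEXP : the `q`-expansion of the eta quotients

Let `e z = ∏' n, (1 - eta_q n z)` and `qq z = 𝕢 1 z` as functions on `ℍ`.
(1) `e` is `IsBd 1`, `qExpansion 1 e = etaProd.map (Int.castRingHom ℂ)`: the cusp function of `e` is `q ↦ ∏' (1 - q^(n+1))` near `0`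
    (copy the proof of `S28.qExpansion_discriminant`; `S28.tay_tprod_one_sub_pow`, `S28.qExpansion_eq_tay`, `S28.tay_congr`, Mathlib's `discriminant_cuspFunction_eqOn`).
    So `TInf 1 e = eP ℂ` (`S24.TInf_of_isBd`).
(2) `Δ = qq * e^24` (`ModularForm.discriminant_eq_q_prod`), so `(1/e) * Δ = qq * e^23` and `(1/qq) * Δ = e^24` are bounded: `1/e, 1/qq ∈ perSub 1`;
    `TInf 1 qq = single 1 1`; since `TInf 1` is a ring hom, `TInf 1 (1/e) = ePinv ℂ`, `TInf 1 (1/qq) = single (-1) 1`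
    (`eP * ePinv = 1` from `PowerSeries.mul_invOfUnit`, `constantCoeff_etaProd`).
(3) `NV.pre_mem_perSub`, `NV.TInf_pre` (`M = 1, a = r, b = 0, δ = 1`): `TInf 1 (pre r 0 1 f) = qExpand ℂ r (TInf 1 f)`.
(4) pointwise `hFun r m = (1/qq) * (e * pre r 0 1 (1/e))^m` when `m (r - 1) = 24`: `(𝕢 24 z / 𝕢 24 (r z))^m = exp(2πi z (1 - r) m / 24) = (𝕢 1 z)⁻¹`.
    Similarly for the inverse.
-/

noncomputable section

namespace Fermat.Agent.Mod

open UpperHalfPlane ModularForm ModularCurve Fermat.Agent.S24 Fermat.Agent.S18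

namespace EtaExp

open scoped Manifold Topology

/-- `z ↦ G (q(z))`. -/
def cmp (G : ℂ → ℂ) (z : ℍ) : ℂ := G (Function.Periodic.qParam 1 (z : ℂ))

theorem norm_q_lt (z : ℍ) : Function.Periodic.qParam 1 (z : ℂ) ∈ Metric.ball (0 : ℂ) 1 := by
  simpa using norm_qParam_lt_one 1 z

theorem tendsto_cmp {G : ℂ → ℂ} (hG : DifferentiableOn ℂ G (Metric.ball 0 1)) :
    Filter.Tendsto (cmp G) atImInfty (𝓝 (G 0)) := by
  have hc : ContinuousAt G 0 :=
    (hG.differentiableAt (Metric.ball_mem_nhds _ one_pos)).continuousAt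
  exact hc.tendsto.comp (UpperHalfPlane.qParam_tendsto_atImInfty one_pos)

theorem isBd_cmp {G : ℂ → ℂ} (hG : DifferentiableOn ℂ G (Metric.ball 0 1)) : IsBd 1 (cmp G) := by
  refine ⟨?_, ?_, ?_⟩
  · intro w
    by_cases hw : 0 < w.im
    · have hw' : 0 < (w + (((1 : ℕ) : ℝ) : ℂ)).im := by simpa using hw
      simp only [Function.comp_apply, cmp, ofComplex_apply_of_im_pos hw,
        ofComplex_apply_of_im_pos hw', coe_mk]
      congr 1
      simp only [Function.Periodic.qParam]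
      have : 2 * (Real.pi : ℂ) * Complex.I * (w + (((1 : ℕ) : ℝ) : ℂ)) / ((1 : ℝ) : ℂ) =
          2 * Real.pi * Complex.I * w / ((1 : ℝ) : ℂ) + 2 * Real.pi * Complex.I := by
        push_cast; ring
      rw [this, Complex.exp_add, Complex.exp_two_pi_mul_I, mul_one]
    · have hw1 : w.im ≤ 0 := not_lt.mp hw
      have hw' : (w + (((1 : ℕ) : ℝ) : ℂ)).im ≤ 0 := by simpa using hw1
      simp only [Function.comp_apply]
      rw [ofComplex_apply_of_im_nonpos hw1, ofComplex_apply_of_im_nonpos hw']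
  · rw [UpperHalfPlane.mdifferentiable_iff]
    have h1 : DifferentiableOn ℂ (fun w : ℂ => G (Function.Periodic.qParam 1 w)) {w | 0 < w.im} := by
      intro w hw
      have hw' : 0 < w.im := hw
      have hq : Function.Periodic.qParam 1 w ∈ Metric.ball (0 : ℂ) 1 := norm_q_lt ⟨w, hw'⟩
      have d1 : DifferentiableAt ℂ G (Function.Periodic.qParam 1 w) :=
        hG.differentiableAt (Metric.isOpen_ball.mem_nhds hq)
      have d2 : DifferentiableAt ℂ (Function.Periodic.qParam 1) w :=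
        (Function.Periodic.differentiable_qParam).differentiableAt
      exact (d1.comp w d2).differentiableWithinAt
    refine h1.congr ?_
    intro w hw
    have hw' : 0 < w.im := hw
    simp only [Function.comp_apply, cmp, ofComplex_apply_of_im_pos hw', coe_mk]
  · exact (tendsto_cmp hG).isBigO_one ℝ

theorem cusp_cmp {G : ℂ → ℂ} (hG : DifferentiableOn ℂ G (Metric.ball 0 1)) :
    Set.EqOn (cuspFunction 1 (cmp G)) G (Metric.ball 0 1) := by
  intro q hq
  have hb := isBd_cmp hG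
  by_cases hq0 : q = 0
  · subst hq0
    have hper : Function.Periodic (cmp G ∘ ofComplex) ((1 : ℝ) : ℂ) := by
      simpa using hb.1
    have han : AnalyticAt ℂ (cuspFunction 1 (cmp G)) 0 := by
      simpa using hb.analyticAt
    rw [cuspFunction_apply_zero one_pos han hper]
    exact (tendsto_cmp hG).limUnder_eq
  · have him := Function.Periodic.im_invQParam_pos_of_norm_lt_one one_pos
      (by simpa [dist_zero_right] using hq) hq0
    simp [cuspFunction, Function.Periodic.cuspFunction_eq_of_nonzero 1 _ hq0,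
      ofComplex_apply_of_im_pos him, cmp,
      Function.Periodic.qParam_right_inv one_ne_zero hq0]

theorem qExpansion_cmp {G : ℂ → ℂ} (hG : DifferentiableOn ℂ G (Metric.ball 0 1)) :
    qExpansion 1 (cmp G) = S28.tay G := by
  rw [S28.qExpansion_eq_tay]
  apply S28.tay_congr
  filter_upwards [Metric.ball_mem_nhds (0 : ℂ) one_pos] with q hq
  exact cusp_cmp hG hq

/-- `∏ (1 - q^(n+1))` as a function of `q`. -/
def G0 (q : ℂ) : ℂ := ∏' n : ℕ, (1 - q ^ (n + 1))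

/-- `∏ (1 - q^(n+1))` as a function on `ℍ`. -/
def e : ℍ → ℂ := cmp G0

/-- `q` as a function on `ℍ`. -/
def qq : ℍ → ℂ := cmp id

theorem isBd_e : IsBd 1 e := isBd_cmp differentiableOn_tprod_one_sub_pow

theorem isBd_qq : IsBd 1 qq := isBd_cmp differentiableOn_id

theorem e_apply (z : ℍ) : e z = ∏' n, (1 - eta_q n (z : ℂ)) := rfl

theorem qq_apply (z : ℍ) : qq z = Function.Periodic.qParam 1 (z : ℂ) := rfl

theorem e_ne_zero (z : ℍ) : e z ≠ 0 := eta_tprod_ne_zero z.2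

theorem qq_ne_zero (z : ℍ) : qq z ≠ 0 := Function.Periodic.qParam_ne_zero _

theorem disc_eq : discriminant = qq * e ^ 24 := by
  funext z
  rw [discriminant_eq_q_prod]
  simp only [Pi.mul_apply, Pi.pow_apply]
  rw [(multipliableLocallyUniformlyOn_eta.multipliable z.2).tprod_pow]
  rfl

/-- `1 / e`. -/
def einv : ℍ → ℂ := fun z => (e z)⁻¹

/-- `1 / q`. -/
def qinv : ℍ → ℂ := fun z => (qq z)⁻¹

theorem einv_mem : einv ∈ perSub 1 := by
  refine ⟨1, ?_⟩
  have : einv * discriminant ^ 1 = qq * e ^ 23 := by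
    funext z
    have := e_ne_zero z
    simp only [disc_eq, einv, Pi.mul_apply, Pi.pow_apply, pow_one]
    field_simp
  rw [this]
  exact isBd_qq.mul (isBd_e.pow 23)

theorem qinv_mem : qinv ∈ perSub 1 := by
  refine ⟨1, ?_⟩
  have : qinv * discriminant ^ 1 = e ^ 24 := by
    funext z
    have := qq_ne_zero z
    simp only [disc_eq, qinv, Pi.mul_apply, Pi.pow_apply, pow_one]
    field_simp
  rw [this]
  exact isBd_e.pow 24

theorem e_mem : e ∈ perSub 1 := isBd_e.isPer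

theorem qq_mem : qq ∈ perSub 1 := isBd_qq.isPer

theorem TInf_e : TInf 1 ⟨e, e_mem⟩ = eP ℂ := by
  rw [TInf_of_isBd 1 _ isBd_e]
  simp only [Nat.cast_one]
  rw [e, qExpansion_cmp (G := G0) differentiableOn_tprod_one_sub_pow]
  have := S28.tay_tprod_one_sub_pow
  rw [eP, ← this]
  rfl

theorem TInf_qq : TInf 1 ⟨qq, qq_mem⟩ = HahnSeries.single (1 : ℤ) 1 := by
  rw [TInf_of_isBd 1 _ isBd_qq]
  simp only [Nat.cast_one]
  rw [qq, qExpansion_cmp differentiableOn_id, S28.tay_id, HahnSeries.ofPowerSeries_X]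

theorem TInf_einv : TInf 1 ⟨einv, einv_mem⟩ = ePinv ℂ := by
  have h1 : (⟨einv, einv_mem⟩ : perSub 1) * ⟨e, e_mem⟩ = 1 := by
    apply Subtype.ext
    funext z
    exact inv_mul_cancel₀ (e_ne_zero z)
  have h2 := congrArg (TInf 1) h1
  rw [map_mul, map_one, TInf_e] at h2
  calc TInf 1 ⟨einv, einv_mem⟩ = TInf 1 ⟨einv, einv_mem⟩ * (eP ℂ * ePinv ℂ) := by
        rw [Coef.eP_mul_ePinv, mul_one]
    _ = ePinv ℂ := by rw [← mul_assoc, h2, one_mul]

theorem TInf_qinv : TInf 1 ⟨qinv, qinv_mem⟩ = HahnSeries.single (-1 : ℤ) 1 := by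
  have h1 : (⟨qinv, qinv_mem⟩ : perSub 1) * ⟨qq, qq_mem⟩ = 1 := by
    apply Subtype.ext
    funext z
    exact inv_mul_cancel₀ (qq_ne_zero z)
  have h2 := congrArg (TInf 1) h1
  rw [map_mul, map_one, TInf_qq] at h2
  have h3 : HahnSeries.single (1 : ℤ) (1 : ℂ) * HahnSeries.single (-1 : ℤ) 1 = 1 := by
    rw [HahnSeries.single_mul_single]
    simp
  calc TInf 1 ⟨qinv, qinv_mem⟩ = TInf 1 ⟨qinv, qinv_mem⟩ *
        (HahnSeries.single (1 : ℤ) (1 : ℂ) * HahnSeries.single (-1 : ℤ) 1) := by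
        rw [h3, mul_one]
    _ = HahnSeries.single (-1 : ℤ) 1 := by rw [← mul_assoc, h2, one_mul]

theorem qExpand_congr {k r : ℕ} [NeZero k] [NeZero r] (h : k = r) (x : LaurentSeries ℂ) :
    qExpand ℂ k x = qExpand ℂ r x := by
  subst h
  rfl

theorem pre_mem {f : ℍ → ℂ} (hf : f ∈ perSub 1) (r : ℕ) [NeZero r] : pre r 0 1 f ∈ perSub 1 :=
  NV.pre_mem_perSub hf (Nat.pos_of_ne_zero (NeZero.ne r)) one_pos (dvd_refl 1)

theorem TInf_pre {f : ℍ → ℂ} (hf : f ∈ perSub 1) (r : ℕ) [NeZero r] :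
    TInf 1 ⟨pre r 0 1 f, pre_mem hf r⟩ = qExpand ℂ r (TInf 1 ⟨f, hf⟩) := by
  haveI : NeZero (r * (1 / 1)) := ⟨by simpa using NeZero.ne r⟩
  have h := NV.TInf_pre (b := 0) hf (M := 1) (Nat.pos_of_ne_zero (NeZero.ne r)) one_pos
    (dvd_refl 1)
  rw [Nat.cast_zero, NV.rootU_zero, twist_one] at h
  rw [← qExpand_congr (k := r * (1 / 1)) (by simp)]
  exact h

theorem q24 (r m : ℕ) (hr : 0 < r) (hm : m * (r - 1) = 24) (w : ℂ) :
    (Function.Periodic.qParam 24 w / Function.Periodic.qParam 24 ((r : ℂ) * w)) ^ m =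
      (Function.Periodic.qParam 1 w)⁻¹ := by
  simp only [Function.Periodic.qParam]
  rw [← Complex.exp_sub, ← Complex.exp_nat_mul, ← Complex.exp_neg]
  congr 1
  have hm' : (m : ℂ) * ((r : ℂ) - 1) = 24 := by
    have h1 : ((m * (r - 1) : ℕ) : ℂ) = 24 := by rw [hm]; norm_num
    rw [Nat.cast_mul, Nat.cast_sub hr, Nat.cast_one] at h1
    exact h1
  push_cast
  linear_combination (-(2 * Real.pi * Complex.I * w / 24)) * hm'

theorem pre_apply (r : ℕ) (hr : 0 < r) (G : ℂ → ℂ) (z : ℍ) :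
    pre r 0 1 (cmp G) z = G (Function.Periodic.qParam 1 ((r : ℂ) * z)) := by
  rw [pre, cmp, expandB_coe_ofComplex r 0 1 hr one_pos]
  simp

theorem hFun_eq (r m : ℕ) (hr : 0 < r) (hm : m * (r - 1) = 24) :
    hFun r m = qinv * (e * pre r 0 1 einv) ^ m := by
  funext z
  have h1 : pre r 0 1 einv z = (G0 (Function.Periodic.qParam 1 ((r : ℂ) * z)))⁻¹ :=
    pre_apply r hr (fun q => (G0 q)⁻¹) z
  simp only [Pi.mul_apply, Pi.pow_apply, h1, hFun, eta, qinv, qq_apply, e_apply]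
  rw [← q24 r m hr hm, ← mul_pow]
  congr 1
  rw [mul_div_mul_comm, div_eq_mul_inv (∏' n, (1 - eta_q n (z : ℂ)))]
  rfl

theorem hFun_inv_eq (r m : ℕ) (hr : 0 < r) (hm : m * (r - 1) = 24) :
    (fun z => (hFun r m z)⁻¹) = qq * (einv * pre r 0 1 e) ^ m := by
  funext z
  have h1 : pre r 0 1 einv z = (pre r 0 1 e z)⁻¹ := rfl
  rw [hFun_eq r m hr hm]
  simp only [Pi.mul_apply, Pi.pow_apply, h1, qinv, einv, mul_inv, inv_inv]
  rw [← inv_pow, mul_inv, inv_inv]

theorem hFun_mem (r m : ℕ) [NeZero r] (hm : m * (r - 1) = 24) : hFun r m ∈ perSub 1 := by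
  rw [hFun_eq r m (Nat.pos_of_ne_zero (NeZero.ne r)) hm]
  exact mul_mem qinv_mem (pow_mem (mul_mem e_mem (pre_mem einv_mem r)) m)

theorem hFun_inv_mem (r m : ℕ) [NeZero r] (hm : m * (r - 1) = 24) :
    (fun z => (hFun r m z)⁻¹) ∈ perSub 1 := by
  rw [hFun_inv_eq r m (Nat.pos_of_ne_zero (NeZero.ne r)) hm]
  exact mul_mem qq_mem (pow_mem (mul_mem einv_mem (pre_mem e_mem r)) m)

theorem TInf_hFun (r m : ℕ) [NeZero r] (hm : m * (r - 1) = 24) :
    TInf 1 ⟨hFun r m, hFun_mem r m hm⟩ = xForm ℂ r m := by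
  have h1 : (⟨hFun r m, hFun_mem r m hm⟩ : perSub 1) =
      ⟨qinv, qinv_mem⟩ * (⟨e, e_mem⟩ * ⟨pre r 0 1 einv, pre_mem einv_mem r⟩) ^ m :=
    Subtype.ext (hFun_eq r m (Nat.pos_of_ne_zero (NeZero.ne r)) hm)
  rw [h1, map_mul, map_pow, map_mul, TInf_qinv, TInf_e, TInf_pre einv_mem, TInf_einv, xForm]

theorem TInf_hFun_inv (r m : ℕ) [NeZero r] (hm : m * (r - 1) = 24) :
    TInf 1 ⟨fun z => (hFun r m z)⁻¹, hFun_inv_mem r m hm⟩ = xFormInv ℂ r m := by
  have h1 : (⟨fun z => (hFun r m z)⁻¹, hFun_inv_mem r m hm⟩ : perSub 1) =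
      ⟨qq, qq_mem⟩ * (⟨einv, einv_mem⟩ * ⟨pre r 0 1 e, pre_mem e_mem r⟩) ^ m :=
    Subtype.ext (hFun_inv_eq r m (Nat.pos_of_ne_zero (NeZero.ne r)) hm)
  rw [h1, map_mul, map_pow, map_mul, TInf_qq, TInf_einv, TInf_pre e_mem, TInf_e, xFormInv]

end EtaExp

theorem hL_mem (Λ : Line) : hL Λ ∈ perSub 1 := by
  unfold hL
  split_ifs
  · exact EtaExp.hFun_mem 2 24 (by norm_num)
  · exact EtaExp.hFun_mem 3 12 (by norm_num)

theorem hLinv_mem (Λ : Line) : hLinv Λ ∈ perSub 1 := by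
  unfold hLinv hL
  split_ifs
  · exact EtaExp.hFun_inv_mem 2 24 (by norm_num)
  · exact EtaExp.hFun_inv_mem 3 12 (by norm_num)

theorem TInf_hL (Λ : Line) : TInf 1 ⟨hL Λ, hL_mem Λ⟩ = xL ℂ Λ := by
  by_cases h : Λ.r = 2
  · have h1 : (⟨hL Λ, hL_mem Λ⟩ : perSub 1) = ⟨hFun 2 24, EtaExp.hFun_mem 2 24 (by norm_num)⟩ :=
      Subtype.ext (by simp [hL, h])
    rw [h1, EtaExp.TInf_hFun 2 24 (by norm_num), xL, if_pos h]
  · have h1 : (⟨hL Λ, hL_mem Λ⟩ : perSub 1) = ⟨hFun 3 12, EtaExp.hFun_mem 3 12 (by norm_num)⟩ :=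
      Subtype.ext (by simp [hL, h])
    rw [h1, EtaExp.TInf_hFun 3 12 (by norm_num), xL, if_neg h]

theorem TInf_hLinv (Λ : Line) : TInf 1 ⟨hLinv Λ, hLinv_mem Λ⟩ = xLinv ℂ Λ := by
  by_cases h : Λ.r = 2
  · have h1 : (⟨hLinv Λ, hLinv_mem Λ⟩ : perSub 1) =
        ⟨fun z => (hFun 2 24 z)⁻¹, EtaExp.hFun_inv_mem 2 24 (by norm_num)⟩ :=
      Subtype.ext (by funext z; simp [hLinv, hL, h])
    rw [h1, EtaExp.TInf_hFun_inv 2 24 (by norm_num), xLinv, if_pos h]
  · have h1 : (⟨hLinv Λ, hLinv_mem Λ⟩ : perSub 1) =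
        ⟨fun z => (hFun 3 12 z)⁻¹, EtaExp.hFun_inv_mem 3 12 (by norm_num)⟩ :=
      Subtype.ext (by funext z; simp [hLinv, hL, h])
    rw [h1, EtaExp.TInf_hFun_inv 3 12 (by norm_num), xLinv, if_neg h]

end Fermat.Agent.Mod
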