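import Fermat.Agent.S24.ADefs

set_option autoImplicit false

/-!
# MOD / task NORM23 : the norm from `Γ₀(r)` to `SL(2,ℤ)` for `r = 2, 3` (group theory only)

`act g f z = f (g⁻¹ • z)` is a left action by ring homs (`S24.act_mul`, `S24.act_one`).  Put `f_b = act (T^b) (act S f)`, `b : ℤ` (or `ℕ`).
Hypotheses: `act T f = f`, `act (T^r) (act S f) = act S f` (so `f_b` depends only on `b mod r`).
 * `act (-1) = id` (`(-1)⁻¹ • z = z`: `ModularGroup`/`UpperHalfPlane.SLnegAction`, `neg_smul`…), `S * S = -1`.
 * `act T f_b = f_(b+1)`, `act T f = f`: `T` permutes the factors cyclically (`Finset.prod_range_succ`, `Finset.prod_range_succ'`).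
 * `act S f = f_0`, `act S f_0 = act (S*S) f = f`.
 * `S * T * S = -(T⁻¹ * S * T⁻¹)` (check on matrices: `ext i j; fin_cases i <;> fin_cases j <;> simp [S, T, …]`), so
   `act S f_1 = act (S T S) f = act (T⁻¹ S) (act T⁻¹ f) = f_(-1)`; likewise `act S f_(-1) = f_1`.
   For `r = 2`: `f_1 = f_(-1)`; for `r = 3`: `f_2 = f_(-1)`, so `S` swaps `f_1, f_2`.
 * `SL(2,ℤ)` is generated by `S, T`: `ModularGroup`'s / `Matrix.SpecialLinearGroup.SL2Z_generators : Subgroup.closure {S, T} = ⊤`;
   the stabiliser `{g | act g Nm = Nm}` is a subgroup.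
-/

noncomputable section

namespace Fermat.Agent.Mod

open UpperHalfPlane Fermat.Agent.S24
open scoped MatrixGroups

/-- `f * ∏_{b < r} f(-1/(z - b))`. -/
def norm23 (r : ℕ) (f : ℍ → ℂ) : ℍ → ℂ :=
  f * ∏ b ∈ Finset.range r, act (ModularGroup.T ^ b) (act ModularGroup.S f)

theorem norm23_act_neg (g : SL(2, ℤ)) (h : ℍ → ℂ) : act (-g) h = act g h := by
  funext z
  rw [act_apply, act_apply]
  have : (-g)⁻¹ = -g⁻¹ := by
    rw [inv_eq_iff_mul_eq_one]
    simp
  rw [this, ModularGroup.SL_neg_smul]

theorem norm23_SS : ModularGroup.S * ModularGroup.S = -1 := by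
  apply Subtype.ext
  simp only [Matrix.SpecialLinearGroup.coe_mul, Matrix.SpecialLinearGroup.coe_neg,
    ModularGroup.coe_S, Matrix.SpecialLinearGroup.coe_one, Matrix.mul_fin_two, Matrix.one_fin_two]
  ext i j; fin_cases i <;> fin_cases j <;> simp

theorem norm23_STS : ModularGroup.S * ModularGroup.T * ModularGroup.S =
    ModularGroup.T⁻¹ * ModularGroup.S * ModularGroup.T⁻¹ := by
  apply Subtype.ext
  simp only [Matrix.SpecialLinearGroup.coe_mul,
    ModularGroup.coe_S, ModularGroup.coe_T, ModularGroup.coe_T_inv, Matrix.mul_fin_two]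
  ext i j; fin_cases i <;> fin_cases j <;> simp

theorem norm23_STiS : ModularGroup.S * ModularGroup.T⁻¹ * ModularGroup.S =
    -(ModularGroup.T * ModularGroup.S * ModularGroup.T) := by
  apply Subtype.ext
  simp only [Matrix.SpecialLinearGroup.coe_mul, Matrix.SpecialLinearGroup.coe_neg,
    ModularGroup.coe_S, ModularGroup.coe_T, ModularGroup.coe_T_inv, Matrix.mul_fin_two]
  ext i j; fin_cases i <;> fin_cases j <;> simp

theorem norm23_inv (r : ℕ) (hr : r = 2 ∨ r = 3) (f : ℍ → ℂ) (hT : act ModularGroup.T f = f)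
    (hS : act (ModularGroup.T ^ r) (act ModularGroup.S f) = act ModularGroup.S f) (g : SL(2, ℤ)) :
    act g (norm23 r f) = norm23 r f := by
  -- the conjugates
  set F : ℕ → (ℍ → ℂ) := fun b => act (ModularGroup.T ^ b) (act ModularGroup.S f) with hF
  have hTi : act ModularGroup.T⁻¹ f = f := by
    conv_lhs => rw [← hT]
    rw [← act_mul, inv_mul_cancel, act_one]
  have hF0 : F 0 = act ModularGroup.S f := by
    simp only [hF, pow_zero, act_one]
  have hFr : F r = F 0 := by rw [hF0]; exact hS
  have hTF : ∀ b, act ModularGroup.T (F b) = F (b + 1) := by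
    intro b
    simp only [hF]
    rw [← act_mul, ← pow_succ']
  have hSf : act ModularGroup.S f = F 0 := hF0.symm
  have hSF0 : act ModularGroup.S (F 0) = f := by
    rw [hF0, ← act_mul, norm23_SS, norm23_act_neg, act_one]
  -- `f_{-1}`
  have hm1 : act ModularGroup.T⁻¹ (act ModularGroup.S f) = F (r - 1) := by
    have h1 : act ModularGroup.T (F (r - 1)) = act ModularGroup.S f := by
      rw [hTF, show r - 1 + 1 = r by rcases hr with h | h <;> omega, hFr, hF0]
    rw [← h1, ← act_mul, inv_mul_cancel, act_one]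
  have hSF1 : act ModularGroup.S (F 1) = F (r - 1) := by
    simp only [hF, pow_one]
    rw [← act_mul, ← act_mul, norm23_STS, act_mul, act_mul, hTi]
    exact hm1
  have hSFm : act ModularGroup.S (F (r - 1)) = F 1 := by
    rw [← hm1, ← act_mul, ← act_mul, norm23_STiS, norm23_act_neg, act_mul, act_mul, hT]
    simp only [hF, pow_one]
  have hNT : act ModularGroup.T (norm23 r f) = norm23 r f := by
    rw [norm23, map_mul, hT, map_prod]
    congr 1
    change ∏ b ∈ Finset.range r, act ModularGroup.T (F b) = ∏ b ∈ Finset.range r, F b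
    simp only [hTF]
    rcases hr with rfl | rfl
    · simp only [Finset.prod_range_succ, Finset.prod_range_zero, one_mul, zero_add]
      rw [show 1 + 1 = 2 from rfl, hFr]
      ring
    · simp only [Finset.prod_range_succ, Finset.prod_range_zero, one_mul, zero_add]
      rw [show 1 + 1 = 2 from rfl, show 2 + 1 = 3 from rfl, hFr]
      ring
  have hNS : act ModularGroup.S (norm23 r f) = norm23 r f := by
    rw [norm23, map_mul, map_prod]
    change act ModularGroup.S f * ∏ b ∈ Finset.range r, act ModularGroup.S (F b)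
      = f * ∏ b ∈ Finset.range r, F b
    rcases hr with rfl | rfl
    · simp only [Finset.prod_range_succ, Finset.prod_range_zero, one_mul]
      rw [hSf, hSF0, hSF1]
      ring
    · simp only [Finset.prod_range_succ, Finset.prod_range_zero, one_mul]
      rw [hSf, hSF0, hSF1]
      have := hSFm
      simp only [show 3 - 1 = 2 from rfl] at this ⊢
      rw [this]
      ring
  have hmem : g ∈ Subgroup.closure ({ModularGroup.S, ModularGroup.T} : Set SL(2, ℤ)) := by
    rw [SpecialLinearGroup.SL2Z_generators]; trivial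
  induction hmem using Subgroup.closure_induction with
  | mem x hx =>
    rcases hx with rfl | hx
    · exact hNS
    · rw [Set.mem_singleton_iff] at hx
      rw [hx]; exact hNT
  | one => exact act_one _
  | mul x y _ _ hx hy => rw [act_mul, hy, hx]
  | inv x _ hx =>
    conv_lhs => rw [← hx]
    rw [← act_mul, inv_mul_cancel, act_one]

end Fermat.Agent.Mod
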