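import Fermat.Agent.S34.Mod.Defs
import Fermat.Agent.NV.HeckeProd
import Fermat.Agent.NV.LevelOne
import Fermat.Agent.NV.Level

set_option autoImplicit false
set_option linter.unusedSectionVars false
set_option linter.unusedVariables false

/-!
# MOD / task PHIAN : the modular polynomial `Φ_q(X, j) = (X - j(qz)) ∏_b (X - j((z+b)/q))` has coefficients in `ℂ[j]`

Notation: `f_∞ = pre q 0 1 jFun`, `f_b = pre 1 b q jFun` (`b : Fin q`), all in `perSub q` (`S24.pre_jFun_mem_perSub`).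
For `z : ℍ` let `P_z = (X - C (f_∞ z)) * ∏ b, (X - C (f_b z)) : ℂ[X]`, `a_k z = P_z.coeff k`.

(1) INVARIANCE `a_k (g • z) = a_k z`, `g : SL(2,ℤ)`.  For `c : ℂ` the function `y_c = fun z => c - jFun z` satisfies `IsEqv 1 1 y_c`
    (`S24.jFun_smul`), so `NV.heckeProd_isEqv 1 hq` gives `IsEqv 1 (heckeChr 1 hq 1) (heckeProd 1 q y_c)`, `heckeChr 1 hq 1 = 1` (`heckeChr_apply`, `simp`),
    and `NV.heckeProd_eq_pre 1 hq (by simp..)` identifies `heckeProd 1 q y_c z = P_z.eval c`.  `Gamma0 1 = ⊤`.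
    So `P_{g z}.eval c = P_z.eval c` for all `c`: `Polynomial.funext`.
(2) `a_k ∈ perSub q`: `P = (X - C f_∞) * ∏ (X - C f_b)` is a polynomial over the subring `perSub q` of `ℍ → ℂ`; `P_z` is its image under evaluation at `z`
    (`Polynomial.map (Pi.evalRingHom _ z)` after `Polynomial.map (perSub q).subtype`).
(3) `NV.exists_poly_of_inv q a_k _ _` : `a_k z = (c k).eval (jFun z)`   (`act g b z = b (g⁻¹ • z)`).
(4) apply `Polynomial.map (TInf q)` to the polynomial over `perSub q`: `S24.TInf_pre_jFun` gives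
    `TInf q f_∞ = qExpand ℂ (q * (q / 1)) (twist (rootU 1 0) ĵ) = qExpand ℂ (q * q) ĵ`, `TInf q f_b = qExpand ℂ (1 * (q / q)) (twist (rootU q b) ĵ) = twist (rootU q b) ĵ`,
    `TInf q jFun = qExpand ℂ q ĵ` (`jFun = pre 1 0 1 jFun`, `S24.jd_one`, `S24.TInf_jd`), `TInf q (const c) = C c` (`S24.TInf_const`), so
    `TInf q ⟨fun z => (c k).eval (jFun z), _⟩ = aeval (qExpand ℂ q ĵ) (c k)` (`Polynomial.induction_on`; `algebraMap ℂ (LaurentSeries ℂ) c = HahnSeries.C c`).
-/

noncomputable section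

namespace Fermat.Agent.Mod

open UpperHalfPlane ModularCurve Polynomial Fermat.Agent.S24
open scoped MatrixGroups

section

variable (q : ℕ) [NeZero q]

/-- `j(q z)`. -/
def phiInf : perSub q :=
  ⟨pre q 0 1 jFun, pre_jFun_mem_perSub (Nat.pos_of_ne_zero (NeZero.ne q)) one_pos (one_dvd q)⟩

/-- `j((z + b)/q)`. -/
def phiB (b : Fin q) : perSub q :=
  ⟨pre 1 (b : ℕ) q jFun,
    pre_jFun_mem_perSub one_pos (Nat.pos_of_ne_zero (NeZero.ne q)) (dvd_refl q)⟩

/-- the modular polynomial over `perSub q`. -/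
def phiP : (perSub q)[X] := (X - C (phiInf q)) * ∏ b : Fin q, (X - C (phiB q b))

/-- evaluation at a point. -/
def phiEv (z : ℍ) : perSub q →+* ℂ := (Pi.evalRingHom (fun _ : ℍ => ℂ) z).comp (perSub q).subtype

theorem phiEv_apply (z : ℍ) (f : perSub q) : phiEv q z f = f.1 z := rfl

theorem phiP_monic : (phiP q).Monic :=
  (monic_X_sub_C _).mul (monic_prod_of_monic _ _ fun b _ => monic_X_sub_C _)

theorem phiP_natDegree : (phiP q).natDegree = q + 1 := by
  have h1 : (∏ b : Fin q, (X - C (phiB q b))).Monic :=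
    monic_prod_of_monic _ _ fun b _ => monic_X_sub_C _
  have : Nontrivial (perSub q) := ⟨⟨0, 1, fun h => by
    have := congrFun (congrArg Subtype.val h) UpperHalfPlane.I
    simp at this⟩⟩
  rw [phiP, (monic_X_sub_C _).natDegree_mul h1, natDegree_X_sub_C,
    natDegree_prod_of_monic _ _ fun b _ => monic_X_sub_C _]
  simp [add_comm]

theorem phiP_eval (hq : q.Prime) (z : ℍ) (c : ℂ) :
    ((phiP q).map (phiEv q z)).eval c = NV.heckeProd 1 q (fun w => c - jFun w) z := by
  have hq1 : ¬ q ∣ 1 := fun h => hq.one_lt.ne' (Nat.dvd_one.mp h)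
  rw [NV.heckeProd_eq_pre 1 hq hq1, phiP, Polynomial.map_mul, Polynomial.map_prod, eval_mul,
    eval_prod, Pi.mul_apply, Finset.prod_apply]
  simp only [Polynomial.map_sub, Polynomial.map_X, Polynomial.map_C, eval_sub, eval_X, eval_C]
  rfl

theorem phiP_inv (hq : q.Prime) (g : SL(2, ℤ)) (z : ℍ) :
    (phiP q).map (phiEv q (g • z)) = (phiP q).map (phiEv q z) := by
  apply Polynomial.funext
  intro c
  rw [phiP_eval q hq, phiP_eval q hq]
  have he : NV.IsEqv 1 1 (fun w => c - jFun w) := by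
    intro γ w
    show c - jFun ((γ : SL(2, ℤ)) • w) = (((1 : NV.Chr 1) γ : ℂˣ) : ℂ) * (c - jFun w)
    rw [jFun_smul]
    simp
  have h1 := NV.heckeProd_isEqv 1 hq he
    ⟨g, by rw [CongruenceSubgroup.Gamma0_mem]; exact Subsingleton.elim _ _⟩ z
  rw [NV.heckeChr_apply] at h1
  simpa using h1

theorem phiP_coeff_inv (hq : q.Prime) (k : ℕ) (g : SL(2, ℤ)) :
    act g ((phiP q).coeff k).1 = ((phiP q).coeff k).1 := by
  funext z
  rw [act_apply]
  have h := congrArg (fun p : ℂ[X] => p.coeff k) (phiP_inv q hq g⁻¹ z)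
  simpa only [coeff_map, phiEv_apply] using h

/-- constants. -/
def phiConst : ℂ →+* perSub q where
  toFun c := ⟨fun _ => c, (isBd_const q c).isPer⟩
  map_one' := rfl
  map_mul' _ _ := rfl
  map_zero' := rfl
  map_add' _ _ := rfl

theorem phi_jFun_mem : jFun ∈ perSub q := by
  rw [← jd_one]
  exact Btil_le_perSub q (jd_mem_Btil (one_dvd q))

theorem phi_TInf_jFun : TInf q ⟨jFun, phi_jFun_mem q⟩ = qExpand ℂ q (jqModC ℂ) := by
  have : NeZero (1 * q) := ⟨by rw [one_mul]; exact NeZero.ne q⟩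
  have h := TInf_jd q (one_dvd q)
  rw [ModularCurve.qExpand_congr (one_mul q)] at h
  rw [← h]
  congr 1
  exact Subtype.ext jd_one.symm

theorem phi_TInf_poly (c : ℂ[X]) (f : perSub q) (hf : ∀ z, f.1 z = c.eval (jFun z)) :
    TInf q f = Polynomial.aeval (qExpand ℂ q (jqModC ℂ)) c := by
  have h1 : f = c.eval₂ (phiConst q) ⟨jFun, phi_jFun_mem q⟩ := by
    apply Subtype.ext
    funext z
    rw [hf z]
    have h2 := Polynomial.hom_eval₂ c (phiConst q) (phiEv q z) ⟨jFun, phi_jFun_mem q⟩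
    rw [phiEv_apply] at h2
    rw [h2]
    have h3 : (phiEv q z).comp (phiConst q) = RingHom.id ℂ := by
      ext c
      rfl
    rw [h3, phiEv_apply, Polynomial.eval₂_id]
  rw [h1, Polynomial.hom_eval₂, phi_TInf_jFun, Polynomial.aeval_def]
  congr 1
  ext c : 1
  rw [RingHom.comp_apply, ModularCurve.algebraMap_laurentSeries_eq_single]
  exact TInf_const q c _

end

theorem exists_phi_series (q : ℕ) [NeZero q] [NeZero (q * q)] (hq : q.Prime) :
    ∃ c : ℕ → ℂ[X],
      (X - C (qExpand ℂ (q * q) (jqModC ℂ))) *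
          ∏ b : Fin q, (X - C (twist (rootU q ((b : ℕ) : ℤ)) (jqModC ℂ))) =
        X ^ (q + 1) + ∑ k ∈ Finset.range (q + 1),
          C (Polynomial.aeval (qExpand ℂ q (jqModC ℂ)) (c k)) * X ^ k := by
  have hex : ∀ k, ∃ c : ℂ[X], ∀ z, ((phiP q).coeff k).1 z = c.eval (jFun z) := fun k =>
    NV.exists_poly_of_inv q _ ((phiP q).coeff k).2 (phiP_coeff_inv q hq k)
  choose c hc using hex
  refine ⟨c, ?_⟩
  have h1 := (phiP_monic q).as_sum
  rw [phiP_natDegree] at h1
  have h2 := congrArg (Polynomial.map (TInf q)) h1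
  rw [Polynomial.map_add, Polynomial.map_pow, Polynomial.map_X, Polynomial.map_sum] at h2
  have h3 : (phiP q).map (TInf q) = (X - C (qExpand ℂ (q * q) (jqModC ℂ))) *
      ∏ b : Fin q, (X - C (twist (rootU q ((b : ℕ) : ℤ)) (jqModC ℂ))) := by
    rw [phiP, Polynomial.map_mul, Polynomial.map_prod]
    simp only [Polynomial.map_sub, Polynomial.map_X, Polynomial.map_C]
    have e1 : TInf q (phiInf q) = qExpand ℂ (q * q) (jqModC ℂ) := by
      have : NeZero (q * (q / 1)) := ⟨by rw [Nat.div_one]; exact NeZero.ne _⟩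
      have h := TInf_pre_jFun (N := q) (a := q) (b := 0) (δ := 1) hq.pos one_pos (one_dvd q)
      rw [Nat.cast_zero, expandC_rootU_zero, twist_one,
        ModularCurve.qExpand_congr (show q * (q / 1) = q * q by rw [Nat.div_one])] at h
      exact h
    have e2 : ∀ b : Fin q, TInf q (phiB q b) = twist (rootU q ((b : ℕ) : ℤ)) (jqModC ℂ) := by
      intro b
      have : NeZero (1 * (q / q)) := ⟨by rw [Nat.div_self hq.pos]; norm_num⟩
      have h := TInf_pre_jFun (N := q) (a := 1) (b := (b : ℕ)) (δ := q) one_pos hq.pos (dvd_refl q)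
      rw [ModularCurve.qExpand_congr (show 1 * (q / q) = 1 by rw [Nat.div_self hq.pos]),
        qExpand_one_apply] at h
      exact h
    rw [e1]
    simp only [e2]
  rw [← h3, h2]
  congr 1
  refine Finset.sum_congr rfl fun k _ => ?_
  rw [Polynomial.map_mul, Polynomial.map_pow, Polynomial.map_X, Polynomial.map_C,
    phi_TInf_poly q (c k) _ (hc k)]

end Fermat.Agent.Mod
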