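import Fermat.Agent.S34.Mod.PhiAn

set_option autoImplicit false

/-!
# MOD / task PHIDEG : degrees of the coefficients of `Φ_q` (formal, in `ℂ((t))`, `t = q^(1/q)`)

From `exists_phi_series`: `F := (X - C ρ_∞) * G`, `G := ∏_b (X - C ρ_b)`, `ρ_∞ = ĵ(t^(q²))` of order `-q²` with leading coefficient `1`, `ρ_b = ĵ(ζ^b t)`
of order `-1`;  `F.coeff k = aeval J (c k)` for `k ≤ q`, `J = ĵ(t^q)`.
(1) by induction on the number of factors: `-(n - k) ≤ orderTop (coeff k (∏_{n factors} (X - C ρ_b)))` for `k ≤ n`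
    (`coeff_k ((X - C ρ) * H) = coeff_(k-1) H - ρ * coeff_k H`; `HahnSeries.min_orderTop_le_orderTop_add`/`orderTop_mul`…; or argue with `coeff n = 0 for n < …`).
(2) `F.coeff k = G.coeff (k-1) - ρ_∞ * G.coeff k`, so all coefficients of `F.coeff k` in degrees `< -q² - (q - k)` vanish.
(3) `S28.coeff_aeval_ev_jq (u := 1) (a := q) P (D := P.natDegree)`: the coefficient of `aeval J P` in degree `-q * natDegree P` is the leading coefficient `≠ 0`
    (`qExpand ℂ q = S28.ev 1 q`: `S28.qExpand_eq_evz`, `S28.evz_eq_ev`).  Hence `q * natDegree (c k) ≤ q² + q - k`: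
    `natDegree (c k) ≤ q` for `1 ≤ k ≤ q`, `≤ q + 1` for `k = 0`.
(4) `(c q).coeff q = coefficient of t^(-q²) in F.coeff q = G.coeff (q-1) - ρ_∞ = -1` (`G` monic of degree `q`; `G.coeff (q-1)` has no term below `t⁻¹`, `q ≥ 2`).
(5) evaluate the identity at `X = ρ_∞ = qExpand ℂ q (jS ℂ q)`: `qExpand ℂ q (X₀^(q+1) + ∑ aeval ĵ (c k) X₀^k) = 0` with `X₀ = jS ℂ q`; `qExpand_injective`.
-/

noncomputable section

namespace Fermat.Agent.Mod

open ModularCurve Polynomial

namespace PhiDeg

variable {A : Type*} [Field A]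

/-- all coefficients in degrees `< m` vanish. -/
def Bd (m : ℤ) (f : LaurentSeries A) : Prop := ∀ n < m, f.coeff n = 0

theorem bd_iff (m : ℤ) (f : LaurentSeries A) : Bd m f ↔ (m : WithTop ℤ) ≤ f.orderTop := by
  rw [HahnSeries.le_orderTop_iff_forall]
  exact ⟨fun h j hj => h j (WithTop.coe_lt_coe.1 hj), fun h j hj => h j (WithTop.coe_lt_coe.2 hj)⟩

theorem Bd.sub {m : ℤ} {f g : LaurentSeries A} (hf : Bd m f) (hg : Bd m g) : Bd m (f - g) := by
  intro n hn
  rw [HahnSeries.coeff_sub, hf n hn, hg n hn, sub_zero]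

theorem Bd.neg {m : ℤ} {f : LaurentSeries A} (hf : Bd m f) : Bd m (-f) := by
  intro n hn
  rw [HahnSeries.coeff_neg, hf n hn, neg_zero]

theorem Bd.mono {m m' : ℤ} {f : LaurentSeries A} (hf : Bd m f) (h : m' ≤ m) : Bd m' f :=
  fun n hn => hf n (lt_of_lt_of_le hn h)

theorem Bd.mul {a b : ℤ} {f g : LaurentSeries A} (hf : Bd a f) (hg : Bd b g) :
    Bd (a + b) (f * g) := by
  rw [bd_iff] at hf hg ⊢
  rw [HahnSeries.orderTop_mul, WithTop.coe_add]
  exact add_le_add hf hg

theorem bd_one : Bd 0 (1 : LaurentSeries A) := by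
  intro n hn
  rw [HahnSeries.coeff_one, if_neg hn.ne]

theorem bd_zero (m : ℤ) : Bd m (0 : LaurentSeries A) := fun _ _ => rfl

theorem coeff_X_sub_C_mul_zero (ρ : LaurentSeries A) (H : (LaurentSeries A)[X]) :
    ((X - C ρ) * H).coeff 0 = - (ρ * H.coeff 0) := by
  rw [sub_mul, coeff_sub, coeff_X_mul_zero, coeff_C_mul, zero_sub]

theorem bd_prod {ι : Type*} (s : Finset ι) (ρ : ι → LaurentSeries A)
    (hρ : ∀ b ∈ s, Bd (-1) (ρ b)) (k : ℕ) :
    Bd ((k : ℤ) - s.card) ((∏ b ∈ s, (X - C (ρ b))).coeff k) := by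
  classical
  induction s using Finset.induction_on generalizing k with
  | empty =>
    rw [Finset.prod_empty, Finset.card_empty, coeff_one]
    split_ifs with h
    · subst h
      simpa using bd_one
    · exact bd_zero _
  | insert a s ha ih =>
    have ih' := ih fun b hb => hρ b (Finset.mem_insert_of_mem hb)
    have ha' := hρ a (Finset.mem_insert_self a s)
    rw [Finset.prod_insert ha, Finset.card_insert_of_notMem ha]
    cases k with
    | zero =>
      rw [coeff_X_sub_C_mul_zero]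
      refine ((ha'.mul (ih' 0)).neg).mono ?_
      push_cast
      omega
    | succ k =>
      rw [coeff_X_sub_C_mul]
      refine ((ih' k).mono ?_).sub ((ha'.mul (ih' (k + 1))).mono ?_)
      · push_cast; omega
      · push_cast; omega

theorem ev_one (q : ℕ) [NeZero q] (ψ : LaurentSeries A) : S28.ev 1 q ψ = qExpand A q ψ := by
  have : S28.twist (1 : Aˣ) ψ = ψ := by ext n; simp [S28.twist]
  simp only [S28.ev, RingHom.comp_apply, this]

theorem bd_qExpand_j (m : ℕ) [NeZero m] : Bd (-(m : ℤ)) (qExpand A m (jqModC A)) := by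
  intro n hn
  by_cases h : (m : ℤ) ∣ n
  · obtain ⟨k, rfl⟩ := h
    rw [qExpand_coeff_mul]
    apply coeff_jqModC_of_lt
    have hm : (0 : ℤ) < m := by exact_mod_cast Nat.pos_of_ne_zero (NeZero.ne m)
    by_contra hk
    rw [not_lt] at hk
    nlinarith
  · exact qExpand_coeff_of_not_dvd _ _ h

/-- a bound for the order of `P(j(t^q))` bounds the degree of `P`. -/
theorem natDegree_le_of_bd (q : ℕ) [NeZero q] (P : A[X]) (m : ℤ)
    (h : Bd (-m) (Polynomial.aeval (qExpand A q (jqModC A)) P)) : (q : ℤ) * P.natDegree ≤ m ∨ P = 0 := by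
  by_cases hP : P = 0
  · exact Or.inr hP
  left
  by_contra hlt
  rw [not_le] at hlt
  have h1 := S28.coeff_aeval_ev_jq (1 : Aˣ) q P le_rfl
  rw [ev_one, h _ (by linarith)] at h1
  simp only [one_zpow, Units.val_one, one_mul] at h1
  exact hP (Polynomial.leadingCoeff_eq_zero.1 h1.symm)

end PhiDeg

open PhiDeg in
theorem phiShape_C (q : ℕ) (hq : q.Prime) : PhiShape ℂ q (jS ℂ q) (jS ℂ 1) := by
  have : NeZero q := ⟨hq.ne_zero⟩
  have : NeZero (q * q) := ⟨Nat.mul_ne_zero hq.ne_zero hq.ne_zero⟩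
  have hq2 : (2 : ℤ) ≤ q := by exact_mod_cast hq.two_le
  obtain ⟨c, hc⟩ := exists_phi_series q hq
  set ρ := qExpand ℂ (q * q) (jqModC ℂ) with hρ
  set G := ∏ b : Fin q, (X - C (S24.twist (S24.rootU q ((b : ℕ) : ℤ)) (jqModC ℂ))) with hG
  set J := qExpand ℂ q (jqModC ℂ) with hJ
  have hcoeff : ∀ k ≤ q, ((X - C ρ) * G).coeff k = Polynomial.aeval J (c k) := by
    intro k hk
    rw [hc, coeff_add, coeff_X_pow, if_neg (by omega), zero_add, finsetSum_coeff]
    simp only [coeff_C_mul_X_pow]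
    rw [Finset.sum_ite_eq, if_pos (Finset.mem_range.2 (by omega))]
  have hGbd : ∀ k : ℕ, Bd ((k : ℤ) - q) (G.coeff k) := by
    intro k
    have := bd_prod (Finset.univ : Finset (Fin q))
      (fun b => S24.twist (S24.rootU q ((b : ℕ) : ℤ)) (jqModC ℂ)) (fun b _ n hn => by
        rw [S24.twist_coeff, coeff_jqModC_of_lt ℂ hn, mul_zero]) k
    rwa [Finset.card_univ, Fintype.card_fin] at this
  have hρbd : Bd (-((q : ℤ) * q)) ρ := by
    have := bd_qExpand_j (A := ℂ) (q * q)
    push_cast at this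
    exact this
  have hFbd : ∀ k ≤ q, Bd (-((q : ℤ) * q + q - k)) (Polynomial.aeval J (c k)) := by
    intro k hk
    rw [← hcoeff k hk]
    cases k with
    | zero =>
      rw [coeff_X_sub_C_mul_zero]
      refine ((hρbd.mul (hGbd 0)).neg).mono ?_
      push_cast; omega
    | succ k =>
      rw [coeff_X_sub_C_mul]
      refine ((hGbd k).mono ?_).sub ((hρbd.mul (hGbd (k + 1))).mono ?_)
      · push_cast; nlinarith
      · push_cast; omega
  have hdeg : ∀ k, 1 ≤ k → k ≤ q → (c k).natDegree ≤ q := by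
    intro k hk1 hk
    rcases natDegree_le_of_bd q (c k) _ (hFbd k hk) with h | h
    · by_contra hlt
      rw [not_le] at hlt
      have h1 : (q : ℤ) + 1 ≤ (c k).natDegree := by exact_mod_cast hlt
      have h2 : (1 : ℤ) ≤ k := by exact_mod_cast hk1
      nlinarith
    · rw [h]; simp
  have hdeg0 : (c 0).natDegree ≤ q + 1 := by
    rcases natDegree_le_of_bd q (c 0) _ (hFbd 0 (Nat.zero_le q)) with h | h
    · by_contra hlt
      rw [not_le] at hlt
      have h1 : (q : ℤ) + 2 ≤ (c 0).natDegree := by exact_mod_cast hlt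
      push_cast at h
      nlinarith
    · rw [h]; simp
  refine ⟨c, ?_, hdeg, ?_, hdeg0⟩
  · -- the relation
    have h1 := congrArg (Polynomial.eval ρ) hc
    rw [eval_mul, eval_sub, eval_X, eval_C, sub_self, zero_mul, eval_add, eval_pow, eval_X,
      eval_finsetSum] at h1
    simp only [eval_mul, eval_C, eval_pow, eval_X] at h1
    have hρJ : ρ = qExpand ℂ q J := by rw [hρ, hJ, qExpand_qExpand]
    have hae : ∀ P : ℂ[X], Polynomial.aeval J P = qExpand ℂ q (Polynomial.aeval (jqModC ℂ) P) := by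
      intro P
      have := Polynomial.aeval_algHom_apply (qExpandAlgHomC ℂ q) (jqModC ℂ) P
      rw [qExpandAlgHomC_apply, qExpandAlgHomC_apply] at this
      exact this
    rw [jS_one, jS_of_ne, ← hJ]
    apply qExpand_injective (R := ℂ) (N := q)
    rw [map_zero, map_add, map_pow, map_sum, ← hρJ, h1]
    congr 1
    refine Finset.sum_congr rfl fun k _ => ?_
    rw [map_mul, map_pow, ← hρJ, ← hae]
  · -- the coefficient `(c q).coeff q`
    have h1 := S28.coeff_aeval_ev_jq (1 : ℂˣ) q (c q) (hdeg q hq.one_le le_rfl)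
    rw [ev_one, ← hJ, ← hcoeff q le_rfl] at h1
    simp only [one_zpow, Units.val_one, one_mul] at h1
    rw [← h1]
    obtain ⟨q', hq'⟩ : ∃ q', q = q' + 1 := ⟨q - 1, by have := hq.one_le; omega⟩
    have hGm : G.coeff q = 1 := by
      have hmon : G.Monic := monic_prod_of_monic _ _ fun b _ => monic_X_sub_C _
      have hnd : G.natDegree = q := by
        rw [hG, natDegree_prod_of_monic _ _ fun b _ => monic_X_sub_C _]
        simp
      have := hmon.coeff_natDegree
      rwa [hnd] at this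
    have h2 : ((X - C ρ) * G).coeff q = G.coeff q' - ρ := by
      conv_lhs => rw [hq', coeff_X_sub_C_mul, ← hq', hGm, mul_one]
    rw [h2, HahnSeries.coeff_sub]
    have h3 : (G.coeff q').coeff ((q : ℤ) * -(q : ℤ)) = 0 := by
      apply hGbd q'
      have : (q : ℤ) = q' + 1 := by exact_mod_cast hq'
      nlinarith
    have h4 : ρ.coeff ((q : ℤ) * -(q : ℤ)) = 1 := by
      have := qExpand_coeff_mul (R := ℂ) (N := q * q) (jqModC ℂ) (-1)
      rw [coeff_jqModC_neg_one] at this
      rw [← this, hρ]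
      congr 1
      push_cast
      ring
    rw [h3, h4, zero_sub]

end Fermat.Agent.Mod
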