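import Fermat.Agent.S34.Mod.Defs
import Fermat.Agent.S24.ExpandC

set_option autoImplicit false

/-!
# MOD / task WMAT : the Atkin-Lehner map `W_Q` on the upper half plane

`Q ∣ N`, `M = N / Q`, `Q a - M b = 1`.   `W = [[Q a, b], [N, Q]]` (determinant `Q`),
`W z = (Q a z + b) / (N z + Q)`.

For `e ∣ Q`, `f ∣ M`:  `[[e f, 0], [0, 1]] * W = e * γ * [[(Q/e) f, 0], [0, 1]]` with
`γ = gam e f = [[e a, f b], [M / f, Q / e]] ∈ SL(2,ℤ)`, i.e.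
`(e f) * W z = γ • ((Q/e) f z)`     and    `denom γ ((Q/e) f z) = (N z + Q) / e`.

Useful: `S24.expandB_coe_smul`, `S24.expandB_jFun_eq_of_coe`, `S24.expandB_discriminant_smul`, `S24.jFun_smul`,
`S24.expandB_coe_ofComplex`, `UpperHalfPlane.ofComplex_apply_of_im_pos`, `UpperHalfPlane.denom`.
`pre d 0 1 f z = f (ofComplex ((d * z + 0) / 1))`, `jd d = pre d 0 1 jFun`.
`Im ((Q a z + b)/(N z + Q)) = Q Im z / |N z + Q|² > 0`.
-/

noncomputable section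

namespace Fermat.Agent.Mod

open UpperHalfPlane ModularForm Fermat.Agent.S24
open scoped MatrixGroups

/-- Bezout data for the exact divisor `Q` of `N`. -/
structure ALMat (N Q : ℕ) where
  a : ℤ
  b : ℤ
  det : (Q : ℤ) * a - ((N / Q : ℕ) : ℤ) * b = 1

theorem exists_alMat {N Q : ℕ} (hc : Nat.Coprime Q (N / Q)) : Nonempty (ALMat N Q) := by
  obtain ⟨u, v, huv⟩ := Nat.isCoprime_iff_coprime.mpr hc
  exact ⟨⟨u, -v, by linear_combination huv⟩⟩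

variable {N Q : ℕ}

/-- `z ↦ (Q a z + b) / (N z + Q)`. -/
def ALMat.W (A : ALMat N Q) (z : ℍ) : ℍ :=
  ofComplex ((((Q : ℂ) * (A.a : ℂ)) * z + (A.b : ℂ)) / ((N : ℂ) * z + (Q : ℂ)))

theorem ALMat.denom_ne (hN : 0 < N) (z : ℍ) : ((N : ℂ) * z + (Q : ℂ)) ≠ 0 := by
  intro h
  have h1 := congrArg Complex.im h
  simp only [Complex.add_im, Complex.mul_im, Complex.natCast_re, Complex.natCast_im, zero_mul,
    add_zero, Complex.zero_im, coe_im] at h1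
  have h2 : (0 : ℝ) < N := by exact_mod_cast hN
  have h3 := z.im_pos
  exact (mul_pos h2 h3).ne' h1

theorem ALMat.wmat_casts (A : ALMat N Q) (hQ : Q ∣ N) :
    (N : ℝ) = Q * ((N / Q : ℕ) : ℝ) ∧ (Q : ℝ) * (A.a : ℝ) - ((N / Q : ℕ) : ℝ) * (A.b : ℝ) = 1 := by
  constructor
  · exact_mod_cast (Nat.mul_div_cancel' hQ).symm
  · have := congrArg (Int.cast : ℤ → ℝ) A.det
    simpa only [Int.cast_sub, Int.cast_mul, Int.cast_natCast, Int.cast_one] using this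

theorem ALMat.wmat_im_pos (A : ALMat N Q) (hN : 0 < N) (hQ : Q ∣ N) (z : ℍ) :
    0 < ((((Q : ℂ) * (A.a : ℂ)) * z + (A.b : ℂ)) / ((N : ℂ) * z + (Q : ℂ))).im := by
  have hQ0 : 0 < Q := Nat.pos_of_dvd_of_pos hQ hN
  have hQ1 : (0 : ℝ) < Q := by exact_mod_cast hQ0
  have hne := ALMat.denom_ne (Q := Q) hN z
  have hns : 0 < Complex.normSq ((N : ℂ) * z + (Q : ℂ)) := Complex.normSq_pos.mpr hne
  obtain ⟨h1, h2⟩ := A.wmat_casts hQ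
  rw [Complex.div_im]
  have e : ((Q : ℂ) * (A.a : ℂ) * z + (A.b : ℂ)).im * ((N : ℂ) * z + (Q : ℂ)).re /
        Complex.normSq ((N : ℂ) * z + (Q : ℂ)) -
      ((Q : ℂ) * (A.a : ℂ) * z + (A.b : ℂ)).re * ((N : ℂ) * z + (Q : ℂ)).im /
        Complex.normSq ((N : ℂ) * z + (Q : ℂ)) =
      (Q : ℝ) * z.im / Complex.normSq ((N : ℂ) * z + (Q : ℂ)) := by
    rw [← sub_div]
    congr 1
    simp only [Complex.add_im, Complex.mul_im, Complex.natCast_re, Complex.natCast_im,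
      Complex.intCast_re, Complex.intCast_im, Complex.add_re, Complex.mul_re, coe_im, coe_re,
      zero_mul, mul_zero, add_zero, sub_zero]
    rw [h1]
    linear_combination ((Q : ℝ) * z.im) * h2
  rw [e]
  exact div_pos (mul_pos hQ1 z.im_pos) hns

theorem ALMat.coe_W (A : ALMat N Q) (hN : 0 < N) (hQ : Q ∣ N) (z : ℍ) :
    ((A.W z : ℍ) : ℂ) = (((Q : ℂ) * (A.a : ℂ)) * z + (A.b : ℂ)) / ((N : ℂ) * z + (Q : ℂ)) := by
  rw [ALMat.W, ofComplex_apply_of_im_pos (A.wmat_im_pos hN hQ z)]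

/-- `γ = [[e a, f b], [M / f, Q / e]]`. -/
def ALMat.gam (A : ALMat N Q) (e f : ℕ) (he : e ∣ Q) (hf : f ∣ N / Q) (hN : 0 < N) (hQ : Q ∣ N) :
    SL(2, ℤ) :=
  ⟨!![(e : ℤ) * A.a, (f : ℤ) * A.b; (((N / Q) / f : ℕ) : ℤ), ((Q / e : ℕ) : ℤ)], by
    rw [Matrix.det_fin_two_of]
    have h1 : (Q : ℤ) = e * ((Q / e : ℕ) : ℤ) := by exact_mod_cast (Nat.mul_div_cancel' he).symm
    have h2 : ((N / Q : ℕ) : ℤ) = f * (((N / Q) / f : ℕ) : ℤ) := by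
      exact_mod_cast (Nat.mul_div_cancel' hf).symm
    have h3 := A.det
    rw [h1, h2] at h3
    linear_combination h3⟩

theorem ALMat.wmat_ccasts (A : ALMat N Q) (e f : ℕ) (he : e ∣ Q) (hf : f ∣ N / Q) (hQ : Q ∣ N) :
    (N : ℂ) = Q * ((N / Q : ℕ) : ℂ) ∧ (Q : ℂ) * (A.a : ℂ) - ((N / Q : ℕ) : ℂ) * (A.b : ℂ) = 1 ∧
    (Q : ℂ) = e * ((Q / e : ℕ) : ℂ) ∧ ((N / Q : ℕ) : ℂ) = f * (((N / Q) / f : ℕ) : ℂ) := by
  refine ⟨?_, ?_, ?_, ?_⟩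
  · exact_mod_cast (Nat.mul_div_cancel' hQ).symm
  · have := congrArg (Int.cast : ℤ → ℂ) A.det
    simpa only [Int.cast_sub, Int.cast_mul, Int.cast_natCast, Int.cast_one] using this
  · exact_mod_cast (Nat.mul_div_cancel' he).symm
  · exact_mod_cast (Nat.mul_div_cancel' hf).symm

theorem ALMat.wmat_pos (e f : ℕ) (he : e ∣ Q) (hf : f ∣ N / Q) (hN : 0 < N) (hQ : Q ∣ N) :
    0 < e ∧ 0 < f ∧ 0 < Q / e := by
  have hQ0 : 0 < Q := Nat.pos_of_dvd_of_pos hQ hN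
  have hM0 : 0 < N / Q := Nat.div_pos (Nat.le_of_dvd hN hQ) hQ0
  have he0 : 0 < e := Nat.pos_of_dvd_of_pos he hQ0
  exact ⟨he0, Nat.pos_of_dvd_of_pos hf hM0, Nat.div_pos (Nat.le_of_dvd hQ0 he) he0⟩

/-- `(e f) W z = γ • ((Q/e) f z)`. -/
theorem ALMat.mul_W (A : ALMat N Q) (e f : ℕ) (he : e ∣ Q) (hf : f ∣ N / Q) (hN : 0 < N)
    (hQ : Q ∣ N) (z : ℍ) :
    ofComplex ((((e * f : ℕ) : ℂ) * (A.W z : ℂ) + (0 : ℕ)) / (1 : ℕ)) =
      A.gam e f he hf hN hQ • ofComplex (((((Q / e) * f : ℕ) : ℂ) * (z : ℂ) + (0 : ℕ)) / (1 : ℕ)) := by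
  obtain ⟨he0, hf0, hQe0⟩ := ALMat.wmat_pos e f he hf hN hQ
  obtain ⟨c1, c2, c3, c4⟩ := A.wmat_ccasts e f he hf hQ
  apply UpperHalfPlane.ext
  have hden := expandB_denom_ne (A.gam e f he hf hN hQ)
    (ofComplex (((((Q / e) * f : ℕ) : ℂ) * (z : ℂ) + (0 : ℕ)) / (1 : ℕ)))
  rw [expandB_coe_smul, eq_div_iff hden,
    expandB_coe_ofComplex _ 0 1 (Nat.mul_pos he0 hf0) one_pos,
    expandB_coe_ofComplex _ 0 1 (Nat.mul_pos hQe0 hf0) one_pos, A.coe_W hN hQ]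
  have hne := ALMat.denom_ne (Q := Q) hN z
  have g00 : (((A.gam e f he hf hN hQ) 0 0 : ℤ) : ℂ) = (e : ℂ) * A.a := by
    show (((e : ℤ) * A.a : ℤ) : ℂ) = _
    rw [Int.cast_mul, Int.cast_natCast]
  have g01 : (((A.gam e f he hf hN hQ) 0 1 : ℤ) : ℂ) = (f : ℂ) * A.b := by
    show (((f : ℤ) * A.b : ℤ) : ℂ) = _
    rw [Int.cast_mul, Int.cast_natCast]
  have g10 : (((A.gam e f he hf hN hQ) 1 0 : ℤ) : ℂ) = (((N / Q) / f : ℕ) : ℂ) :=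
    Int.cast_natCast _
  have g11 : (((A.gam e f he hf hN hQ) 1 1 : ℤ) : ℂ) = ((Q / e : ℕ) : ℂ) := Int.cast_natCast _
  rw [g00, g01, g10, g11, Nat.cast_mul, Nat.cast_mul, Nat.cast_zero, Nat.cast_one]
  have he1 : (e : ℂ) ≠ 0 := by exact_mod_cast he0.ne'
  rw [c1, c4, c3] at hne ⊢
  rw [c4, c3] at c2
  generalize ((Q / e : ℕ) : ℂ) = e' at *
  generalize (((N / Q) / f : ℕ) : ℂ) = f' at *
  rw [add_zero, div_one, add_zero, div_one, mul_div_assoc', div_mul_eq_mul_div, div_eq_iff hne]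
  ring

theorem ALMat.denom_gam (A : ALMat N Q) (e f : ℕ) (he : e ∣ Q) (hf : f ∣ N / Q) (hN : 0 < N)
    (hQ : Q ∣ N) (z : ℍ) :
    denom (A.gam e f he hf hN hQ)
      (ofComplex (((((Q / e) * f : ℕ) : ℂ) * (z : ℂ) + (0 : ℕ)) / (1 : ℕ))) =
      ((N : ℂ) * z + (Q : ℂ)) / (e : ℂ) := by
  obtain ⟨he0, hf0, hQe0⟩ := ALMat.wmat_pos e f he hf hN hQ
  obtain ⟨c1, c2, c3, c4⟩ := A.wmat_ccasts e f he hf hQ
  have hd : denom (A.gam e f he hf hN hQ)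
      (ofComplex (((((Q / e) * f : ℕ) : ℂ) * (z : ℂ) + (0 : ℕ)) / (1 : ℕ))) =
      (((A.gam e f he hf hN hQ) 1 0 : ℤ) : ℂ) *
        ((ofComplex (((((Q / e) * f : ℕ) : ℂ) * (z : ℂ) + (0 : ℕ)) / (1 : ℕ)) : ℍ) : ℂ) +
        (((A.gam e f he hf hN hQ) 1 1 : ℤ) : ℂ) := by
    simp [denom]
  rw [hd, expandB_coe_ofComplex _ 0 1 (Nat.mul_pos hQe0 hf0) one_pos]
  have g10 : (((A.gam e f he hf hN hQ) 1 0 : ℤ) : ℂ) = (((N / Q) / f : ℕ) : ℂ) :=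
    Int.cast_natCast _
  have g11 : (((A.gam e f he hf hN hQ) 1 1 : ℤ) : ℂ) = ((Q / e : ℕ) : ℂ) := Int.cast_natCast _
  rw [g10, g11, Nat.cast_mul, Nat.cast_zero, Nat.cast_one]
  have he1 : (e : ℂ) ≠ 0 := by exact_mod_cast he0.ne'
  rw [c1, c4, c3]
  field_simp
  ring

/-- `j (e f W z) = j ((Q/e) f z)`. -/
theorem ALMat.jd_W (A : ALMat N Q) (e f : ℕ) (he : e ∣ Q) (hf : f ∣ N / Q) (hN : 0 < N)
    (hQ : Q ∣ N) (z : ℍ) : jd (e * f) (A.W z) = jd ((Q / e) * f) z := by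
  unfold jd pre
  rw [A.mul_W e f he hf hN hQ z, jFun_smul]

/-- `Δ (e f W z) = ((N z + Q) / e)¹² Δ ((Q/e) f z)`. -/
theorem ALMat.disc_W (A : ALMat N Q) (e f : ℕ) (he : e ∣ Q) (hf : f ∣ N / Q) (hN : 0 < N)
    (hQ : Q ∣ N) (z : ℍ) :
    pre (e * f) 0 1 discriminant (A.W z) =
      (((N : ℂ) * z + (Q : ℂ)) / (e : ℂ)) ^ 12 * pre ((Q / e) * f) 0 1 discriminant z := by
  unfold pre
  rw [A.mul_W e f he hf hN hQ z, expandB_discriminant_smul, A.denom_gam e f he hf hN hQ z]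
  norm_cast

end Fermat.Agent.Mod
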