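import Fermat.Agent.S34.Mod.Defs

set_option autoImplicit false

/-!
# MOD / task XUNIQ : uniqueness of the Hensel solution `x` of `Bp(x) = j Ap(x)`, `x = q⁻¹ + …`

Let `y₁, y₂` be two solutions of order `-1` and leading coefficient `1`, `G(Y) = Bp(Y) - j Ap(Y)`.
`0 = G(y₁) - G(y₂) = (y₁ - y₂) * H`, where (explicitly, by `ring`, one line per `Λ`)
 * line2: `H = (y₁² + y₁y₂ + y₂²) + 768 (y₁ + y₂) + 196608 - j (y₁ + y₂)`;
 * line3: `H = (y₁³ + y₁²y₂ + y₁y₂² + y₂³) + 756 (y₁² + y₁y₂ + y₂²) + 196830 (y₁ + y₂) + 19131876 - j (y₁² + y₁y₂ + y₂²)`.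
The coefficient of `q^(-r)` of `H` is `(r + 1) - r = 1 ≠ 0` (all of `y₁, y₂, j` are `q⁻¹(1 + O(q))`:
write them as `single (-1) 1 * ofPowerSeries u` with `constantCoeff u = 1`, or use `HahnSeries.coeff_mul_order_add_order`/
`leadingCoeff_mul`, `order_mul`, and `HahnSeries.order_add…`), so `H ≠ 0` and `y₁ = y₂`.
Known: `S18.xK_rel`, `S18.order_xK`, `S18.leadingCoeff_xK`, `S18.KPack.order_jqModC`, `coeff_jqModC_neg_one`.
-/

noncomputable section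

namespace Fermat.Agent.Mod

open Polynomial ModularCurve S18

namespace XUniq

variable {K : Type*} [Field K]

/-- a series of order `-1` and leading coefficient `1` is `q⁻¹ u`, `u(0) = 1`. -/
theorem exists_unit (y : LaurentSeries K) (ho : y.order = -1) (hl : y.leadingCoeff = 1) :
    ∃ u : PowerSeries K, PowerSeries.constantCoeff u = 1 ∧
      y = HahnSeries.single (-1 : ℤ) (1 : K) * HahnSeries.ofPowerSeries ℤ K u := by
  refine ⟨y.powerSeriesPart, ?_, ?_⟩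
  · rw [← PowerSeries.coeff_zero_eq_constantCoeff_apply, LaurentSeries.powerSeriesPart_coeff, ← hl]
    simp [HahnSeries.leadingCoeff_eq]
  · conv_lhs => rw [← LaurentSeries.single_order_mul_powerSeriesPart y, ho]

theorem order_j : (jqModC K).order = -1 := by
  have h0 : jqModC K ≠ 0 := jqModC_ne_zero_of_nontrivial K
  apply le_antisymm
  · exact HahnSeries.order_le_of_coeff_ne_zero (by rw [coeff_jqModC_neg_one]; exact one_ne_zero)
  · by_contra hlt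
    rw [not_le] at hlt
    exact HahnSeries.leadingCoeff_ne_zero.2 h0
      (by rw [HahnSeries.leadingCoeff_eq]; exact coeff_jqModC_of_lt K hlt)

theorem leadingCoeff_j : (jqModC K).leadingCoeff = 1 := by
  rw [HahnSeries.leadingCoeff_eq, order_j, coeff_jqModC_neg_one]

theorem single_mul_X : HahnSeries.single (-1 : ℤ) (1 : K) *
    HahnSeries.ofPowerSeries ℤ K (PowerSeries.X : PowerSeries K) = 1 := by
  rw [HahnSeries.ofPowerSeries_X, HahnSeries.single_mul_single]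
  simp

/-- `T ^ k * φ W ≠ 0` when `W(0) = 1`. -/
theorem ne_zero_of_const (k : ℕ) (W : PowerSeries K) (hW : PowerSeries.constantCoeff W = 1) :
    HahnSeries.single (-1 : ℤ) (1 : K) ^ k * HahnSeries.ofPowerSeries ℤ K W ≠ 0 := by
  apply mul_ne_zero
  · apply pow_ne_zero
    rw [Ne, HahnSeries.single_eq_zero_iff]
    exact one_ne_zero
  · rw [Ne, map_eq_zero_iff _ HahnSeries.ofPowerSeries_injective]
    rintro rfl
    rw [map_zero] at hW
    exact zero_ne_one hW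

theorem unique2 (y₁ y₂ : LaurentSeries K)
    (h₁ : (y₁ + 256) ^ 3 = jqModC K * y₁ ^ 2) (h₂ : (y₂ + 256) ^ 3 = jqModC K * y₂ ^ 2)
    (ho₁ : y₁.order = -1) (hl₁ : y₁.leadingCoeff = 1)
    (ho₂ : y₂.order = -1) (hl₂ : y₂.leadingCoeff = 1) : y₁ = y₂ := by
  obtain ⟨u₁, hu₁, e₁⟩ := exists_unit y₁ ho₁ hl₁
  obtain ⟨u₂, hu₂, e₂⟩ := exists_unit y₂ ho₂ hl₂
  obtain ⟨uj, huj, ej⟩ := exists_unit (jqModC K) order_j leadingCoeff_j
  by_contra hne
  have hsub : y₁ - y₂ ≠ 0 := sub_ne_zero.2 hne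
  have hH : (y₁ - y₂) * ((y₁ ^ 2 + y₁ * y₂ + y₂ ^ 2) + 768 * (y₁ + y₂) + 196608
      - jqModC K * (y₁ + y₂)) = 0 := by
    linear_combination h₁ - h₂
  have hH0 := (mul_eq_zero.1 hH).resolve_left hsub
  set T := HahnSeries.single (-1 : ℤ) (1 : K) with hT
  set φ := HahnSeries.ofPowerSeries ℤ K with hφ
  have hTX : T * φ PowerSeries.X = 1 := single_mul_X
  have hW : (y₁ ^ 2 + y₁ * y₂ + y₂ ^ 2) + 768 * (y₁ + y₂) + 196608 - jqModC K * (y₁ + y₂) =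
      T ^ 2 * φ ((u₁ ^ 2 + u₁ * u₂ + u₂ ^ 2) + 768 * PowerSeries.X * (u₁ + u₂)
        + 196608 * PowerSeries.X ^ 2 - uj * (u₁ + u₂)) := by
    rw [ej, e₁, e₂]
    simp only [map_add, map_sub, map_mul, map_pow, map_ofNat]
    linear_combination (-768 * T * (φ u₁ + φ u₂) - 196608 * (T * φ PowerSeries.X + 1)) * hTX
  rw [hW] at hH0
  refine ne_zero_of_const 2 _ ?_ hH0
  simp only [map_add, map_sub, map_mul, map_pow, hu₁, hu₂, huj, PowerSeries.constantCoeff_X]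
  ring

theorem unique3 (y₁ y₂ : LaurentSeries K)
    (h₁ : (y₁ + 27) * (y₁ + 243) ^ 3 = jqModC K * y₁ ^ 3)
    (h₂ : (y₂ + 27) * (y₂ + 243) ^ 3 = jqModC K * y₂ ^ 3)
    (ho₁ : y₁.order = -1) (hl₁ : y₁.leadingCoeff = 1)
    (ho₂ : y₂.order = -1) (hl₂ : y₂.leadingCoeff = 1) : y₁ = y₂ := by
  obtain ⟨u₁, hu₁, e₁⟩ := exists_unit y₁ ho₁ hl₁
  obtain ⟨u₂, hu₂, e₂⟩ := exists_unit y₂ ho₂ hl₂
  obtain ⟨uj, huj, ej⟩ := exists_unit (jqModC K) order_j leadingCoeff_j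
  by_contra hne
  have hsub : y₁ - y₂ ≠ 0 := sub_ne_zero.2 hne
  have hH : (y₁ - y₂) * ((y₁ ^ 3 + y₁ ^ 2 * y₂ + y₁ * y₂ ^ 2 + y₂ ^ 3)
      + 756 * (y₁ ^ 2 + y₁ * y₂ + y₂ ^ 2) + 196830 * (y₁ + y₂) + 19131876
      - jqModC K * (y₁ ^ 2 + y₁ * y₂ + y₂ ^ 2)) = 0 := by
    linear_combination h₁ - h₂
  have hH0 := (mul_eq_zero.1 hH).resolve_left hsub
  set T := HahnSeries.single (-1 : ℤ) (1 : K) with hT
  set φ := HahnSeries.ofPowerSeries ℤ K with hφ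
  have hTX : T * φ PowerSeries.X = 1 := single_mul_X
  have hW : (y₁ ^ 3 + y₁ ^ 2 * y₂ + y₁ * y₂ ^ 2 + y₂ ^ 3)
      + 756 * (y₁ ^ 2 + y₁ * y₂ + y₂ ^ 2) + 196830 * (y₁ + y₂) + 19131876
      - jqModC K * (y₁ ^ 2 + y₁ * y₂ + y₂ ^ 2) =
      T ^ 3 * φ ((u₁ ^ 3 + u₁ ^ 2 * u₂ + u₁ * u₂ ^ 2 + u₂ ^ 3)
        + 756 * PowerSeries.X * (u₁ ^ 2 + u₁ * u₂ + u₂ ^ 2)
        + 196830 * PowerSeries.X ^ 2 * (u₁ + u₂) + 19131876 * PowerSeries.X ^ 3
        - uj * (u₁ ^ 2 + u₁ * u₂ + u₂ ^ 2)) := by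
    rw [ej, e₁, e₂]
    simp only [map_add, map_sub, map_mul, map_pow, map_ofNat]
    linear_combination (-756 * T ^ 2 * (φ u₁ ^ 2 + φ u₁ * φ u₂ + φ u₂ ^ 2)
      - 196830 * T * (φ u₁ + φ u₂) * (T * φ PowerSeries.X + 1)
      - 19131876 * ((T * φ PowerSeries.X) ^ 2 + T * φ PowerSeries.X + 1)) * hTX
  rw [hW] at hH0
  refine ne_zero_of_const 3 _ ?_ hH0
  simp only [map_add, map_sub, map_mul, map_pow, hu₁, hu₂, huj, PowerSeries.constantCoeff_X]
  ring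

end XUniq

theorem xK_unique (K : Type*) [Field K] (Λ : Line) (hΛ : Λ = line2 ∨ Λ = line3)
    (y : LaurentSeries K)
    (hy : (Polynomial.aeval y Λ.Bp : LaurentSeries K) = jqModC K * Polynomial.aeval y Λ.Ap)
    (ho : y.order = -1) (hl : y.leadingCoeff = 1) : y = xK K Λ := by
  have hx := xK_rel K Λ hΛ
  have hox := order_xK K Λ
  have hlx := leadingCoeff_xK K Λ
  generalize xK K Λ = x at hx hox hlx ⊢
  rcases hΛ with rfl | rfl
  · have e1 : line2.Bp = (X + 256) ^ 3 := rfl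
    have e2 : line2.Ap = X ^ 2 := rfl
    rw [e1, e2] at hy hx
    simp only [map_pow, map_add, Polynomial.aeval_X, map_ofNat] at hy hx
    exact XUniq.unique2 y x hy hx ho hl hox hlx
  · have e1 : line3.Bp = (X + 27) * (X + 243) ^ 3 := rfl
    have e2 : line3.Ap = X ^ 3 := rfl
    rw [e1, e2] at hy hx
    simp only [map_pow, map_add, map_mul, Polynomial.aeval_X, map_ofNat] at hy hx
    exact XUniq.unique3 y x hy hx ho hl hox hlx

end Fermat.Agent.Mod
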