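import Fermat.Agent.S34.Mod.XId
import Fermat.Agent.S34.Mod.XUniq

set_option autoImplicit false

/-!
# MOD / task X : helper18's Hensel series `x` IS the eta quotient; `j(q^r) = Cp(x)/x`

* `xL_eq_xK_C`: `fL_eq_zero` + `TInf_fL` (`TInf 1 0 = 0`) give `Bp(x̂) = ĵ Ap(x̂)` for `x̂ = xL ℂ Λ`; `order_xL`, `leadingCoeff_xL`; `xK_unique`.
* `xL_eq_xZ`: `coeffMap (Int.castRingHom ℂ)` is injective (`S28.coeffMap_injective`, `Int.cast_injective`), `coeffMap_xL`, `xK ℂ Λ = coeffMap _ (xZ Λ)` by definition.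
* `xK_rel_r`: the function identity `hL_rel_r` between elements of `perSub 1` (`hL_mem`, `jd r ∈ perSub 1`: `NV.pre_mem_perSub` with `jd r = pre r 0 1 jFun`), apply `TInf 1`
  (`TInf 1 (jd r) = qExpand ℂ r ĵ` by `NV.TInf_pre`/`S24.TInf_pre_jFun` with `N = 1, a = r, b = 0, δ = 1`): `Cp(x̂) = jS ℂ r * x̂` over `ℂ`; descend to `ℤ` by injectivity
  (`Polynomial.aeval` of `ℤ[X]` commutes with ring homs: `Polynomial.hom_eval₂`/`map_aeval…`, cf. the proof of `S18.xK_rel`), then map to `K`.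
-/

noncomputable section

namespace Fermat.Agent.Mod

open ModularCurve Polynomial Fermat.Agent.S18

theorem X.map_aeval_int {S T : Type*} [CommRing S] [CommRing T] [Algebra ℤ S] [Algebra ℤ T]
    (f : S →+* T) (x : S) (P : ℤ[X]) : f (Polynomial.aeval x P) = Polynomial.aeval (f x) P := by
  rw [aeval_def, aeval_def, hom_eval₂]
  congr 1
  exact Subsingleton.elim _ _

variable (Λ : Line) (hΛ : Λ = line2 ∨ Λ = line3)

include hΛ

theorem xL_eq_xK_C : xL ℂ Λ = xK ℂ Λ := by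
  have h1 := TInf_fL Λ
  have h2 : (⟨fL Λ, fL_mem Λ⟩ : S24.perSub 1) = 0 := Subtype.ext (fL_eq_zero Λ hΛ)
  rw [h2, map_zero] at h1
  exact xK_unique ℂ Λ hΛ (xL ℂ Λ) (sub_eq_zero.1 h1.symm) (order_xL ℂ Λ) (leadingCoeff_xL ℂ Λ)

theorem xL_eq_xZ : xL ℤ Λ = xZ Λ := by
  apply S28.coeffMap_injective (f := Int.castRingHom ℂ) Int.cast_injective
  rw [coeffMap_xL, xL_eq_xK_C Λ hΛ]
  rfl

theorem xL_eq_xK (K : Type*) [CommRing K] : xL K Λ = xK K Λ := by
  rw [xK, ← xL_eq_xZ Λ hΛ, coeffMap_xL]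

/-- `Cp(x) = j(q^r) x`. -/
theorem xK_rel_r (K : Type*) [CommRing K] :
    (Polynomial.aeval (xK K Λ) (Cp Λ) : LaurentSeries K) = jS K Λ.r * xK K Λ := by
  have hr : 0 < Λ.r := by
    rcases hΛ with rfl | rfl
    · exact Nat.succ_pos 1
    · exact Nat.succ_pos 2
  have : NeZero Λ.r := ⟨hr.ne'⟩
  have : NeZero (Λ.r * (1 / 1)) := ⟨by rw [Nat.div_one, mul_one]; exact hr.ne'⟩
  -- the identity in `perSub 1`
  let H : S24.perSub 1 := ⟨hL Λ, hL_mem Λ⟩
  let Jr : S24.perSub 1 := ⟨S24.pre Λ.r 0 1 S24.jFun,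
    S24.pre_jFun_mem_perSub (N := 1) (a := Λ.r) (b := 0) (δ := 1) hr one_pos (one_dvd 1)⟩
  have hid : Polynomial.aeval H (Cp Λ) = Jr * H := by
    apply Subtype.ext
    funext z
    have h1 := X.map_aeval_int ((Pi.evalRingHom (fun _ : UpperHalfPlane => ℂ) z).comp
      (S24.perSub 1).subtype) H (Cp Λ)
    have h2 := hL_rel_r Λ hΛ z
    exact h1.trans h2
  have hC : (Polynomial.aeval (xL ℂ Λ) (Cp Λ) : LaurentSeries ℂ) = jS ℂ Λ.r * xL ℂ Λ := by
    have h1 := congrArg (S24.TInf 1) hid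
    rw [X.map_aeval_int, map_mul, show S24.TInf 1 H = xL ℂ Λ from TInf_hL Λ] at h1
    have h2 : S24.TInf 1 Jr = jS ℂ Λ.r := by
      have h3 := S24.TInf_pre_jFun (N := 1) (a := Λ.r) (b := 0) (δ := 1) hr one_pos (one_dvd 1)
      have h0 : S24.rootU 1 ((0 : ℕ) : ℤ) = 1 := by
        rw [Nat.cast_zero]; exact S24.expandC_rootU_zero 1
      rw [h0, S24.twist_one] at h3
      rw [jS_of_ne]
      exact h3.trans (qExpand_congr (by rw [Nat.div_one, mul_one]) _)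
    rw [h2] at h1
    exact h1
  have hZ : (Polynomial.aeval (xL ℤ Λ) (Cp Λ) : LaurentSeries ℤ) = jS ℤ Λ.r * xL ℤ Λ := by
    apply S28.coeffMap_injective (f := Int.castRingHom ℂ) Int.cast_injective
    rw [X.map_aeval_int, map_mul, coeffMap_xL, coeffMap_jS]
    exact hC
  have hK := congrArg (coeffMap (Int.castRingHom K)) hZ
  rw [X.map_aeval_int, map_mul, coeffMap_xL, coeffMap_jS, xL_eq_xK Λ hΛ] at hK
  exact hK

end Fermat.Agent.Mod
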