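import Fermat.Agent.S34.Mod.Defs

set_option autoImplicit false

/-!
# MOD : the formal eta quotients `q⁻¹ ∏ ((1 - q^n) / (1 - q^(rn)))^m`   (definitions only)
-/

noncomputable section

namespace Fermat.Agent.Mod

open Polynomial ModularCurve

/-- `∏ (1 - q^n)`. -/
def eP (K : Type*) [CommRing K] : LaurentSeries K :=
  HahnSeries.ofPowerSeries ℤ K (etaProd.map (Int.castRingHom K))

/-- `∏ (1 - q^n)⁻¹`. -/
def ePinv (K : Type*) [CommRing K] : LaurentSeries K :=
  HahnSeries.ofPowerSeries ℤ K ((etaProd.invOfUnit 1).map (Int.castRingHom K))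

/-- `q⁻¹ ∏ ((1 - q^n) / (1 - q^(rn)))^m`. -/
def xForm (K : Type*) [CommRing K] (r m : ℕ) [NeZero r] : LaurentSeries K :=
  HahnSeries.single (-1 : ℤ) 1 * (eP K * qExpand K r (ePinv K)) ^ m

/-- `q ∏ ((1 - q^(rn)) / (1 - q^n))^m`, the inverse of `xForm`. -/
def xFormInv (K : Type*) [CommRing K] (r m : ℕ) [NeZero r] : LaurentSeries K :=
  HahnSeries.single (1 : ℤ) 1 * (ePinv K * qExpand K r (eP K)) ^ m

/-- the eta quotient of the line `Λ`: `(η(z)/η(2z))²⁴` on `line2`, `(η(z)/η(3z))¹²` on `line3`. -/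
def xL (K : Type*) [CommRing K] (Λ : S18.Line) : LaurentSeries K :=
  if Λ.r = 2 then xForm K 2 24 else xForm K 3 12

/-- its inverse. -/
def xLinv (K : Type*) [CommRing K] (Λ : S18.Line) : LaurentSeries K :=
  if Λ.r = 2 then xFormInv K 2 24 else xFormInv K 3 12

end Fermat.Agent.Mod
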