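import Fermat.Agent.S34.Mod.EtaExp

set_option autoImplicit false

/-!
# MOD / task XFUN : the function `f = Bp(h) - j Ap(h)` on `ℍ`, its transforms under `T`, `S` and their `q`-expansions

`r = Λ.r`, `h = hL Λ`, `c = cW Λ`, `u = pre 1 0 r h` (`u z = h(z/r)`), `uinv = pre 1 0 r (hLinv Λ)`.
* `fL_T`: `hL_T`, `S24.act_jFun` (`act g` is a ring hom; `Polynomial.eval` of a function valued argument is pointwise).
* `fL_S`: `(act S f) z = f (S⁻¹ • z)`, `S⁻¹ • z = S • z` (`S⁻¹ = -S`), `h (S • z) = c / u z` (`hL_S`), `jFun (S • z) = jFun z`, and the polynomial identities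
  `Bp(c/u) u^(r+1) = c^r Cp(u)`, `Ap(c/u) u^r = c^r`:
  line2: `(4096/u + 256)³ u³ = 4096² (u + 16)³`;  line3: `(729/u + 27)(729/u + 243)³ u⁴ = 729³ (u + 27)(u + 3)³`  (`field_simp; ring`).
* `fL_ST`: `u (T^(-r) z) = h ((z - r)/r) = h (z/r - 1) = h (z/r)` by `hL_T`; `jFun` is invariant.
* memberships: `perSub` is a subring; `hL_mem`, `hLinv_mem`, `NV.pre_mem_perSub`, `S24.pre_jFun_mem_perSub` / `S24.jFun_mem_Btil` + `S24.Btil_le_perSub`, constants `S24.isBd_const`.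
* expansions: `TInf` is a ring hom; `TInf_hL`, `TInf_hLinv`; `NV.TInf_pre` with `M = r, a = 1, b = 0, δ = r` gives `TInf r u = qExpand ℂ (1 * (r / r)) (twist (rootU r 0) x̂) = x̂`
  (`qExpand_one_apply`, `S24.expandC_rootU_zero`, `S24.twist_one`, `NV.HeckeExp.qExpand_congr`); `TInf r jFun = qExpand ℂ r ĵ = jS ℂ r`, `TInf 1 jFun = ĵ` (`S24.TInf_jd`, `S24.jd_one`);
  integer constants: `map_intCast`.  `Polynomial.aeval`/`eval` of `ℤ[X]`: `Λ.Bp`, `Λ.Ap`, `Cp Λ` are explicit, `rcases hΛ with rfl | rfl` and `simp [line2, line3, Cp, cW]`.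
-/

noncomputable section

namespace Fermat.Agent.Mod

open UpperHalfPlane ModularForm ModularCurve Polynomial Fermat.Agent.S24 Fermat.Agent.S18
open scoped MatrixGroups

/-- `Bp(h) - j Ap(h)`. -/
def fL (Λ : Line) : ℍ → ℂ := fun z =>
  (Polynomial.aeval (hL Λ z) Λ.Bp : ℂ) - jFun z * Polynomial.aeval (hL Λ z) Λ.Ap

/-- `c^r (Cp(u) - j u) / u^(r+1)`, `u = h(z/r)`. -/
def fLS (Λ : Line) : ℍ → ℂ := fun z =>
  (cW Λ : ℂ) ^ Λ.r * ((Polynomial.aeval (pre 1 0 Λ.r (hL Λ) z) (Cp Λ) : ℂ) -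
    jFun z * pre 1 0 Λ.r (hL Λ) z) * pre 1 0 Λ.r (hLinv Λ) z ^ (Λ.r + 1)

namespace XFun

/-- ring homomorphisms commute with `aeval` of integer polynomials (any `ℤ`-algebra instances). -/
theorem map_aeval_int {R S : Type*} [CommRing R] [CommRing S] [Algebra ℤ R] [Algebra ℤ S]
    (f : R →+* S) (x : R) (P : ℤ[X]) :
    f (Polynomial.aeval x P) = Polynomial.aeval (f x) P := by
  rw [Polynomial.aeval_def, Polynomial.aeval_def, Polynomial.hom_eval₂]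
  congr 1
  exact RingHom.ext_int _ _

theorem aeval_fun (h : ℍ → ℂ) (P : ℤ[X]) (z : ℍ) :
    (Polynomial.aeval h P : ℍ → ℂ) z = Polynomial.aeval (h z) P :=
  map_aeval_int (Pi.evalRingHom (fun _ : ℍ => ℂ) z) h P

theorem coe_aeval {N : ℕ} (h : perSub N) (P : ℤ[X]) :
    ((Polynomial.aeval h P : perSub N) : ℍ → ℂ) = Polynomial.aeval (h : ℍ → ℂ) P :=
  map_aeval_int (perSub N).subtype h P

theorem jFun_mem (N : ℕ) [NeZero N] : jFun ∈ perSub N := Btil_le_perSub N (jd_one ▸ jd_mem_Btil (one_dvd N))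

theorem TInf_jFun (N : ℕ) [NeZero N] : TInf N ⟨jFun, jFun_mem N⟩ = jS ℂ N := by
  have : NeZero (1 * N) := ⟨by rw [one_mul]; exact NeZero.ne N⟩
  have h := TInf_jd N (one_dvd N)
  have e : (⟨jFun, jFun_mem N⟩ : perSub N) = ⟨jd 1, Btil_le_perSub N (jd_mem_Btil (one_dvd N))⟩ :=
    Subtype.ext jd_one.symm
  rw [e, h, jS_of_ne]
  exact ModularCurve.qExpand_congr (one_mul N) _

theorem S_inv_smul (z : ℍ) : ModularGroup.S⁻¹ • z = ModularGroup.S • z := by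
  rw [inv_smul_eq_iff]
  apply UpperHalfPlane.ext
  rw [UpperHalfPlane.modular_S_smul, UpperHalfPlane.modular_S_smul]
  simp

theorem r_pos {Λ : Line} (hΛ : Λ = line2 ∨ Λ = line3) : 0 < Λ.r := by
  rcases hΛ with rfl | rfl <;> decide

theorem pre_T_pow (r : ℕ) (hr : 0 < r) (f : ℍ → ℂ) (hf : act ModularGroup.T f = f) (z : ℍ) :
    pre 1 0 r f ((ModularGroup.T ^ r)⁻¹ • z) = pre 1 0 r f z := by
  have hr0 : (r : ℂ) ≠ 0 := by exact_mod_cast hr.ne'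
  have e : (ofComplex ((((1 : ℕ) : ℂ) * (((ModularGroup.T ^ r)⁻¹ • z : ℍ) : ℂ) + (0 : ℕ)) / r) : ℍ) =
      ModularGroup.T⁻¹ • (ofComplex ((((1 : ℕ) : ℂ) * (z : ℂ) + (0 : ℕ)) / r) : ℍ) := by
    apply UpperHalfPlane.ext
    rw [expA_coe_T_inv_smul, expandB_coe_ofComplex 1 0 r one_pos hr,
      expandB_coe_ofComplex 1 0 r one_pos hr]
    have h1 : (((ModularGroup.T ^ r)⁻¹ • z : ℍ) : ℂ) = z - r := by
      have := ModularGroup.coe_T_zpow_smul_eq z (n := -(r : ℤ))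
      rw [zpow_neg, zpow_natCast] at this
      rw [this]
      push_cast
      ring
    rw [h1]
    field_simp
    ring
  rw [pre, e]
  exact congrFun hf _

end XFun

variable (Λ : Line) (hΛ : Λ = line2 ∨ Λ = line3)

theorem fL_T : act ModularGroup.T (fL Λ) = fL Λ := by
  funext z
  have h1 : hL Λ (ModularGroup.T⁻¹ • z) = hL Λ z := congrFun (hL_T Λ) z
  have h2 : jFun (ModularGroup.T⁻¹ • z) = jFun z := congrFun (act_jFun ModularGroup.T) z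
  simp only [act_apply, fL, h1, h2]

include hΛ in
theorem fL_S : act ModularGroup.S (fL Λ) = fLS Λ := by
  funext z
  have h2 : jFun (ModularGroup.S⁻¹ • z) = jFun z := congrFun (act_jFun ModularGroup.S) z
  have h1 := hL_S Λ hΛ z
  have hu : pre 1 0 Λ.r (hL Λ) z ≠ 0 := hL_ne_zero Λ _
  have hinv : pre 1 0 Λ.r (hLinv Λ) z = (pre 1 0 Λ.r (hL Λ) z)⁻¹ := rfl
  have h3 : hL Λ (ModularGroup.S⁻¹ • z) = (cW Λ : ℂ) / pre 1 0 Λ.r (hL Λ) z := by
    rw [XFun.S_inv_smul, eq_div_iff hu, h1]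
  simp only [act_apply, fL, fLS, h2, h3, hinv]
  generalize pre 1 0 Λ.r (hL Λ) z = u at hu
  generalize jFun z = J
  rcases hΛ with rfl | rfl
  · have e1 : cW line2 = 4096 := if_pos rfl
    have e2 : Cp line2 = (X + 16) ^ 3 := if_pos rfl
    have e3 : line2.r = 2 := rfl
    have e4 : line2.Bp = (X + 256) ^ 3 := rfl
    have e5 : line2.Ap = X ^ 2 := rfl
    rw [e1, e2, e3, e4, e5]
    simp only [map_pow, map_add, aeval_X, map_ofNat, Int.cast_ofNat, inv_pow]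
    field_simp
    ring
  · have e1 : cW line3 = 729 := if_neg (by decide)
    have e2 : Cp line3 = (X + 27) * (X + 3) ^ 3 := if_neg (by decide)
    have e3 : line3.r = 3 := rfl
    have e4 : line3.Bp = (X + 27) * (X + 243) ^ 3 := rfl
    have e5 : line3.Ap = X ^ 3 := rfl
    rw [e1, e2, e3, e4, e5]
    simp only [map_pow, map_add, map_mul, aeval_X, map_ofNat, Int.cast_ofNat, inv_pow]
    field_simp
    ring

include hΛ in
theorem fL_ST : act (ModularGroup.T ^ Λ.r) (fLS Λ) = fLS Λ := by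
  funext z
  have hr := XFun.r_pos hΛ
  have h1 := XFun.pre_T_pow Λ.r hr (hL Λ) (hL_T Λ) z
  have hT : act ModularGroup.T (hLinv Λ) = hLinv Λ := by
    funext w
    have := congrFun (hL_T Λ) w
    simp only [act_apply, hLinv] at this ⊢
    rw [this]
  have h2 := XFun.pre_T_pow Λ.r hr (hLinv Λ) hT z
  have h3 : jFun ((ModularGroup.T ^ Λ.r)⁻¹ • z) = jFun z :=
    congrFun (act_jFun (ModularGroup.T ^ Λ.r)) z
  simp only [act_apply, fLS, h1, h2, h3]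

theorem fL_eq : fL Λ = ((Polynomial.aeval (⟨hL Λ, hL_mem Λ⟩ : perSub 1) Λ.Bp
    - ⟨jFun, XFun.jFun_mem 1⟩ * Polynomial.aeval (⟨hL Λ, hL_mem Λ⟩ : perSub 1) Λ.Ap : perSub 1) :
      ℍ → ℂ) := by
  funext z
  rw [AddSubgroupClass.coe_sub, Subring.coe_mul, XFun.coe_aeval, XFun.coe_aeval]
  simp only [Pi.sub_apply, Pi.mul_apply, XFun.aeval_fun, fL]

theorem fL_mem : fL Λ ∈ perSub 1 := by
  rw [fL_eq]
  exact Subtype.property _

theorem TInf_fL : TInf 1 ⟨fL Λ, fL_mem Λ⟩ =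
    (Polynomial.aeval (xL ℂ Λ) Λ.Bp : LaurentSeries ℂ) -
      jqModC ℂ * Polynomial.aeval (xL ℂ Λ) Λ.Ap := by
  have e : (⟨fL Λ, fL_mem Λ⟩ : perSub 1) = Polynomial.aeval (⟨hL Λ, hL_mem Λ⟩ : perSub 1) Λ.Bp
    - ⟨jFun, XFun.jFun_mem 1⟩ * Polynomial.aeval (⟨hL Λ, hL_mem Λ⟩ : perSub 1) Λ.Ap :=
    Subtype.ext (fL_eq Λ)
  rw [e, map_sub, map_mul, XFun.map_aeval_int, XFun.map_aeval_int, TInf_hL, XFun.TInf_jFun, jS_one]

theorem fLS_eq [NeZero Λ.r] (hr : 0 < Λ.r) : fLS Λ =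
    ((((cW Λ : ℤ) : perSub Λ.r) ^ Λ.r * (Polynomial.aeval
        (⟨pre 1 0 Λ.r (hL Λ), NV.pre_mem_perSub (hL_mem Λ) one_pos hr dvd_rfl⟩ : perSub Λ.r) (Cp Λ)
      - ⟨jFun, XFun.jFun_mem Λ.r⟩ *
        ⟨pre 1 0 Λ.r (hL Λ), NV.pre_mem_perSub (hL_mem Λ) one_pos hr dvd_rfl⟩)
      * (⟨pre 1 0 Λ.r (hLinv Λ), NV.pre_mem_perSub (hLinv_mem Λ) one_pos hr dvd_rfl⟩ : perSub Λ.r)
        ^ (Λ.r + 1) : perSub Λ.r) : ℍ → ℂ) := by
  funext z
  rw [Subring.coe_mul, Subring.coe_mul, AddSubgroupClass.coe_sub, Subring.coe_mul, Subring.coe_pow,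
    Subring.coe_pow, XFun.coe_aeval, Subring.coe_intCast]
  simp only [Pi.sub_apply, Pi.mul_apply, Pi.pow_apply, XFun.aeval_fun, fLS, Pi.intCast_apply]

include hΛ in
theorem fLS_mem : fLS Λ ∈ perSub Λ.r := by
  have hr := XFun.r_pos hΛ
  have : NeZero Λ.r := ⟨hr.ne'⟩
  rw [fLS_eq Λ hr]
  exact Subtype.property _

theorem TInf_fLS [NeZero Λ.r] (h : fLS Λ ∈ perSub Λ.r) (hΛ : Λ = line2 ∨ Λ = line3) :
    TInf Λ.r ⟨fLS Λ, h⟩ =
      (cW Λ : LaurentSeries ℂ) ^ Λ.r * ((Polynomial.aeval (xL ℂ Λ) (Cp Λ) : LaurentSeries ℂ) -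
        jS ℂ Λ.r * xL ℂ Λ) * xLinv ℂ Λ ^ (Λ.r + 1) := by
  have hr := XFun.r_pos hΛ
  have key : ∀ (f : ℍ → ℂ) (hf : f ∈ perSub 1),
      TInf Λ.r ⟨pre 1 0 Λ.r f, NV.pre_mem_perSub hf one_pos hr dvd_rfl⟩ = TInf 1 ⟨f, hf⟩ := by
    intro f hf
    have : NeZero (1 * (Λ.r / Λ.r)) := ⟨by rw [Nat.div_self hr]; norm_num⟩
    have h1 := NV.TInf_pre hf (M := Λ.r) (a := 1) (b := 0) (δ := Λ.r) one_pos hr dvd_rfl
    rw [h1]
    have h0 : rootU Λ.r ((0 : ℕ) : ℤ) = 1 := by rw [Nat.cast_zero]; exact expandC_rootU_zero _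
    rw [h0, twist_one, ModularCurve.qExpand_congr (show 1 * (Λ.r / Λ.r) = 1 by
      rw [Nat.div_self hr]), ModularCurve.qExpand_one_apply]
  have e := Subtype.ext (a1 := (⟨fLS Λ, h⟩ : perSub Λ.r)) (fLS_eq Λ hr)
  rw [e, map_mul, map_mul, map_sub, map_mul, map_pow, map_pow, XFun.map_aeval_int, key _ (hL_mem Λ),
    key _ (hLinv_mem Λ), TInf_hL, TInf_hLinv, XFun.TInf_jFun, map_intCast]

end Fermat.Agent.Mod
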