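import Fermat.Agent.S34.Mod.XFun
import Fermat.Agent.S34.Mod.Norm23
import Fermat.Agent.S34.Mod.Coef
import Fermat.Agent.NV.LevelOne
import Fermat.Agent.S28.Setup

set_option autoImplicit false

/-!
# MOD / task XID : `Bp(h) = j Ap(h)` and `Cp(h) = j(rz) h` for the eta quotient `h`

`r = Λ.r ∈ {2, 3}`, `f = fL Λ`, `Nm = norm23 r f = f * ∏_{b < r} act (T^b) (fLS Λ)` (`fL_S`).
(1) `Nm` is `SL(2,ℤ)`-invariant: `norm23_inv` with `fL_T`, `fL_S`, `fL_ST`.
(2) `Nm ∈ perSub r`.
(3) `NV.exists_poly_of_inv r Nm _ _`: `Nm z = P.eval (jFun z)`, so `TInf r Nm = aeval (qExpand ℂ r ĵ) P`.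
(4) ORDERS in `ℂ((t))`: total order of `TInf r Nm` is `≥ r (1 - r) + r * r = r > 0`.
(5) `S28.eq_zero_of_orderTop_aeval_pos`: `P = 0`, so `Nm = 0`.
(6) one factor vanishes, so `f = 0`.
-/

noncomputable section

namespace Fermat.Agent.Mod

open UpperHalfPlane ModularForm ModularCurve Polynomial Fermat.Agent.S24 Fermat.Agent.S18

namespace XId

/-- all coefficients below `m` vanish. -/
def Vn (s : LaurentSeries ℂ) (m : ℤ) : Prop := ∀ n < m, s.coeff n = 0

theorem Vn.mul {s s' : LaurentSeries ℂ} {m m' : ℤ} (h : Vn s m) (h' : Vn s' m') :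
    Vn (s * s') (m + m') := by
  intro n hn
  rw [HahnSeries.coeff_mul]
  apply Finset.sum_eq_zero
  intro ij hij
  rw [Finset.mem_antidiagonal] at hij
  obtain ⟨h1, h2, h3⟩ := hij
  by_cases hi : ij.1 < m
  · rw [h _ hi, zero_mul]
  · have : ij.2 < m' := by omega
    rw [h' _ this, mul_zero]

theorem Vn.one : Vn 1 0 := by
  intro n hn
  rw [HahnSeries.coeff_one, if_neg (by omega)]

theorem Vn.pow {s : LaurentSeries ℂ} {m : ℤ} (h : Vn s m) (k : ℕ) : Vn (s ^ k) (k * m) := by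
  induction k with
  | zero => simpa using Vn.one
  | succ k ih =>
    rw [pow_succ]
    have := ih.mul h
    convert this using 1
    push_cast; ring

theorem Vn.prod {ι : Type*} (t : Finset ι) (g : ι → LaurentSeries ℂ) (m : ℤ)
    (h : ∀ b ∈ t, Vn (g b) m) : Vn (∏ b ∈ t, g b) (t.card * m) := by
  classical
  induction t using Finset.induction_on with
  | empty => simpa using Vn.one
  | insert a t ha ih =>
    rw [Finset.prod_insert ha, Finset.card_insert_of_notMem ha]
    have := (h a (Finset.mem_insert_self a t)).mul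
      (ih fun b hb => h b (Finset.mem_insert_of_mem hb))
    convert this using 1
    push_cast; ring

theorem Vn.twist {s : LaurentSeries ℂ} {m : ℤ} (h : Vn s m) (u : ℂˣ) : Vn (twist u s) m := by
  intro n hn
  rw [twist_coeff, h n hn, mul_zero]

theorem Vn.intCast (c : ℤ) : Vn (c : LaurentSeries ℂ) 0 := by
  intro n hn
  have : (c : LaurentSeries ℂ) = HahnSeries.C (c : ℂ) := (map_intCast HahnSeries.C c).symm
  rw [this, HahnSeries.C_apply, HahnSeries.coeff_single_of_ne (by omega)]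

theorem Vn.orderTop_pos {s : LaurentSeries ℂ} (h : Vn s 1) : 0 < s.orderTop := by
  have : ((1 : ℤ) : WithTop ℤ) ≤ s.orderTop := by
    rw [HahnSeries.le_orderTop_iff_forall]
    intro j hj
    exact h j (by exact_mod_cast hj)
  exact lt_of_lt_of_le (by exact_mod_cast zero_lt_one) this

theorem jFun_mem (N : ℕ) [NeZero N] : jFun ∈ perSub N := Btil_le_perSub N (jFun_mem_Btil N)

theorem TInf_jFun (N : ℕ) [NeZero N] :
    TInf N ⟨jFun, jFun_mem N⟩ = qExpand ℂ N (jqModC ℂ) := by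
  have : NeZero (1 * N) := ⟨by rw [one_mul]; exact NeZero.ne N⟩
  have h := TInf_jd N (one_dvd N)
  rw [qExpand_congr (one_mul N)] at h
  rw [← h]
  congr 1
  exact Subtype.ext jd_one.symm

theorem TInf_eval (N : ℕ) [NeZero N] (P : ℂ[X]) :
    ∃ h : (fun z => P.eval (jFun z)) ∈ perSub N,
      TInf N ⟨_, h⟩ = Polynomial.aeval (qExpand ℂ N (jqModC ℂ)) P := by
  induction P using Polynomial.induction_on' with
  | add p q hp hq =>
    obtain ⟨h1, e1⟩ := hp
    obtain ⟨h2, e2⟩ := hq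
    have e : (fun z => (p + q).eval (jFun z)) =
        (fun z => p.eval (jFun z)) + (fun z => q.eval (jFun z)) := by
      ext z; simp
    have hm : (fun z => (p + q).eval (jFun z)) ∈ perSub N := e ▸ add_mem h1 h2
    refine ⟨hm, ?_⟩
    have : (⟨_, hm⟩ : perSub N) = ⟨_, h1⟩ + ⟨_, h2⟩ := Subtype.ext e
    rw [this, map_add, e1, e2, map_add]
  | monomial n a =>
    have hc : (fun _ : ℍ => a) ∈ perSub N := (isBd_const N a).isPer
    have e : (fun z => (Polynomial.monomial n a).eval (jFun z)) = (fun _ : ℍ => a) * jFun ^ n := by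
      ext z; simp
    have hm : (fun z => (Polynomial.monomial n a).eval (jFun z)) ∈ perSub N :=
      e ▸ mul_mem hc (pow_mem (jFun_mem N) n)
    refine ⟨hm, ?_⟩
    have : (⟨_, hm⟩ : perSub N) = ⟨_, hc⟩ * ⟨jFun, jFun_mem N⟩ ^ n := Subtype.ext e
    rw [this, map_mul, map_pow, TInf_const, TInf_jFun, Polynomial.aeval_monomial,
      algebraMap_laurentSeries_eq_single]
    rfl

theorem act_T_pow_mem {N : ℕ} {f : ℍ → ℂ} (hf : f ∈ perSub N) (b : ℕ) :
    act (ModularGroup.T ^ b) f ∈ perSub N := by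
  induction b with
  | zero => rwa [pow_zero, act_one]
  | succ b ih =>
    rw [pow_succ', act_mul]
    exact act_T_mem_perSub ih

theorem Vn_act_T_pow {N : ℕ} [NeZero N] {f : ℍ → ℂ} (hf : f ∈ perSub N) {m : ℤ}
    (h : Vn (TInf N ⟨f, hf⟩) m) (b : ℕ) :
    Vn (TInf N ⟨act (ModularGroup.T ^ b) f, act_T_pow_mem hf b⟩) m := by
  induction b with
  | zero =>
    have : (⟨act (ModularGroup.T ^ 0) f, act_T_pow_mem hf 0⟩ : perSub N) = ⟨f, hf⟩ :=
      Subtype.ext (by show act (ModularGroup.T ^ 0) f = f; rw [pow_zero, act_one])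
    rwa [this]
  | succ b ih =>
    have : (⟨act (ModularGroup.T ^ (b + 1)) f, act_T_pow_mem hf (b + 1)⟩ : perSub N) =
        ⟨act ModularGroup.T (act (ModularGroup.T ^ b) f),
          act_T_mem_perSub (act_T_pow_mem hf b)⟩ :=
      Subtype.ext (by
        show act (ModularGroup.T ^ (b + 1)) f = act ModularGroup.T (act (ModularGroup.T ^ b) f)
        rw [pow_succ', act_mul])
    rw [this, TInf_act_T N ⟨act (ModularGroup.T ^ b) f, act_T_pow_mem hf b⟩]
    exact ih.twist _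

theorem Vn_xLinv (Λ : Line) : Vn (xLinv ℂ Λ) 1 := by
  have h1 := xL_mul_xLinv ℂ Λ
  have hx : xL ℂ Λ ≠ 0 := by
    intro h; rw [h, zero_mul] at h1; exact zero_ne_one h1
  have hy : xLinv ℂ Λ ≠ 0 := by
    intro h; rw [h, mul_zero] at h1; exact zero_ne_one h1
  have h2 := HahnSeries.order_mul hx hy
  rw [h1, order_xL, HahnSeries.order_one] at h2
  intro n hn
  exact HahnSeries.coeff_eq_zero_of_lt_order (by omega)

end XId

open XId

variable (Λ : Line) (hΛ : Λ = line2 ∨ Λ = line3)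

include hΛ

theorem fL_eq_zero : fL Λ = 0 := by
  have hr : Λ.r = 2 ∨ Λ.r = 3 := by
    rcases hΛ with rfl | rfl
    · left; rfl
    · right; rfl
  have hr0 : NeZero Λ.r := ⟨by rcases hr with h | h <;> omega⟩
  have hr1 : NeZero (Λ.r / 1) := ⟨by rw [Nat.div_one]; exact NeZero.ne _⟩
  set r := Λ.r with hrdef
  have hS : act ModularGroup.S (fL Λ) = fLS Λ := fL_S Λ hΛ
  have hinv : ∀ g, act g (norm23 r (fL Λ)) = norm23 r (fL Λ) :=
    norm23_inv r hr (fL Λ) (fL_T Λ) (by rw [hS]; exact fL_ST Λ hΛ)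
  have hf : fL Λ ∈ perSub r := NV.perSub_le_of_dvd (one_dvd r) (fL_mem Λ)
  have hg : fLS Λ ∈ perSub r := fLS_mem Λ hΛ
  -- the elements of `perSub r`
  let F : perSub r := ⟨fL Λ, hf⟩
  let G : ℕ → perSub r := fun b => ⟨act (ModularGroup.T ^ b) (fLS Λ), act_T_pow_mem hg b⟩
  let Nm : perSub r := F * ∏ b ∈ Finset.range r, G b
  have hNm : (Nm : ℍ → ℂ) = norm23 r (fL Λ) := by
    show (F : ℍ → ℂ) * ((∏ b ∈ Finset.range r, G b : perSub r) : ℍ → ℂ) = _
    have h1 : ((∏ b ∈ Finset.range r, G b : perSub r) : ℍ → ℂ) =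
        ∏ b ∈ Finset.range r, (G b : ℍ → ℂ) := map_prod (perSub r).subtype _ _
    rw [norm23, hS, h1]
  -- orders
  have hA : Vn (TInf r F) ((r : ℤ) * (1 - r)) := by
    have h1 : TInf r F = qExpand ℂ (r / 1) (TInf 1 ⟨fL Λ, fL_mem Λ⟩) :=
      NV.TInf_level (one_dvd r) ⟨fL Λ, fL_mem Λ⟩
    rw [h1, qExpand_congr (Nat.div_one r), TInf_fL]
    intro n hn
    by_cases hd : (r : ℤ) ∣ n
    · obtain ⟨k, rfl⟩ := hd
      rw [qExpand_coeff_mul]
      apply coef_inf ℂ Λ hΛ
      have hrpos : (0 : ℤ) < r := by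
        have := NeZero.ne r
        positivity
      have : k < 1 - r := lt_of_mul_lt_mul_left hn hrpos.le
      rw [← hrdef]
      omega
    · exact qExpand_coeff_of_not_dvd r _ hd
  have hB : Vn (TInf r ⟨fLS Λ, hg⟩) r := by
    rw [TInf_fLS Λ hg hΛ]
    have h1 : Vn ((Polynomial.aeval (xL ℂ Λ) (Cp Λ) : LaurentSeries ℂ) - jS ℂ Λ.r * xL ℂ Λ) (-1) :=
      fun n hn => coef_zero ℂ Λ hΛ n hn
    have h2 := (((Vn.intCast (cW Λ)).pow Λ.r).mul h1).mul ((Vn_xLinv Λ).pow (Λ.r + 1))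
    convert h2 using 1
    push_cast
    ring
  have hG : ∀ b ∈ Finset.range r, Vn (TInf r (G b)) r := fun b _ => Vn_act_T_pow hg hB b
  have hN : Vn (TInf r Nm) 1 := by
    have h1 := hA.mul (Vn.prod (Finset.range r) (fun b => TInf r (G b)) r hG)
    rw [Finset.card_range] at h1
    have h2 : TInf r Nm = TInf r F * ∏ b ∈ Finset.range r, TInf r (G b) := by
      rw [map_mul, map_prod]
    rw [h2]
    intro n hn
    apply h1
    have : (1 : ℤ) ≤ r := by
      have := NeZero.ne r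
      omega
    nlinarith
  -- polynomial in `j`
  obtain ⟨P, hP⟩ := NV.exists_poly_of_inv r (norm23 r (fL Λ)) (hNm ▸ Nm.2) hinv
  obtain ⟨hm, hT⟩ := TInf_eval r P
  have hNP : Nm = ⟨_, hm⟩ := Subtype.ext (by rw [hNm]; funext z; exact hP z)
  have hP0 : P = 0 := by
    apply S28.eq_zero_of_orderTop_aeval_pos (1 : ℂˣ) r P
    rw [← S28.evz_eq_ev, ← S28.qExpand_eq_evz, ← hT, ← hNP]
    exact hN.orderTop_pos
  have hz : TInf r Nm = 0 := by rw [hNP, hT, hP0, map_zero]
  have hz2 : TInf r F * ∏ b ∈ Finset.range r, TInf r (G b) = 0 := by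
    rw [← map_prod, ← map_mul]; exact hz
  have hinj := TInf_injective r
  rcases mul_eq_zero.mp hz2 with h | h
  · have : F = 0 := hinj (by rw [h, map_zero])
    exact congrArg Subtype.val this
  · obtain ⟨b, -, hb⟩ := Finset.prod_eq_zero_iff.mp h
    have h1 : G b = 0 := hinj (by rw [hb, map_zero])
    have h2 : act (ModularGroup.T ^ b) (fLS Λ) = 0 := congrArg Subtype.val h1
    have h3 : fLS Λ = 0 := theta_act_injective _ (by rw [h2, map_zero])
    rw [← hS] at h3
    exact theta_act_injective _ (by rw [h3, map_zero])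

theorem hL_rel (z : ℍ) :
    (Polynomial.aeval (hL Λ z) Λ.Bp : ℂ) = jFun z * Polynomial.aeval (hL Λ z) Λ.Ap := by
  have := congrFun (fL_eq_zero Λ hΛ) z
  exact sub_eq_zero.mp this

theorem hL_rel_r (z : ℍ) : (Polynomial.aeval (hL Λ z) (Cp Λ) : ℂ) = jd Λ.r z * hL Λ z := by
  set w : ℍ := ofComplex ((((Λ.r : ℕ) : ℂ) * (z : ℂ) + (0 : ℕ)) / (1 : ℕ)) with hw
  have h1 := hL_rel Λ hΛ (ModularGroup.S • w)
  have h2 := hL_fricke Λ hΛ z
  rw [← hw] at h2
  have h3 : jFun (ModularGroup.S • w) = jd Λ.r z := by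
    rw [jFun_smul]; rfl
  rw [h3] at h1
  have h0 := hL_ne_zero Λ z
  set a := hL Λ (ModularGroup.S • w)
  set h := hL Λ z
  set J := jd Λ.r z
  rcases hΛ with rfl | rfl
  · simp only [line2, Cp, cW, if_true, map_pow, map_add, aeval_X, map_ofNat] at h1 h2 ⊢
    have ha : a = 4096 / h := by
      rw [eq_div_iff h0]; exact_mod_cast h2
    rw [ha] at h1
    field_simp at h1
    have h4 : (256 : ℂ) ^ 3 * ((h + 16) ^ 3 - J * h) = 0 := by linear_combination h1
    have h5 := (mul_eq_zero.mp h4).resolve_left (by norm_num)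
    linear_combination h5
  · have hC : Cp line3 = (X + 27) * (X + 3) ^ 3 := by simp [Cp, line3]
    have hc : cW line3 = 729 := by simp [cW, line3]
    rw [hC]
    rw [hc] at h2
    simp only [line3, map_pow, map_add, map_mul, aeval_X, map_ofNat] at h1 h2 ⊢
    have ha : a = 729 / h := by
      rw [eq_div_iff h0]; exact_mod_cast h2
    rw [ha] at h1
    field_simp at h1
    have h4 : (729 : ℂ) ^ 3 * ((h + 27) * (h + 3) ^ 3 - J * h) = 0 := by linear_combination h1
    have h5 := (mul_eq_zero.mp h4).resolve_left (by norm_num)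
    linear_combination h5

end Fermat.Agent.Mod
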